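/-
S55 / CFT (PT5, local instance) — helper4.
The finite levels of `(G_q, B_q)`: every level `B_q^U = (F·ℚ_q)ˣ` carries a `p`-primary fundamental
class (the local fundamental class) and satisfies Hilbert 90 on all subgroups.
-/
import Fermat.Agent.CFT.Local.PadicPairs
import Fermat.Agent.CFT.Local.Reciprocity
import Fermat.Agent.CFT.Coh.PFundTransport_helper4

set_option autoImplicit false
set_option linter.unusedSectionVars false
set_option linter.style.haveILetI false

open CategoryTheory groupCohomology Rep

namespace Fermat.Agent.CFT.Coh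

section Vanish

variable {k G G' : Type} [CommRing k] [Group G] [Group G'] {A : Rep.{0} k G}

/-- Transport of the vanishing of `Hⁿ` of all subgroups along an injective group homomorphism and
an isomorphism of coefficients. -/
theorem eq_zero_of_injective (n : ℕ)
    (h : ∀ (S : Subgroup G) (x : groupCohomology (res S.subtype A) n), x = 0)
    (ψ : G' →* G) (hψ : Function.Injective ψ)
    (B : Rep.{0} k G') (φ : res ψ A ⟶ B) (hφ : Function.Bijective φ.hom)
    (x : groupCohomology B n) : x = 0 := by
  obtain ⟨Φ, -⟩ := exists_iso_of_injective A ψ hψ B φ hφ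
  have h2 := h _ ((Φ n).inv.hom x)
  have h3 : (Φ n).hom.hom ((Φ n).inv.hom x) = x :=
    congrArg (fun t => t.hom x) (Φ n).inv_hom_id
  rw [← h3, h2, map_zero]

/-- The same for all subgroups of the source group. -/
theorem eq_zero_of_injective_sub (n : ℕ)
    (h : ∀ (S : Subgroup G) (x : groupCohomology (res S.subtype A) n), x = 0)
    (ψ : G' →* G) (hψ : Function.Injective ψ)
    (B : Rep.{0} k G') (φ : res ψ A ⟶ B) (hφ : Function.Bijective φ.hom)
    (S' : Subgroup G') (x : groupCohomology (res S'.subtype B) n) : x = 0 :=
  eq_zero_of_injective n h (ψ.comp S'.subtype) (hψ.comp Subtype.val_injective)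
    (res S'.subtype B) (resSubHom ψ B φ S') (resSubHom_bijective ψ B φ S' hφ) x

end Vanish

end Fermat.Agent.CFT.Coh

namespace Fermat.Agent.CFT.LocForm

open Fermat.Agent.CFT.Coh Fermat.Agent.CFT.Local

section Transport

variable {q : ℕ} [Fact q.Prime] {F : IntermediateField ℚ (AlgebraicClosure ℚ)}
  (hF : IsStableField F) [FiniteDimensional ℚ F]
  {U : Subgroup (PadicAlgCl q ≃ₐ[ℚ_[q]] PadicAlgCl q)} [U.Normal]
  (hU : U = (localLevel q F).fixingSubgroup)

/-- The identification `(F·ℚ_q)ˣ → B_q^U` as a morphism of representations of `G_q ⧸ U`. -/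
noncomputable def levelCoeffHom :
    res (levelQuotEquiv hF hU).toMonoidHom (Rep.ofAlgebraAutOnUnits ℚ_[q] (localLevel q F)) ⟶
      (levelUnitsRep q).quotientToInvariants U :=
  Rep.ofHom ⟨levelInvLin hU, fun g => by
    induction g using QuotientGroup.induction_on with
    | H τ =>
      refine LinearMap.ext fun v => ?_
      obtain ⟨x, rfl⟩ := ofU_surjective ℚ_[q] (localLevel q F) v
      apply Subtype.ext
      apply toB_injective
      apply Subtype.ext
      apply Units.ext
      exact levelProj_commutes hF τ (x : localLevel q F)⟩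

lemma levelCoeffHom_bijective : Function.Bijective (levelCoeffHom hF hU).hom :=
  ⟨levelInvLin_injective hU, levelInvLin_surjective hU⟩

include hF hU in
/-- **Every finite level of `(G_q, B_q)` carries a `p`-primary fundamental class.** -/
theorem exists_isPFundamental_level (p : ℕ) :
    ∃ γ : groupCohomology ((levelUnitsRep q).quotientToInvariants U) 2,
      IsPFundamental p ((levelUnitsRep q).quotientToInvariants U) γ := by
  haveI := isGalois_localLevel (q := q) hF
  have h0 := (isFundamentalCocycle_localFundCocycle ℤ_[q] ℚ_[q] (localLevel q F)).isPFundamental p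
  have h1 := IsPFundamental.of_injective (A := Rep.ofAlgebraAutOnUnits ℚ_[q] (localLevel q F)) h0
    (levelQuotEquiv hF hU).toMonoidHom (levelQuotEquiv hF hU).injective
    ((levelUnitsRep q).quotientToInvariants U) (levelCoeffHom hF hU)
    (levelCoeffHom_bijective hF hU)
  exact ⟨_, h1⟩

include hF hU in
/-- **Hilbert 90 at every finite level of `(G_q, B_q)`, on all subgroups.** -/
theorem h90_level (S : Subgroup ((PadicAlgCl q ≃ₐ[ℚ_[q]] PadicAlgCl q) ⧸ U))
    (x : groupCohomology (res S.subtype ((levelUnitsRep q).quotientToInvariants U)) 1) : x = 0 := by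
  haveI := isGalois_localLevel (q := q) hF
  refine eq_zero_of_injective_sub 1 ?_ (levelQuotEquiv hF hU).toMonoidHom
    (levelQuotEquiv hF hU).injective _ (levelCoeffHom hF hU) (levelCoeffHom_bijective hF hU) S x
  intro S' y
  exact (ModuleCat.isZero_iff_subsingleton.1
    (isZero_H1_res_subgroup ℚ_[q] (localLevel q F) S')).elim _ _

end Transport

end Fermat.Agent.CFT.LocForm
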