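/-
S55 / CFT (PT5, local instance) — helper4.
`(G_q, B_q)` as a smooth module for the fine local basis (pull-back of all finite Galois levels of
`ℚbar/ℚ`): fundamental classes at all levels and Hilbert 90 for all open subgroups.
-/
import Fermat.Agent.CFT.LocForm.Levels_helper4
import Fermat.Agent.CFT.Bridge.LocalMu_helper6
import Fermat.Agent.CFT.Sm.CF_helper4_PFormation

set_option autoImplicit false
set_option linter.unusedSectionVars false
set_option linter.style.haveILetI false

open CategoryTheory CategoryTheory.Limits groupCohomology Rep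

namespace Fermat.Agent.CFT.LocForm

open Fermat.Agent.CFT.Coh Fermat.Agent.CFT.Local Fermat.Agent.CFT.Sm Fermat.Agent.CFT.Bridge

variable (q : ℕ) [Fact q.Prime]

/-- The fine basis of `G_q`: the pull-back of all finite Galois levels of `ℚbar/ℚ`. -/
noncomputable abbrev padicBasis : OpenBasis (PadicAlgCl q ≃ₐ[ℚ_[q]] PadicAlgCl q) :=
  fullBasis.comap (localGaloisToGlobal q)

variable {q}

lemma mem_padicBasis_sets {U : Subgroup (PadicAlgCl q ≃ₐ[ℚ_[q]] PadicAlgCl q)} :
    U ∈ (padicBasis q).sets ↔ ∃ F : IntermediateField ℚ (AlgebraicClosure ℚ),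
      IsFullLevel F ∧ U = (localLevel q F).fixingSubgroup := by
  constructor
  · rintro ⟨_, ⟨F, hF, rfl⟩, rfl⟩
    exact ⟨F, hF, (fixingSubgroup_localLevel F).symm⟩
  · rintro ⟨F, hF, rfl⟩
    exact ⟨_, ⟨F, hF, rfl⟩, (fixingSubgroup_localLevel F).symm⟩

variable (q)

theorem isSmooth_levelUnitsRep : IsSmooth (padicBasis q) (levelUnitsRep q) := by
  intro b
  obtain ⟨F, hF, hx⟩ := (toB b).2
  obtain ⟨F', hF', hle⟩ := exists_isFullLevel_ge F
  refine ⟨F'.fixingSubgroup.comap (localGaloisToGlobal q), ⟨_, ⟨F', hF', rfl⟩, rfl⟩, ?_⟩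
  intro τ hτ
  have h1 : localGaloisToGlobal q τ ∈ F'.fixingSubgroup := hτ
  have h2 : τ ∈ (localLevel q F).fixingSubgroup :=
    (mem_fixingSubgroup_localLevel_iff F τ).2
      (IntermediateField.fixingSubgroup_antitone hle h1)
  apply toB_injective
  apply Subtype.ext
  apply Units.ext
  change τ (((toB b : levelUnits q) : (PadicAlgCl q)ˣ) : PadicAlgCl q) = _
  exact (IntermediateField.mem_fixingSubgroup_iff _ _).1 h2 _ hx

/-- `B_q` as a smooth representation of `(G_q, padicBasis q)`. -/
noncomputable def padicBSm : SmRep ℤ (padicBasis q) :=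
  mkSm (padicBasis q) (levelUnitsRep q) (isSmooth_levelUnitsRep q)

/-- (fund) -/
theorem padic_fund (p : ℕ) (V : Subgroup (PadicAlgCl q ≃ₐ[ℚ_[q]] PadicAlgCl q)) [V.Normal]
    (hV : V ∈ (padicBasis q).sets) :
    ∃ γ : groupCohomology (levelRep (padicBSm q) V) 2,
      IsPFundamental p (levelRep (padicBSm q) V) γ := by
  obtain ⟨F, hF, hVF⟩ := mem_padicBasis_sets.1 hV
  haveI := hF.1
  exact exists_isPFundamental_level hF.2 hVF p

/-- **(H90)** for all open subgroups of `G_q`. -/
theorem padic_h90 (W : Subgroup (PadicAlgCl q ≃ₐ[ℚ_[q]] PadicAlgCl q))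
    (hW : (padicBasis q).IsOpen W)
    (x : smH ((padicBasis q).sub W) (resSub (padicBSm q) W) 1) : x = 0 := by
  have hz : IsZero (smH ((padicBasis q).sub W) (resSub (padicBSm q) W) 1) := by
    refine isZero_smH_of_cofinal _ 1 ?_
    rintro _ ⟨U, hU, rfl⟩
    obtain ⟨V, hV, hVle⟩ := OpenBasis.IsOpen.inf _ ((padicBasis q).isOpen_of_mem hU) hW
    refine ⟨V.subgroupOf W, ⟨V, hV, rfl⟩, Subgroup.comap_mono (hVle.trans inf_le_left), ?_⟩
    haveI := (padicBasis q).normal V hV
    obtain ⟨F, hF, hVF⟩ := mem_padicBasis_sets.1 hV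
    haveI := hF.1
    have key : ∀ y : groupCohomology (levelRep (resSub (padicBSm q) W) (V.subgroupOf W)) 1,
        y = 0 := fun y =>
      eq_zero_of_injective 1 (h90_level hF.2 hVF) (levelResHom W V) (levelResHom_injective W V) _
        (levelResLift (padicBSm q) W V)
        (levelResLift_bijective (padicBSm q) W V (hVle.trans inf_le_right)) y
    haveI : Subsingleton (groupCohomology (levelRep (resSub (padicBSm q) W) (V.subgroupOf W)) 1) :=
      ⟨fun a b => by rw [key a, key b]⟩
    exact ModuleCat.isZero_of_subsingleton _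
  exact (ModuleCat.isZero_iff_subsingleton.1 hz).elim _ _

end Fermat.Agent.CFT.LocForm
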