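/-
S55 / CFT (PT5, local instance) — helper4.
Finiteness of `B_q^U / p` (`= Kˣ / Kˣ^p` for the fixed field `K` of `U`).
-/
import Fermat.Agent.CFT.LocForm.Smooth_helper4
import Fermat.Agent.CFT.Global.G3b_helper8_PowIndex

set_option autoImplicit false
set_option linter.unusedSectionVars false
set_option linter.style.haveILetI false

open CategoryTheory groupCohomology Rep IsLocalRing

namespace Fermat.Agent.CFT.LocForm

open Fermat.Agent.CFT.Coh Fermat.Agent.CFT.Local Fermat.Agent.CFT.Sm Fermat.Agent.CFT.Bridge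

variable (q : ℕ) [Fact q.Prime]

/-- The units of a subfield of a level field, as elements of `B_q`. -/
noncomputable def subfieldUnitsHom (K : IntermediateField ℚ_[q] (PadicAlgCl q))
    (F : IntermediateField ℚ (AlgebraicClosure ℚ)) [FiniteDimensional ℚ F]
    (hKL : K ≤ localLevel q F) : Kˣ →* levelUnits q where
  toFun x := ⟨Units.map (K.val : K →* PadicAlgCl q) x, F, inferInstance, hKL (x : K).2⟩
  map_one' := Subtype.ext (map_one _)
  map_mul' x y := Subtype.ext (map_mul _ x y)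

lemma coe_subfieldUnitsHom (K : IntermediateField ℚ_[q] (PadicAlgCl q))
    (F : IntermediateField ℚ (AlgebraicClosure ℚ)) [FiniteDimensional ℚ F]
    (hKL : K ≤ localLevel q F) (x : Kˣ) :
    (((subfieldUnitsHom q K F hKL x : levelUnits q) : (PadicAlgCl q)ˣ) : PadicAlgCl q) =
      ((x : K) : PadicAlgCl q) := rfl

/-- **(fin)** for `(G_q, B_q)`. -/
theorem padic_fin (p : ℕ) (hp : p.Prime)
    (U : Subgroup (PadicAlgCl q ≃ₐ[ℚ_[q]] PadicAlgCl q)) (hU : (padicBasis q).IsOpen U) :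
    ∃ T : Finset (padicBSm q).obj.V, ∀ c : (padicBSm q).obj.V,
      (∀ g ∈ U, (padicBSm q).obj.ρ g c = c) →
      ∃ t ∈ T, ∃ c' : (padicBSm q).obj.V, (∀ g ∈ U, (padicBSm q).obj.ρ g c' = c') ∧
        c = t + p • c' := by
  classical
  obtain ⟨V, hV, hVU⟩ := hU
  obtain ⟨F, hF, rfl⟩ := mem_padicBasis_sets.1 hV
  haveI := hF.1
  obtain ⟨K, hK⟩ : ∃ K : IntermediateField ℚ_[q] (PadicAlgCl q),
      K = IntermediateField.fixedField U := ⟨_, rfl⟩
  have hKmem : ∀ x : PadicAlgCl q, x ∈ K ↔ ∀ τ ∈ U, τ x = x := by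
    intro x
    rw [hK, IntermediateField.mem_fixedField_iff]
  have hKL : K ≤ localLevel q F := fun x hx =>
    mem_of_fixed _ (fun τ hτ => (hKmem x).1 hx τ (hVU hτ))
  haveI : FiniteDimensional ℚ_[q] K :=
    Module.Finite.of_injective (IntermediateField.inclusion hKL).toLinearMap
      (IntermediateField.inclusion_injective hKL)
  obtain ⟨hfin, -⟩ := card_units_quotient_pow_le_padic q K hp
  letI := Fintype.ofFinite (Kˣ ⧸ (powMonoidHom p : Kˣ →* Kˣ).range)
  refine ⟨Finset.univ.image (fun c : Kˣ ⧸ (powMonoidHom p : Kˣ →* Kˣ).range =>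
    ofB (subfieldUnitsHom q K F hKL c.out)), ?_⟩
  intro c hc
  have hcK : (((toB c : levelUnits q) : (PadicAlgCl q)ˣ) : PadicAlgCl q) ∈ K := by
    rw [hKmem]
    intro τ hτ
    exact congrArg (fun z : (levelUnitsRep q).V =>
      (((toB z : levelUnits q) : (PadicAlgCl q)ˣ) : PadicAlgCl q)) (hc τ hτ)
  have hne : (⟨_, hcK⟩ : K) ≠ 0 := by
    intro h0
    have := congrArg (fun z : K => (z : PadicAlgCl q)) h0
    exact ((toB c : levelUnits q) : (PadicAlgCl q)ˣ).ne_zero this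
  obtain ⟨x, hx⟩ : ∃ x : Kˣ, x = Units.mk0 ⟨_, hcK⟩ hne := ⟨_, rfl⟩
  obtain ⟨h, hh⟩ := QuotientGroup.mk_out_eq_mul (powMonoidHom p : Kˣ →* Kˣ).range x
  obtain ⟨y, hy⟩ := h.2
  have hxy : x = (QuotientGroup.mk x : Kˣ ⧸ (powMonoidHom p : Kˣ →* Kˣ).range).out * y⁻¹ ^ p := by
    rw [hh, ← hy, powMonoidHom_apply, mul_assoc, ← mul_pow, mul_inv_cancel, one_pow, mul_one]
  refine ⟨ofB (subfieldUnitsHom q K F hKL
      (QuotientGroup.mk x : Kˣ ⧸ (powMonoidHom p : Kˣ →* Kˣ).range).out),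
    Finset.mem_image.2 ⟨_, Finset.mem_univ _, rfl⟩, ofB (subfieldUnitsHom q K F hKL y⁻¹), ?_, ?_⟩
  · intro g hg
    apply toB_injective
    apply Subtype.ext
    apply Units.ext
    exact (hKmem _).1 ((y⁻¹ : Kˣ) : K).2 g hg
  · apply toB_injective
    have h1 : toB c = subfieldUnitsHom q K F hKL x := by
      apply Subtype.ext
      apply Units.ext
      rw [coe_subfieldUnitsHom, hx]
      rfl
    rw [h1]
    conv_lhs => rw [hxy]
    rw [map_mul, map_pow]
    rfl

end Fermat.Agent.CFT.LocForm
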