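/-
S55 / CFT (PT5, local instance) — helper4.
`p`-cofinality of the levels of `(G_q, B_q)`: adjoin the roots of unity of order `q^(p d) - 1`
(the unramified extension of degree `p d`).
-/
import Fermat.Agent.CFT.LocForm.Smooth_helper4
import Fermat.Agent.CFT.Local.FundClass

set_option autoImplicit false
set_option linter.unusedSectionVars false
set_option linter.style.haveILetI false

open CategoryTheory groupCohomology Rep IsLocalRing

namespace Fermat.Agent.CFT.LocForm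

open Fermat.Agent.CFT.Coh Fermat.Agent.CFT.Local Fermat.Agent.CFT.Sm Fermat.Agent.CFT.Bridge

variable (q : ℕ) [Fact q.Prime]

lemma resCard_padicInt : resCard ℤ_[q] = q := by
  rw [resCard, Nat.card_congr (PadicInt.residueField (p := q)).toEquiv, Nat.card_zmod]

/-- **(pcof)** for the levels of `(G_q, B_q)`. -/
theorem padic_pcof (p : ℕ) (hp : p.Prime) :
    ∀ V ∈ (padicBasis q).sets, ∃ W ∈ (padicBasis q).sets, W ≤ V ∧ p ∣ W.index / V.index := by
  intro V hV
  obtain ⟨F, hF, rfl⟩ := mem_padicBasis_sets.1 hV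
  haveI := hF.1
  obtain ⟨d, hd⟩ : ∃ d : ℕ, d = (localLevel q F).fixingSubgroup.index := ⟨_, rfl⟩
  have hd0 : 0 < d := by
    rw [hd, ← IntermediateField.finrank_eq_fixingSubgroup_index]
    exact Module.finrank_pos
  obtain ⟨f, hf⟩ : ∃ f : ℕ, f = p * d := ⟨_, rfl⟩
  have hf0 : 0 < f := by rw [hf]; exact Nat.mul_pos hp.pos hd0
  have hq2 : 2 ≤ q := (Fact.out : q.Prime).two_le
  obtain ⟨m, hm⟩ : ∃ m : ℕ, m = q ^ f - 1 := ⟨_, rfl⟩
  have hqf : 2 ≤ q ^ f := by
    calc 2 ≤ q ^ 1 := by rw [pow_one]; exact hq2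
      _ ≤ q ^ f := Nat.pow_le_pow_right (by omega) hf0
  have hm0 : m ≠ 0 := by omega
  haveI : NeZero m := ⟨hm0⟩
  obtain ⟨ζ, hζ⟩ := HasEnoughRootsOfUnity.exists_primitiveRoot (AlgebraicClosure ℚ) m
  haveI : FiniteDimensional ℚ (IntermediateField.adjoin ℚ {ζ}) :=
    IntermediateField.adjoin.finiteDimensional (Algebra.IsIntegral.isIntegral ζ)
  obtain ⟨F₁, hF₁, hle₁⟩ := exists_isFullLevel_ge (IntermediateField.adjoin ℚ {ζ})
  have hF' : IsFullLevel (F ⊔ F₁) := hF.sup hF₁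
  have hle : (localLevel q (F ⊔ F₁)).fixingSubgroup ≤ (localLevel q F).fixingSubgroup :=
    IntermediateField.fixingSubgroup_antitone (localLevel_mono le_sup_left)
  refine ⟨(localLevel q (F ⊔ F₁)).fixingSubgroup, mem_padicBasis_sets.2 ⟨_, hF', rfl⟩, hle, ?_⟩
  -- the cyclotomic subfield
  have hprim : IsPrimitiveRoot (padicEmbedding q ζ) m :=
    hζ.map_of_injective (padicEmbedding q).injective
  haveI : IsCyclotomicExtension {m} ℚ_[q] (cycSub ℚ_[q] (PadicAlgCl q) m) :=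
    isCyclotomicExtension_cycSub _ _ m ⟨_, hprim⟩
  have hunit : IsUnit ((m : ℕ) : ℤ_[q]) := by
    have := isUnit_natCast_resCard_pow_sub_one ℤ_[q] (n := f) hf0.ne'
    rwa [resCard_padicInt, ← hm] at this
  have hM : Module.finrank ℚ_[q] (cycSub ℚ_[q] (PadicAlgCl q) m) = f := by
    rw [finrank_cyclotomic ℤ_[q] ℚ_[q] (cycSub ℚ_[q] (PadicAlgCl q) m) m hunit, resCard_padicInt, hm]
    exact orderOf_natCast_pow_sub_one hq2 hf0
  have hML : cycSub ℚ_[q] (PadicAlgCl q) m ≤ localLevel q (F ⊔ F₁) := by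
    rw [cycSub_le_iff]
    intro ξ _ hξ
    obtain ⟨i, -, rfl⟩ := hprim.eq_pow_of_pow_eq_one hξ
    exact pow_mem (localLevel_mono le_sup_right (padicEmbedding_mem_localLevel
      (hle₁ (IntermediateField.mem_adjoin_simple_self ℚ ζ)))) i
  -- indices
  obtain ⟨w, hw⟩ : ∃ w : ℕ, w = (localLevel q (F ⊔ F₁)).fixingSubgroup.index := ⟨_, rfl⟩
  rw [← hw, ← hd]
  have h1 : d ∣ w := by rw [hd, hw]; exact Subgroup.index_dvd_of_le hle
  have h2 : f ∣ w := by
    have h3 : (cycSub ℚ_[q] (PadicAlgCl q) m).fixingSubgroup.index ∣ w := by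
      rw [hw]
      exact Subgroup.index_dvd_of_le (IntermediateField.fixingSubgroup_antitone hML)
    rwa [← IntermediateField.finrank_eq_fixingSubgroup_index, hM] at h3
  obtain ⟨k, rfl⟩ := h1
  rw [Nat.mul_div_cancel_left k hd0]
  rw [hf, mul_comm p d] at h2
  exact Nat.dvd_of_mul_dvd_mul_left hd0 h2

end Fermat.Agent.CFT.LocForm
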