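/-
S55 / CFT (PT5, local instance) — helper4.
**The local `p`-class formation** `(G_q, locBasis q, B_q)`: the fields `locForm`, `h90` of helper9's
`PTDatum` for helper6's `BSm q`, together with the divisibility of `B_q`.
-/
import Fermat.Agent.CFT.LocForm.PCof_helper4
import Fermat.Agent.CFT.LocForm.Fin_helper4

set_option autoImplicit false
set_option linter.unusedSectionVars false
set_option linter.style.haveILetI false

open CategoryTheory groupCohomology Rep ExtCitation

namespace Fermat.Agent.CFT.LocForm

open Fermat.Agent.CFT.Coh Fermat.Agent.CFT.Local Fermat.Agent.CFT.Sm Fermat.Agent.CFT.Bridge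

section Generic

variable (q : ℕ) [Fact q.Prime] (p : ℕ) [hp : Fact p.Prime]

/-- The level formation of `(G_q, B_q)`: all finite Galois levels. -/
noncomputable def padicPLevelFormation : PLevelFormation (padicBasis q) p (padicBSm q) where
  toLevelFamily := LevelFamily.all (padicBasis q)
  fund V _ hV := padic_fund q p V hV
  pcof := padic_pcof q p hp.out
  fin := padic_fin q p hp.out

/-- **The local `p`-class formation.** -/
noncomputable def padicPClassFormation : PClassFormation (padicBasis q) p (padicBSm q) :=
  (padicPLevelFormation q p).toPClassFormation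

/-- `B_q` is `p`-divisible. -/
theorem padic_div (b : (padicBSm q).obj.V) : ∃ b' : (padicBSm q).obj.V, p • b' = b := by
  obtain ⟨y, hy⟩ := exists_pow_eq_levelUnits p hp.out (toB b)
  refine ⟨ofB y, ?_⟩
  apply toB_injective
  exact hy

end Generic

section Wrapper

variable (q : Nat.Primes) (p : ℕ) [hp : Fact p.Prime]

/-- **The local `p`-class formation** for helper6's `BSm q` over the fine local basis. -/
noncomputable def locPClassFormation : PClassFormation (locBasis q) p (BSm q) :=
  haveI : Fact (q : ℕ).Prime := ⟨q.2⟩
  padicPClassFormation (q : ℕ) p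

/-- **(H90)** for all open subgroups of the local group. -/
theorem loc_h90 (W : Subgroup (primeLocalGaloisGroup q)) (hW : (locBasis q).IsOpen W)
    (x : smH ((locBasis q).sub W) (resSub (BSm q) W) 1) : x = 0 :=
  haveI : Fact (q : ℕ).Prime := ⟨q.2⟩
  padic_h90 (q : ℕ) W hW x

/-- **(DIV)** `B_q` is `p`-divisible. -/
theorem loc_div (b : (BSm q).obj.V) : ∃ b' : (BSm q).obj.V, p • b' = b :=
  haveI : Fact (q : ℕ).Prime := ⟨q.2⟩
  padic_div (q : ℕ) p b

end Wrapper

end Fermat.Agent.CFT.LocForm
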