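/-
S55 / CFT (PT5, local instance) — helper4.
`H³(W, B_q) = 0` for all open subgroups `W` of `G_q` (Tate: `H³(Gal(L/K), Lˣ) = 0` for local fields,
from the fundamental cocycle, helper3's `p`-group case and helper9's Sylow injectivity).
-/
import Fermat.Agent.CFT.LocForm.Main_helper4
import Fermat.Agent.CFT.Coh.TateH3_helper3
import Fermat.Agent.CFT.Coh.ResDelta_helper9

set_option autoImplicit false
set_option linter.unusedSectionVars false
set_option linter.style.haveILetI false

open CategoryTheory CategoryTheory.Limits groupCohomology Rep IsLocalRing ExtCitation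

namespace Fermat.Agent.CFT.LocForm

open Fermat.Agent.CFT.Coh Fermat.Agent.CFT.Local Fermat.Agent.CFT.Sm Fermat.Agent.CFT.Bridge

section Finite

variable (A K L : Type) [CommRing A] [IsDomain A] [IsDiscreteValuationRing A]
  [IsAdicComplete (maximalIdeal A) A] [Finite (ResidueField A)]
  [Field K] [Algebra A K] [IsFractionRing A K]
  [Field L] [Algebra K L] [FiniteDimensional K L] [IsGalois K L]
  [Algebra A L] [IsScalarTower A K L]

include A in
/-- **Tate**: `H³(Gal(L/K), Lˣ) = 0` for a finite Galois extension of local fields. -/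
theorem h3_units_eq_zero (x : groupCohomology (Rep.ofAlgebraAutOnUnits K L) 3) : x = 0 := by
  have hf := isFundamentalCocycle_localFundCocycle A K L
  refine eq_zero_of_res_sylow_eq_zero (Rep.ofAlgebraAutOnUnits K L) 2 x ?_
  intro p _ _
  obtain ⟨Q⟩ : Nonempty (Sylow p (L ≃ₐ[K] L)) := inferInstance
  have hz := isZero_H3_of_isFundamentalCocycle hf p (Q : Subgroup (L ≃ₐ[K] L)) Q.isPGroup'
  exact ⟨Q, (ModuleCat.isZero_iff_subsingleton.1 hz).elim _ _⟩

include A in
/-- The same on every subgroup. -/
theorem h3_units_res_eq_zero (S : Subgroup (L ≃ₐ[K] L))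
    (x : groupCohomology (res S.subtype (Rep.ofAlgebraAutOnUnits K L)) 3) : x = 0 := by
  obtain ⟨e⟩ := groupCohomology_res_subgroup_equiv K L S 3
  set F := IntermediateField.fixedField S with hF
  haveI : FiniteDimensional F L := FiniteDimensional.right K F L
  haveI : IsGalois F L := IsGalois.tower_top_of_isGalois K F L
  haveI : Algebra.IsSeparable K F := inferInstance
  obtain ⟨_, _, _, _, _, _, hres⟩ := exists_localExt_instances A K F (integralClosure A F)
  haveI := hres inferInstance
  have h := h3_units_eq_zero (integralClosure A F) F L (e x)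
  exact (AddEquiv.map_eq_zero_iff e).1 h

end Finite

section Smooth

variable (q : ℕ) [Fact q.Prime]

/-- Vanishing of `Hⁿ` on all subgroups of all finite levels of `(G_q, B_q)` gives the vanishing of
smooth cohomology of all open subgroups. -/
theorem padic_smH_eq_zero (n : ℕ)
    (hn : ∀ (F : IntermediateField ℚ (AlgebraicClosure ℚ)) [FiniteDimensional ℚ F]
      (_ : IsStableField F) (S : Subgroup (localLevel q F ≃ₐ[ℚ_[q]] localLevel q F))
      (x : groupCohomology (res S.subtype (Rep.ofAlgebraAutOnUnits ℚ_[q] (localLevel q F))) n),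
      x = 0)
    (W : Subgroup (PadicAlgCl q ≃ₐ[ℚ_[q]] PadicAlgCl q)) (hW : (padicBasis q).IsOpen W)
    (x : smH ((padicBasis q).sub W) (resSub (padicBSm q) W) n) : x = 0 := by
  have hz : IsZero (smH ((padicBasis q).sub W) (resSub (padicBSm q) W) n) := by
    refine isZero_smH_of_cofinal _ n ?_
    rintro _ ⟨U, hU, rfl⟩
    obtain ⟨V, hV, hVle⟩ := OpenBasis.IsOpen.inf _ ((padicBasis q).isOpen_of_mem hU) hW
    refine ⟨V.subgroupOf W, ⟨V, hV, rfl⟩, Subgroup.comap_mono (hVle.trans inf_le_left), ?_⟩
    haveI := (padicBasis q).normal V hV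
    obtain ⟨F, hF, hVF⟩ := mem_padicBasis_sets.1 hV
    haveI := hF.1
    have hlev : ∀ (S : Subgroup ((PadicAlgCl q ≃ₐ[ℚ_[q]] PadicAlgCl q) ⧸ V))
        (y : groupCohomology (res S.subtype ((levelUnitsRep q).quotientToInvariants V)) n),
        y = 0 := fun S y =>
      eq_zero_of_injective_sub n (hn F hF.2) (levelQuotEquiv hF.2 hVF).toMonoidHom
        (levelQuotEquiv hF.2 hVF).injective _ (levelCoeffHom hF.2 hVF)
        (levelCoeffHom_bijective hF.2 hVF) S y
    have key : ∀ y : groupCohomology (levelRep (resSub (padicBSm q) W) (V.subgroupOf W)) n,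
        y = 0 := fun y =>
      eq_zero_of_injective n hlev (levelResHom W V) (levelResHom_injective W V) _
        (levelResLift (padicBSm q) W V)
        (levelResLift_bijective (padicBSm q) W V (hVle.trans inf_le_right)) y
    haveI : Subsingleton (groupCohomology (levelRep (resSub (padicBSm q) W) (V.subgroupOf W)) n) :=
      ⟨fun a b => by rw [key a, key b]⟩
    exact ModuleCat.isZero_of_subsingleton _
  exact (ModuleCat.isZero_iff_subsingleton.1 hz).elim _ _

/-- **`H³(W, B_q) = 0`** for all open subgroups `W` of `G_q`. -/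
theorem padic_h3 (W : Subgroup (PadicAlgCl q ≃ₐ[ℚ_[q]] PadicAlgCl q))
    (hW : (padicBasis q).IsOpen W)
    (x : smH ((padicBasis q).sub W) (resSub (padicBSm q) W) 3) : x = 0 := by
  refine padic_smH_eq_zero q 3 ?_ W hW x
  intro F _ hF S y
  haveI := isGalois_localLevel (q := q) hF
  exact h3_units_res_eq_zero ℤ_[q] ℚ_[q] (localLevel q F) S y

end Smooth

/-- **`H³(W, B_q) = 0`** for all open subgroups `W` of the local group (helper6's `BSm q`). -/
theorem loc_h3 (q : Nat.Primes) (W : Subgroup (primeLocalGaloisGroup q))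
    (hW : (locBasis q).IsOpen W)
    (x : smH ((locBasis q).sub W) (resSub (BSm q) W) 3) : x = 0 :=
  haveI : Fact (q : ℕ).Prime := ⟨q.2⟩
  padic_h3 (q : ℕ) W hW x

end Fermat.Agent.CFT.LocForm
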