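/-
S56 / CFT (leaf LD) — helper4.
**The existence theorem mod `p` from Kummer theory, abstractly.**  For a `p`-class formation module
`C` which is `p`-divisible, whose `p`-torsion is generated by an invariant element `z ≠ 0`
(so `C[p] ≅ ℤ/p` with trivial action) and with `C^Γ / p` finite, the Kummer sequence
`0 → ℤ/p → C → C → 0` yields an injection `C^Γ / p ↪ H¹(Γ, ℤ/p)`; together with the surjectivity
of reciprocity and helper1's counting lemma this gives the kernel of reciprocity `= p C^Γ`.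
-/
import Fermat.Agent.CFT.Sm.RecKer_helper1
import Fermat.Agent.CFT.Sm.GoodRes_helper2
import Fermat.Agent.CFT.Sm.Transfer_helper5_Epi

set_option autoImplicit false
set_option linter.unusedSectionVars false
set_option linter.style.haveILetI false

open CategoryTheory CategoryTheory.Limits

namespace Fermat.Agent.CFT.LocForm

open Fermat.Agent.CFT.Sm

variable {Γ : Type} [Group Γ] {𝒰 : OpenBasis Γ} (p : ℕ) [hp : Fact p.Prime] (C : SmRep ℤ 𝒰)

section Generic

variable {k : Type} [CommRing k] {X : ShortComplex (SmRep k 𝒰)} (hX : X.ShortExact)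

/-- the connecting map `H⁰(X₃) → H¹(X₁)` on invariant elements. -/
noncomputable def invDelta (c : X.X₃.obj.V) (hc : ∀ g, X.X₃.obj.ρ g c = c) : smH 𝒰 X.X₁ 1 :=
  (smδ hX 0 1 rfl).hom ((smHZeroEquiv X.X₃).symm ⟨c, hc⟩)

lemma invDelta_congr {c c' : X.X₃.obj.V} (h : c = c') (hc : ∀ g, X.X₃.obj.ρ g c = c)
    (hc' : ∀ g, X.X₃.obj.ρ g c' = c') : invDelta hX c hc = invDelta hX c' hc' := by
  subst h
  rfl

lemma invDelta_add (c c' : X.X₃.obj.V) (hc : ∀ g, X.X₃.obj.ρ g c = c)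
    (hc' : ∀ g, X.X₃.obj.ρ g c' = c') (hcc' : ∀ g, X.X₃.obj.ρ g (c + c') = c + c') :
    invDelta hX (c + c') hcc' = invDelta hX c hc + invDelta hX c' hc' := by
  unfold invDelta
  rw [← map_add, ← map_add]
  rfl

lemma invDelta_map_g (b : X.X₂.obj.V) (hb : ∀ g, X.X₂.obj.ρ g b = b)
    (hgb : ∀ g, X.X₃.obj.ρ g (X.g.hom.hom b) = X.g.hom.hom b) :
    invDelta hX (X.g.hom.hom b) hgb = 0 := by
  unfold invDelta
  have h1 : (smHZeroEquiv X.X₃).symm ⟨X.g.hom.hom b, hgb⟩ =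
      ((smHFunctor k 𝒰 0).map X.g).hom ((smHZeroEquiv X.X₂).symm ⟨b, hb⟩) := by
    apply (smHZeroEquiv X.X₃).injective
    rw [LinearEquiv.apply_symm_apply]
    apply Subtype.ext
    rw [smHZeroEquiv_naturality, LinearEquiv.apply_symm_apply]
  rw [h1]
  have hex := (map_lcFunctor_shortExact hX).comp_δ 0 1 rfl
  exact congrArg (fun f => f.hom ((smHZeroEquiv X.X₂).symm ⟨b, hb⟩)) hex

lemma exists_of_invDelta_eq_zero (c : X.X₃.obj.V) (hc : ∀ g, X.X₃.obj.ρ g c = c)
    (h : invDelta hX c hc = 0) :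
    ∃ b : X.X₂.obj.V, (∀ g, X.X₂.obj.ρ g b = b) ∧ X.g.hom.hom b = c := by
  have hex := smH_exact₃ hX 0 1 rfl
  rw [ShortComplex.moduleCat_exact_iff] at hex
  obtain ⟨y, hy⟩ := hex _ h
  refine ⟨((smHZeroEquiv X.X₂ y : X.X₂.obj.ρ.invariants) : X.X₂.obj.V),
    (smHZeroEquiv X.X₂ y).2, ?_⟩
  have h1 := smHZeroEquiv_naturality X.g y
  have hy' : ((smHFunctor k 𝒰 0).map X.g).hom y = (smHZeroEquiv X.X₃).symm ⟨c, hc⟩ := hy
  rw [hy', LinearEquiv.apply_symm_apply] at h1
  exact h1.symm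

end Generic

section Seq

variable (z : C.obj.V) (hzp : p • z = 0)

/-- the additive map `ℤ/p → C`, `a ↦ a • z`, for `z` killed by `p`. -/
noncomputable def zmodToAddHom : ZMod p →+ C.obj.V :=
  ZMod.lift p ⟨zmultiplesHom C.obj.V z, by
    rw [zmultiplesHom_apply, natCast_zsmul]
    exact hzp⟩

lemma zmodToAddHom_intCast (n : ℤ) : zmodToAddHom p C z hzp (n : ZMod p) = n • z := by
  unfold zmodToAddHom
  rw [ZMod.lift_coe]
  rfl

variable (hz : ∀ g, C.obj.ρ g z = z)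

/-- the morphism `ℤ/p → C`, `a ↦ a • z`, for `z` invariant and killed by `p`. -/
noncomputable def kummerIncl : trivSm ℤ 𝒰 (ZMod p) ⟶ C :=
  smRepHomOfAddHom (A := trivSm ℤ 𝒰 (ZMod p)) (B := C) (zmodToAddHom p C z hzp) (fun g a => by
    obtain ⟨n, rfl⟩ := ZMod.intCast_surjective (show ZMod p from a)
    change zmodToAddHom p C z hzp (n : ZMod p) = C.obj.ρ g (zmodToAddHom p C z hzp (n : ZMod p))
    rw [zmodToAddHom_intCast, map_zsmul, hz g])

/-- multiplication by `p` on `C`. -/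
noncomputable def kummerMul : C ⟶ C :=
  smRepHomOfAddHom (A := C) (B := C) (nsmulAddMonoidHom p) (fun g a => by
    change p • C.obj.ρ g a = C.obj.ρ g (p • a)
    rw [map_nsmul])

lemma kummerMul_apply (c : C.obj.V) : (kummerMul p C).hom.hom c = p • c := rfl

lemma kummerIncl_intCast (n : ℤ) :
    (kummerIncl p C z hzp hz).hom.hom (show (trivSm ℤ 𝒰 (ZMod p)).obj.V from (n : ZMod p)) =
      n • z :=
  zmodToAddHom_intCast p C z hzp n

/-- the Kummer sequence `0 → ℤ/p → C → C → 0`. -/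
noncomputable def kummerSeq : ShortComplex (SmRep ℤ 𝒰) :=
  ShortComplex.mk (kummerIncl p C z hzp hz) (kummerMul p C) (by
    apply smRep_hom_ext_apply
    intro a
    obtain ⟨n, rfl⟩ := ZMod.intCast_surjective (show ZMod p from a)
    change p • (kummerIncl p C z hzp hz).hom.hom
      (show (trivSm ℤ 𝒰 (ZMod p)).obj.V from (n : ZMod p)) = 0
    rw [kummerIncl_intCast, smul_comm, hzp, smul_zero])

theorem kummerSeq_shortExact (hz0 : z ≠ 0)
    (hker : ∀ b : C.obj.V, p • b = 0 → ∃ n : ℕ, b = n • z)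
    (hdiv : ∀ b : C.obj.V, ∃ b' : C.obj.V, p • b' = b) :
    (kummerSeq p C z hzp hz).ShortExact := by
  rw [shortExact_iff]
  refine ⟨?_, ?_, ?_⟩
  · change Function.Injective (zmodToAddHom p C z hzp)
    unfold zmodToAddHom
    rw [ZMod.lift_injective]
    intro m hm
    have hm' : m • z = 0 := hm
    by_contra hne
    have hcop : IsCoprime m (p : ℤ) := by
      rw [isCoprime_comm, Prime.coprime_iff_not_dvd (Nat.prime_iff_prime_int.1 hp.out)]
      intro hdvd
      exact hne ((ZMod.intCast_zmod_eq_zero_iff_dvd m p).2 hdvd)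
    obtain ⟨u, v, huv⟩ := hcop
    apply hz0
    have h1 : z = (u * m + v * (p : ℤ)) • z := by rw [huv, one_smul]
    rw [h1, add_smul, mul_smul, mul_smul, hm', natCast_zsmul, hzp, smul_zero, smul_zero, add_zero]
  · intro b hb
    obtain ⟨n, hn⟩ := hker b hb
    refine ⟨show (trivSm ℤ 𝒰 (ZMod p)).obj.V from ((n : ℤ) : ZMod p),
      (kummerIncl_intCast p C z hzp hz (n : ℤ)).trans ?_⟩
    rw [natCast_zsmul]
    exact hn.symm
  · intro b
    obtain ⟨b', hb'⟩ := hdiv b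
    exact ⟨b', hb'⟩

/-- the Kummer map `C^Γ → H¹(Γ, ℤ/p)`. -/
noncomputable def kummerDelta (hS : (kummerSeq p C z hzp hz).ShortExact)
    (c : {c : C.obj.V // ∀ g, C.obj.ρ g c = c}) : smH 𝒰 (trivSm ℤ 𝒰 (ZMod p)) 1 :=
  invDelta hS c.1 c.2

/-- the kernel of the Kummer map is `p C^Γ`. -/
theorem kummerDelta_eq (hS : (kummerSeq p C z hzp hz).ShortExact)
    (c c' : {c : C.obj.V // ∀ g, C.obj.ρ g c = c})
    (h : kummerDelta p C z hzp hz hS c = kummerDelta p C z hzp hz hS c') :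
    ∃ d : C.obj.V, (∀ g, C.obj.ρ g d = d) ∧ c.1 - c'.1 = p • d := by
  have hcc : ∀ g, C.obj.ρ g (c.1 - c'.1) = c.1 - c'.1 := fun g => by
    rw [map_sub, c.2 g, c'.2 g]
  have h0 : invDelta hS (c.1 - c'.1) hcc = 0 := by
    have hsum : ∀ g, C.obj.ρ g (c.1 - c'.1 + c'.1) = c.1 - c'.1 + c'.1 := fun g => by
      rw [sub_add_cancel]
      exact c.2 g
    have h1 := invDelta_add hS (c.1 - c'.1) c'.1 hcc c'.2 hsum
    have h2 : invDelta hS (c.1 - c'.1 + c'.1) hsum = invDelta hS c.1 c.2 :=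
      invDelta_congr hS (sub_add_cancel _ _) _ _
    have h3 : invDelta hS c.1 c.2 = invDelta hS c'.1 c'.2 := h
    exact add_eq_right.1 ((h2.symm.trans h1).symm.trans h3)
  obtain ⟨d, hd, hdc⟩ := exists_of_invDelta_eq_zero hS _ hcc h0
  exact ⟨d, hd, hdc.symm⟩

end Seq

section Main

variable (inv : smH 𝒰 C 2 →+ AddCircle (1 : ℚ))

/-- **Existence theorem mod `p`, kernel form, from Kummer theory**: if `C` is `p`-divisible, its
`p`-torsion is generated by an invariant element `z ≠ 0`, and `C^Γ / p` is finite, then the kernel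
of reciprocity mod `p` is `p C^Γ`. -/
theorem rec_ker_of_kummer (hb : IsBaseCF 𝒰 p C inv)
    (z : C.obj.V) (hzp : p • z = 0) (hz : ∀ g, C.obj.ρ g z = z) (hz0 : z ≠ 0)
    (hker : ∀ b : C.obj.V, p • b = 0 → ∃ n : ℕ, b = n • z)
    (hdiv : ∀ b : C.obj.V, ∃ b' : C.obj.V, p • b' = b)
    (hfin : ∃ T : Finset C.obj.V, ∀ c : C.obj.V, (∀ g, C.obj.ρ g c = c) →
      ∃ t ∈ T, ∃ c' : C.obj.V, (∀ g, C.obj.ρ g c' = c') ∧ c = t + p • c') :
    ∀ (c : C.obj.V) (hc : ∀ g, C.obj.ρ g c = c), recMap 𝒰 p C inv c hc = 0 →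
      ∃ c' : C.obj.V, (∀ g, C.obj.ρ g c' = c') ∧ p • c' = c := by
  classical
  have hS := kummerSeq_shortExact p C z hzp hz hz0 hker hdiv
  obtain ⟨T, hT⟩ := hfin
  let κ := kummerDelta p C z hzp hz hS
  -- `κ` only depends on the class mod `p`
  have hκ : ∀ (c t : {c : C.obj.V // ∀ g, C.obj.ρ g c = c}) (c' : C.obj.V)
      (hc' : ∀ g, C.obj.ρ g c' = c'), c.1 = t.1 + p • c' → κ c = κ t := by
    intro c t c' hc' h
    have hpc : ∀ g, C.obj.ρ g (p • c') = p • c' := fun g => by rw [map_nsmul, hc' g]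
    have hsum : ∀ g, C.obj.ρ g (t.1 + p • c') = t.1 + p • c' := fun g => by
      rw [← h]
      exact c.2 g
    have h1 := invDelta_add hS t.1 (p • c') t.2 hpc hsum
    have h2 : invDelta hS (p • c') hpc = 0 := invDelta_map_g hS c' hc' hpc
    rw [h2, add_zero] at h1
    exact (invDelta_congr hS h c.2 hsum).trans h1
  let Q : Set (smH 𝒰 (trivSm ℤ 𝒰 (ZMod p)) 1) := Set.range κ
  have hQfin : Q.Finite := by
    refine Set.Finite.subset ((T.image (fun t => if h : ∀ g, C.obj.ρ g t = t then κ ⟨t, h⟩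
      else 0)).finite_toSet) ?_
    rintro _ ⟨c, rfl⟩
    obtain ⟨t, htT, c', hc', hct⟩ := hT c.1 c.2
    have ht : ∀ g, C.obj.ρ g t = t := fun g => by
      have : t = c.1 - p • c' := by rw [hct]; abel
      rw [this, map_sub, map_nsmul, c.2 g, hc' g]
    rw [Finset.mem_coe, Finset.mem_image]
    refine ⟨t, htT, ?_⟩
    rw [dif_pos ht]
    exact (hκ c ⟨t, ht⟩ c' hc' hct).symm
  haveI : Finite Q := hQfin.to_subtype
  exact hb.rec_ker_of_card 𝒰 p C inv (Q := Q) (X := Q) (fun c => ⟨κ c, c, rfl⟩)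
    (fun c c' h => kummerDelta_eq p C z hzp hz hS c c' (congrArg Subtype.val h))
    Subtype.val Subtype.val_injective le_rfl

end Main

end Fermat.Agent.CFT.LocForm
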