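/-
S56 / CFT (leaf LD) — helper4.
**The local `p`-class formation is global below the subgroup fixing `μ_p`.**  `H³(U, B_q) = 0` for
all open `U` (LocForm/H3) and the existence theorem mod `p` for the open subgroups `U` of `G_q`
fixing the `p`-th roots of unity (Kummer theory + counting, LocForm/Kummer).
-/
import Fermat.Agent.CFT.LocForm.Kummer_helper4
import Fermat.Agent.CFT.LocForm.Main_helper4
import Fermat.Agent.CFT.LocForm.H3_helper4
import Fermat.Agent.CFT.Sm.PTDatum_helper9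

set_option autoImplicit false
set_option linter.unusedSectionVars false
set_option linter.style.haveILetI false

open CategoryTheory ExtCitation

namespace Fermat.Agent.CFT.LocForm

open Fermat.Agent.CFT.Coh Fermat.Agent.CFT.Local Fermat.Agent.CFT.Sm Fermat.Agent.CFT.Bridge

section Generic

variable (q : ℕ) [Fact q.Prime] (p : ℕ)

/-- The subgroup of `G_q` fixing the `p`-th roots of unity. -/
def padicMuFix : Subgroup (PadicAlgCl q ≃ₐ[ℚ_[q]] PadicAlgCl q) where
  carrier := {g | ∀ x : PadicAlgCl q, x ^ p = 1 → g x = x}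
  one_mem' := fun _ _ => rfl
  mul_mem' := fun {a b} ha hb x hx => by
    rw [AlgEquiv.mul_apply, hb x hx, ha x hx]
  inv_mem' := fun {a} ha x hx => by
    have h1 : a x = x := ha x hx
    calc a⁻¹ x = a⁻¹ (a x) := by rw [h1]
      _ = x := a.symm_apply_apply x

lemma mem_padicMuFix {g : PadicAlgCl q ≃ₐ[ℚ_[q]] PadicAlgCl q} :
    g ∈ padicMuFix q p ↔ ∀ x : PadicAlgCl q, x ^ p = 1 → g x = x := Iff.rfl

variable [hp : Fact p.Prime]

/-- a primitive `p`-th root of unity in `PadicAlgCl q` coming from `ℚbar`. -/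
theorem exists_primitiveRoot_padicEmbedding :
    ∃ ζ' : AlgebraicClosure ℚ, IsPrimitiveRoot ζ' p ∧ IsPrimitiveRoot (padicEmbedding q ζ') p := by
  haveI : NeZero ((p : ℕ) : ℚ) := ⟨by exact_mod_cast hp.out.ne_zero⟩
  obtain ⟨ζ', hζ'⟩ := HasEnoughRootsOfUnity.exists_primitiveRoot (AlgebraicClosure ℚ) p
  exact ⟨ζ', hζ', hζ'.map_of_injective (padicEmbedding q).injective⟩

/-- the subgroup fixing `μ_p` is open. -/
theorem isOpen_padicMuFix : (padicBasis q).IsOpen (padicMuFix q p) := by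
  obtain ⟨ζ', hζ', hζ⟩ := exists_primitiveRoot_padicEmbedding q p
  have hint : IsIntegral ℚ ζ' := ((AlgebraicClosure.isAlgebraic ℚ).isAlgebraic _).isIntegral
  haveI : FiniteDimensional ℚ (IntermediateField.adjoin ℚ {ζ'}) :=
    IntermediateField.adjoin.finiteDimensional hint
  obtain ⟨F', hF', hle⟩ := exists_isFullLevel_ge (IntermediateField.adjoin ℚ {ζ'})
  refine ⟨(localLevel q F').fixingSubgroup, mem_padicBasis_sets.2 ⟨F', hF', rfl⟩, ?_⟩
  intro g hg x hx
  have hp0 : 0 < p := hp.out.pos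
  obtain ⟨i, -, rfl⟩ := hζ.eq_pow_of_pow_eq_one hx
  have hmem : padicEmbedding q ζ' ∈ localLevel q F' :=
    padicEmbedding_mem_localLevel (hle (IntermediateField.mem_adjoin_simple_self ℚ ζ'))
  rw [map_pow, (IntermediateField.mem_fixingSubgroup_iff _ _).1 hg _ hmem]

lemma coe_toB_nsmul (n : ℕ) (b : (levelUnitsRep q).V) :
    (((toB (n • b) : levelUnits q) : (PadicAlgCl q)ˣ) : PadicAlgCl q) =
      (((toB b : levelUnits q) : (PadicAlgCl q)ˣ) : PadicAlgCl q) ^ n := by
  have h : toB (n • b) = (toB b) ^ n := rfl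
  rw [h]
  rfl

section Aux

variable {q p} {ζ : PadicAlgCl q} (hζ : IsPrimitiveRoot ζ p) {zB : levelUnits q}
  (hzB : ((zB : (PadicAlgCl q)ˣ) : PadicAlgCl q) = ζ)

lemma eq_of_coe_toB_eq {b b' : (levelUnitsRep q).V}
    (h : (((toB b : levelUnits q) : (PadicAlgCl q)ˣ) : PadicAlgCl q) =
      (((toB b' : levelUnits q) : (PadicAlgCl q)ˣ) : PadicAlgCl q)) : b = b' := by
  apply toB_injective
  apply Subtype.ext
  apply Units.ext
  exact h

include hζ hzB

lemma muB_nsmul : p • (ofB zB : (levelUnitsRep q).V) = 0 := by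
  apply eq_of_coe_toB_eq
  rw [coe_toB_nsmul, toB_ofB, hzB, hζ.pow_eq_one]
  rfl

lemma muB_ne_zero : (ofB zB : (levelUnitsRep q).V) ≠ 0 := by
  intro h0
  have h1 := congrArg (fun b : (levelUnitsRep q).V =>
    (((toB b : levelUnits q) : (PadicAlgCl q)ˣ) : PadicAlgCl q)) h0
  have h2 : ζ = 1 := by
    rw [← hzB]
    exact h1
  exact hζ.ne_one hp.out.one_lt h2

lemma muB_ker (b : (levelUnitsRep q).V) (hb : p • b = 0) :
    ∃ i : ℕ, b = i • (ofB zB : (levelUnitsRep q).V) := by
  have h1 : (((toB b : levelUnits q) : (PadicAlgCl q)ˣ) : PadicAlgCl q) ^ p = 1 := by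
    rw [← coe_toB_nsmul]
    exact congrArg (fun b : (levelUnitsRep q).V =>
      (((toB b : levelUnits q) : (PadicAlgCl q)ˣ) : PadicAlgCl q)) hb
  obtain ⟨i, -, hi⟩ := hζ.eq_pow_of_pow_eq_one h1
  refine ⟨i, ?_⟩
  apply eq_of_coe_toB_eq
  rw [coe_toB_nsmul, toB_ofB, hzB, hi]

lemma muB_fixed (g : PadicAlgCl q ≃ₐ[ℚ_[q]] PadicAlgCl q) (hg : g ∈ padicMuFix q p) :
    (levelUnitsRep q).ρ g (ofB zB) = ofB zB := by
  apply eq_of_coe_toB_eq
  rw [coe_toB_ρ, toB_ofB, hzB]
  exact hg _ hζ.pow_eq_one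

end Aux

/-- **The local `p`-class formation is global below the subgroup fixing `μ_p`.** -/
theorem padicPClassFormation_isGlobalBelow :
    (padicPClassFormation q p).IsGlobalBelow (padicMuFix q p) where
  h3U U hU x _ := padic_h3 q U hU x
  rec_kerU U hU hUU₀ := by
    obtain ⟨ζ', hζ', hζ⟩ := exists_primitiveRoot_padicEmbedding q p
    have hζ'0 : ζ' ≠ 0 := hζ'.ne_zero hp.out.ne_zero
    obtain ⟨zB, hzB⟩ : ∃ zB : levelUnits q,
        ((zB : (PadicAlgCl q)ˣ) : PadicAlgCl q) = padicEmbedding q ζ' :=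
      ⟨⟨embUnits q (Units.mk0 ζ' hζ'0), embUnits_mem_levelUnits q _⟩, rfl⟩
    refine rec_ker_of_kummer p (resSub (padicBSm q) U) _ ((padicPClassFormation q p).baseU U hU)
      (ofB zB) (muB_nsmul hζ hzB) (fun g => muB_fixed hζ hzB g (hUU₀ g.2)) (muB_ne_zero hζ hzB)
      (muB_ker hζ hzB) (padic_div q p) ?_
    obtain ⟨T, hT⟩ := padic_fin q p hp.out U hU
    refine ⟨T, fun c hc => ?_⟩
    obtain ⟨t, ht, c', hc', hct⟩ := hT c (fun g hg => hc ⟨g, hg⟩)
    exact ⟨t, ht, c', fun g => hc' g g.2, hct⟩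

end Generic

section Wrapper

variable (q : Nat.Primes) (p : ℕ) [hp : Fact p.Prime]

/-- The subgroup of the local Galois group fixing the `p`-th roots of unity. -/
def locMuFix : Subgroup (primeLocalGaloisGroup q) :=
  haveI : Fact (q : ℕ).Prime := ⟨q.2⟩
  padicMuFix (q : ℕ) p

/-- the subgroup fixing `μ_p` is open for the fine local basis. -/
theorem isOpen_locMuFix : (locBasis q).IsOpen (locMuFix q p) :=
  haveI : Fact (q : ℕ).Prime := ⟨q.2⟩
  isOpen_padicMuFix (q : ℕ) p

/-- **(LD)** The local `p`-class formation `(G_q, locBasis q, B_q)` is global below the open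
subgroup fixing `μ_p`: `H³(U, B_q) = 0` for all open `U`, and the existence theorem mod `p` for
the open subgroups `U` fixing `μ_p`. -/
theorem locPClassFormation_isGlobalBelow :
    (locPClassFormation q p).IsGlobalBelow (locMuFix q p) :=
  haveI : Fact (q : ℕ).Prime := ⟨q.2⟩
  padicPClassFormation_isGlobalBelow (q : ℕ) p

end Wrapper

end Fermat.Agent.CFT.LocForm
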