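/-
S56 / CFT (leaf COARSE, arithmetic part) — helper4.
**`p^∞` divides the local degrees of `ℚ_S` when `p ∈ S`**: the local degrees
`[ℚ_ℓ(ζ_{p^n}) : ℚ_ℓ]` of the `p`-cyclotomic tower are divisible by arbitrarily high powers of `p`
(`ℓ ≠ p`: unramified, degree the order of `ℓ` mod `p^n`; `ℓ = p`: Eisenstein, degree `φ(p^n)`), hence
the coarse levels `(F·ℚ_ℓ)`, `F` an `S`-level, of `G_ℓ` are `p`-cofinal.
-/
import Fermat.Agent.CFT.LocForm.PCof_helper4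
import Fermat.Agent.CFT.Arith.SmObjects_helper7
import Fermat.Agent.CFT.Arith.CycloLevel_helper7

set_option autoImplicit false
set_option linter.unusedSectionVars false
set_option linter.style.haveILetI false

open Polynomial IsLocalRing

namespace Fermat.Agent.CFT.LocForm

open Fermat.Agent.CFT.Coh Fermat.Agent.CFT.Local Fermat.Agent.CFT.Sm Fermat.Agent.CFT.Bridge
  Fermat.Agent.CFT.Arith

section Order

/-- the order of `ℓ` mod `p^n` is divisible by arbitrarily high powers of `p`. -/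
theorem exists_pow_dvd_orderOf_zmod {ℓ p : ℕ} (hℓ : 2 ≤ ℓ) (hp : p.Prime) (hcop : Nat.Coprime ℓ p)
    (k : ℕ) : ∃ n : ℕ, 0 < n ∧ p ^ k ∣ orderOf ((ℓ : ℕ) : ZMod (p ^ n)) := by
  obtain ⟨M, hM⟩ : ∃ M : ℕ, M = p ^ k * (p - 1) := ⟨_, rfl⟩
  have hM0 : 0 < M := by
    rw [hM]
    exact Nat.mul_pos (pow_pos hp.pos k) (Nat.sub_pos_of_lt hp.one_lt)
  obtain ⟨n, hn⟩ : ∃ n : ℕ, n = ℓ ^ M := ⟨_, rfl⟩
  have hn0 : 0 < n := by rw [hn]; exact pow_pos (by omega) M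
  refine ⟨n, hn0, ?_⟩
  by_contra hnot
  obtain ⟨o, ho⟩ : ∃ o : ℕ, o = orderOf ((ℓ : ℕ) : ZMod (p ^ n)) := ⟨_, rfl⟩
  rw [← ho] at hnot
  -- `o ∣ φ(p^n)`
  have h1 : o ∣ p ^ (n - 1) * (p - 1) := by
    rw [ho, ← Nat.totient_prime_pow hp hn0]
    apply orderOf_dvd_of_pow_eq_one
    have h := Nat.ModEq.pow_totient (Nat.Coprime.pow_right n hcop)
    have h' := (ZMod.natCast_eq_natCast_iff _ _ _).2 h
    rw [Nat.cast_pow, Nat.cast_one] at h'
    exact h'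
  have ho0 : o ≠ 0 := by
    intro h0
    rw [h0, zero_dvd_iff] at h1
    have : 0 < p ^ (n - 1) * (p - 1) :=
      Nat.mul_pos (pow_pos hp.pos _) (Nat.sub_pos_of_lt hp.one_lt)
    omega
  -- `o ∣ M`
  have h2 : o ∣ M := by
    have h3 : o.factorization p < k := by
      by_contra hge
      push Not at hge
      exact hnot ((hp.pow_dvd_iff_le_factorization ho0).2 hge)
    have h4 : p ^ o.factorization p * (o / p ^ o.factorization p) = o :=
      Nat.ordProj_mul_ordCompl_eq_self o p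
    have h5 : (o / p ^ o.factorization p).Coprime (p ^ (n - 1)) :=
      Nat.Coprime.pow_right _ ((Nat.coprime_ordCompl hp ho0).symm)
    have h6 : o / p ^ o.factorization p ∣ p - 1 := by
      apply h5.dvd_of_dvd_mul_left
      exact (Nat.ordCompl_dvd o p).trans h1
    rw [hM, ← h4]
    exact Nat.mul_dvd_mul (pow_dvd_pow p h3.le) h6
  -- `ℓ^M ≡ 1 mod p^n`
  have h7 : ((ℓ : ℕ) : ZMod (p ^ n)) ^ M = 1 := by
    rw [ho] at h2
    exact orderOf_dvd_iff_pow_eq_one.1 h2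
  have h8 : ((ℓ ^ M : ℕ) : ZMod (p ^ n)) = ((1 : ℕ) : ZMod (p ^ n)) := by
    rw [Nat.cast_pow, h7, Nat.cast_one]
  rw [ZMod.natCast_eq_natCast_iff] at h8
  have h9 : 1 ≤ ℓ ^ M := Nat.one_le_pow _ _ (by omega)
  have h10 : p ^ n ∣ ℓ ^ M - 1 := (Nat.modEq_iff_dvd' h9).1 h8.symm
  have h11 : 0 < ℓ ^ M - 1 := by
    have : 2 ^ 1 ≤ ℓ ^ M := (Nat.pow_le_pow_left hℓ 1).trans (Nat.pow_le_pow_right (by omega) hM0)
    omega
  have h12 : p ^ n ≤ ℓ ^ M - 1 := Nat.le_of_dvd h11 h10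
  have h13 : n < p ^ n := Nat.lt_pow_self hp.one_lt
  omega

end Order

section Eisenstein

/-- **The cyclotomic polynomials `Φ_{p^(n+1)}` are irreducible over `ℚ_p`** (Eisenstein). -/
theorem irreducible_cyclotomic_prime_pow_padic (p : ℕ) [hp : Fact p.Prime] (n : ℕ) :
    Irreducible (cyclotomic (p ^ (n + 1)) ℚ_[p]) := by
  obtain ⟨f, hf⟩ : ∃ f : ℤ[X], f = (cyclotomic (p ^ (n + 1)) ℤ).comp (X + 1) := ⟨_, rfl⟩
  have hE : f.IsEisensteinAt (Submodule.span ℤ {(p : ℤ)}) := by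
    rw [hf]
    exact cyclotomic_prime_pow_comp_X_add_one_isEisensteinAt p n
  have hX1 : ((X : ℤ[X]) + 1).natDegree = 1 := by
    have h : ((X : ℤ[X]) + 1) = X + C 1 := by rw [C_1]
    rw [h, natDegree_X_add_C]
  have hfm : f.Monic := by
    rw [hf]
    have h : ((X : ℤ[X]) + 1).Monic := by
      have h' : ((X : ℤ[X]) + 1) = X + C 1 := by rw [C_1]
      rw [h']
      exact monic_X_add_C 1
    refine (cyclotomic.monic _ ℤ).comp h ?_
    rw [hX1]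
    exact one_ne_zero
  obtain ⟨F, hF⟩ : ∃ F : ℤ_[p][X], F = f.map (Int.castRingHom ℤ_[p]) := ⟨_, rfl⟩
  have hFm : F.Monic := by rw [hF]; exact hfm.map _
  have hdeg : F.natDegree = f.natDegree := by rw [hF]; exact hfm.natDegree_map _
  have hcoeff : ∀ i, F.coeff i = ((f.coeff i : ℤ) : ℤ_[p]) := fun i => by
    rw [hF, coeff_map]
    rfl
  have hFE : F.IsEisensteinAt (Ideal.span {(p : ℤ_[p])}) := by
    refine hFm.isEisensteinAt_of_mem_of_notMem ?_ ?_ ?_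
    · rw [← PadicInt.maximalIdeal_eq_span_p]
      exact Ideal.IsPrime.ne_top inferInstance
    · intro i hi
      rw [hdeg] at hi
      have h1 := hE.coeff_mem (n := i) hi.ne
      rw [Ideal.mem_span_singleton] at h1 ⊢
      obtain ⟨c, hc⟩ := h1
      rw [hcoeff, hc]
      exact ⟨(c : ℤ_[p]), by push_cast; rfl⟩
    · intro hmem
      apply hE.notMem
      rw [Ideal.span_singleton_pow, Ideal.mem_span_singleton] at hmem ⊢
      rw [hcoeff] at hmem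
      have h2 := (PadicInt.pow_p_dvd_int_iff 2 (f.coeff 0)).1 hmem
      exact_mod_cast h2
  have hFirr : Irreducible F := by
    refine hFE.irreducible ?_ hFm.isPrimitive ?_
    · rw [← PadicInt.maximalIdeal_eq_span_p]
      infer_instance
    · rw [hdeg, hf, natDegree_comp, hX1, mul_one, natDegree_cyclotomic]
      exact Nat.totient_pos.2 (pow_pos hp.out.pos _)
  have hQirr : Irreducible (F.map (algebraMap ℤ_[p] ℚ_[p])) :=
    (hFm.irreducible_iff_irreducible_map_fraction_map (K := ℚ_[p])).1 hFirr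
  have hmap : F.map (algebraMap ℤ_[p] ℚ_[p]) = (cyclotomic (p ^ (n + 1)) ℚ_[p]).comp (X + 1) := by
    rw [hF, hf, map_map, map_comp, map_cyclotomic]
    simp
  rw [hmap] at hQirr
  -- undo the shift
  have h3 : (cyclotomic (p ^ (n + 1)) ℚ_[p]).comp (X + 1) =
      algEquivAevalXAddC (1 : ℚ_[p]) (cyclotomic (p ^ (n + 1)) ℚ_[p]) := by
    simp [algEquivAevalXAddC, aeval_def, comp, eval₂_eq_eval_map]
  rw [h3] at hQirr
  exact (MulEquiv.irreducible_iff (algEquivAevalXAddC (1 : ℚ_[p])).toMulEquiv).1 hQirr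

end Eisenstein

section Degrees

variable (ℓ : ℕ) [hℓ : Fact ℓ.Prime] (p : ℕ) [hp : Fact p.Prime]

/-- primitive `m`-th roots of unity of `PadicAlgCl ℓ` coming from `ℚbar`. -/
theorem exists_primitiveRoot_padicEmbedding' (m : ℕ) (hm : m ≠ 0) :
    ∃ ζ : AlgebraicClosure ℚ, IsPrimitiveRoot ζ m ∧ IsPrimitiveRoot (padicEmbedding ℓ ζ) m := by
  haveI : NeZero m := ⟨hm⟩
  obtain ⟨ζ, hζ⟩ := HasEnoughRootsOfUnity.exists_primitiveRoot (AlgebraicClosure ℚ) m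
  exact ⟨ζ, hζ, hζ.map_of_injective (padicEmbedding ℓ).injective⟩

/-- the local degrees of the `p`-cyclotomic tower over `ℚ_ℓ` are divisible by arbitrarily high
powers of `p`. -/
theorem exists_pow_dvd_finrank_cycSub (k : ℕ) :
    ∃ n : ℕ, 0 < n ∧
      p ^ k ∣ Module.finrank ℚ_[ℓ] (cycSub ℚ_[ℓ] (PadicAlgCl ℓ) (p ^ n)) := by
  by_cases hℓp : ℓ = p
  · subst hℓp
    refine ⟨k + 1, Nat.succ_pos k, ?_⟩
    obtain ⟨ζ, -, hζ⟩ := exists_primitiveRoot_padicEmbedding' ℓ (ℓ ^ (k + 1))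
      (pow_pos hℓ.out.pos _).ne'
    haveI : IsCyclotomicExtension {ℓ ^ (k + 1)} ℚ_[ℓ] (cycSub ℚ_[ℓ] (PadicAlgCl ℓ) (ℓ ^ (k + 1))) :=
      isCyclotomicExtension_cycSub _ _ _ ⟨_, hζ⟩
    haveI : NeZero (ℓ ^ (k + 1)) := ⟨(pow_pos hℓ.out.pos _).ne'⟩
    rw [IsCyclotomicExtension.finrank (n := ℓ ^ (k + 1))
      (cycSub ℚ_[ℓ] (PadicAlgCl ℓ) (ℓ ^ (k + 1))) (irreducible_cyclotomic_prime_pow_padic ℓ k),
      Nat.totient_prime_pow_succ hℓ.out]
    exact Dvd.intro _ rfl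
  · have hcop : Nat.Coprime ℓ p := (Nat.coprime_primes hℓ.out hp.out).2 hℓp
    obtain ⟨n, hn0, hn⟩ := exists_pow_dvd_orderOf_zmod hℓ.out.two_le hp.out hcop k
    refine ⟨n, hn0, ?_⟩
    obtain ⟨ζ, -, hζ⟩ := exists_primitiveRoot_padicEmbedding' ℓ (p ^ n) (pow_pos hp.out.pos _).ne'
    haveI : IsCyclotomicExtension {p ^ n} ℚ_[ℓ] (cycSub ℚ_[ℓ] (PadicAlgCl ℓ) (p ^ n)) :=
      isCyclotomicExtension_cycSub _ _ _ ⟨_, hζ⟩
    have hunit : IsUnit ((p ^ n : ℕ) : ℤ_[ℓ]) := by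
      rw [PadicInt.isUnit_iff]
      have h1 : ¬ ‖((p ^ n : ℕ) : ℤ_[ℓ])‖ < 1 := by
        rw [PadicInt.norm_natCast_lt_one_iff]
        intro hdvd
        have h2 := hℓ.out.dvd_of_dvd_pow hdvd
        exact hℓp ((Nat.prime_dvd_prime_iff_eq hℓ.out hp.out).1 h2)
      exact le_antisymm (PadicInt.norm_le_one _) (not_lt.1 h1)
    rw [finrank_cyclotomic ℤ_[ℓ] ℚ_[ℓ] (cycSub ℚ_[ℓ] (PadicAlgCl ℓ) (p ^ n)) (p ^ n) hunit,
      resCard_padicInt]
    exact hn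

end Degrees

section PCof

variable {S : Finset Nat.Primes} {ℓ : ℕ} [hℓ : Fact ℓ.Prime]

lemma mem_localBasis_sets {U : Subgroup (PadicAlgCl ℓ ≃ₐ[ℚ_[ℓ]] PadicAlgCl ℓ)} :
    U ∈ (localBasis S ℓ).sets ↔ ∃ F : IntermediateField ℚ (AlgebraicClosure ℚ),
      IsLevel S F ∧ U = (localLevel ℓ F).fixingSubgroup := by
  constructor
  · rintro ⟨_, ⟨F, hF, rfl⟩, rfl⟩
    exact ⟨F, hF, (fixingSubgroup_localLevel F).symm⟩
  · rintro ⟨F, hF, rfl⟩
    exact ⟨_, ⟨F, hF, rfl⟩, (fixingSubgroup_localLevel F).symm⟩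

/-- the coarse levels are levels of the fine basis. -/
lemma localBasis_sets_subset : (localBasis S ℓ).sets ⊆ (padicBasis ℓ).sets := by
  intro U hU
  obtain ⟨F, hF, rfl⟩ := mem_localBasis_sets.1 hU
  exact mem_padicBasis_sets.2 ⟨F, isFullLevel_of_isLevel hF, rfl⟩

variable (S ℓ) in
/-- **(pcof)** for the coarse levels of `G_ℓ` when `p ∈ S`: the local degrees of `ℚ_S` are
divisible by `p^∞`. -/
theorem coarse_pcof (p : ℕ) [hp : Fact p.Prime] (hpS : (⟨p, hp.out⟩ : Nat.Primes) ∈ S) :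
    ∀ V ∈ (localBasis S ℓ).sets, ∃ W ∈ (localBasis S ℓ).sets, W ≤ V ∧ p ∣ W.index / V.index := by
  intro V hV
  obtain ⟨F, hF, rfl⟩ := mem_localBasis_sets.1 hV
  haveI := hF.finiteDimensional
  obtain ⟨d, hd⟩ : ∃ d : ℕ, d = (localLevel ℓ F).fixingSubgroup.index := ⟨_, rfl⟩
  have hd0 : 0 < d := by
    rw [hd, ← IntermediateField.finrank_eq_fixingSubgroup_index]
    exact Module.finrank_pos
  obtain ⟨k, hk⟩ : ∃ k : ℕ, k = d.factorization p + 1 := ⟨_, rfl⟩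
  obtain ⟨n, hn0, hn⟩ := exists_pow_dvd_finrank_cycSub ℓ p k
  obtain ⟨ζ, hζ', hprim⟩ := exists_primitiveRoot_padicEmbedding' ℓ (p ^ n)
    (pow_pos hp.out.pos _).ne'
  have hK : IsLevel S (IntermediateField.adjoin ℚ {ζ}) :=
    isLevel_of_le_adjoin_of_pow_pow_eq_one' hp.out hpS n hζ'.pow_eq_one le_rfl
  have hF' : IsLevel S (F ⊔ IntermediateField.adjoin ℚ {ζ}) := hF.sup hK
  have hle : (localLevel ℓ (F ⊔ IntermediateField.adjoin ℚ {ζ})).fixingSubgroup ≤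
      (localLevel ℓ F).fixingSubgroup :=
    IntermediateField.fixingSubgroup_antitone (localLevel_mono le_sup_left)
  refine ⟨_, mem_localBasis_sets.2 ⟨_, hF', rfl⟩, hle, ?_⟩
  have hML : cycSub ℚ_[ℓ] (PadicAlgCl ℓ) (p ^ n) ≤
      localLevel ℓ (F ⊔ IntermediateField.adjoin ℚ {ζ}) := by
    rw [cycSub_le_iff]
    intro ξ _ hξ
    obtain ⟨i, -, rfl⟩ := hprim.eq_pow_of_pow_eq_one hξ
    exact pow_mem (localLevel_mono le_sup_right (padicEmbedding_mem_localLevel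
      (IntermediateField.mem_adjoin_simple_self ℚ ζ))) i
  -- indices
  obtain ⟨w, hw⟩ : ∃ w : ℕ,
      w = (localLevel ℓ (F ⊔ IntermediateField.adjoin ℚ {ζ})).fixingSubgroup.index := ⟨_, rfl⟩
  rw [← hw, ← hd]
  have h1 : d ∣ w := by rw [hd, hw]; exact Subgroup.index_dvd_of_le hle
  have h2 : p ^ k ∣ w := by
    have h3 : (cycSub ℚ_[ℓ] (PadicAlgCl ℓ) (p ^ n)).fixingSubgroup.index ∣ w := by
      rw [hw]
      exact Subgroup.index_dvd_of_le (IntermediateField.fixingSubgroup_antitone hML)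
    haveI : IsCyclotomicExtension {p ^ n} ℚ_[ℓ] (cycSub ℚ_[ℓ] (PadicAlgCl ℓ) (p ^ n)) :=
      isCyclotomicExtension_cycSub _ _ _ ⟨_, hprim⟩
    haveI : NeZero (p ^ n) := ⟨(pow_pos hp.out.pos _).ne'⟩
    haveI : FiniteDimensional ℚ_[ℓ] (cycSub ℚ_[ℓ] (PadicAlgCl ℓ) (p ^ n)) :=
      IsCyclotomicExtension.finiteDimensional {p ^ n} ℚ_[ℓ] _
    rw [← IntermediateField.finrank_eq_fixingSubgroup_index] at h3
    exact hn.trans h3
  obtain ⟨q, rfl⟩ := h1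
  rw [Nat.mul_div_cancel_left q hd0]
  -- `d = p^e d'` with `p ∤ d'`
  obtain ⟨e, he⟩ : ∃ e : ℕ, e = d.factorization p := ⟨_, rfl⟩
  have h4 : p ^ e * (d / p ^ e) = d := by
    rw [he]; exact Nat.ordProj_mul_ordCompl_eq_self d p
  have h5 : ¬ p ∣ d / p ^ e := by
    rw [he]; exact Nat.not_dvd_ordCompl hp.out hd0.ne'
  obtain ⟨d', hd'⟩ : ∃ d' : ℕ, d' = d / p ^ e := ⟨_, rfl⟩
  rw [← hd'] at h4 h5
  rw [hk, ← he, ← h4, pow_succ, mul_assoc] at h2
  have h6 : p ∣ d' * q := Nat.dvd_of_mul_dvd_mul_left (pow_pos hp.out.pos _) h2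
  rcases (Nat.Prime.dvd_mul hp.out).mp h6 with h | h
  · exact absurd h h5
  · exact h

end PCof

end Fermat.Agent.CFT.LocForm
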