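/-
S56 / CFT (leaf COARSE, abstract part) — helper4.
**Coarsening of a level formation.**  One group `G` with a fine basis `𝒱` and a coarser basis `𝒰`
whose members are levels of the fine formation; `B` smooth for `𝒱`, `J` smooth for `𝒰` and
`κ : J → B` injective with image the coarse-smooth vectors.  Then `J^V ≅ B^V` as representations of
`G ⧸ V` for the coarse levels `V`, so that `p`-primary fundamental classes, the vanishing of the
cohomology of the levels and the finiteness of `C^U / p` pass from `B` to `J`.  Together with a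
`p`-cofinality statement for the coarse levels this gives a `PLevelFormation` for `(G, 𝒰, J)`.
-/
import Fermat.Agent.CFT.Sm.CF_helper4_PFormation
import Fermat.Agent.CFT.Coh.PFundTransport_helper4
import Fermat.Agent.CFT.LocForm.Levels_helper4

set_option autoImplicit false
set_option linter.unusedSectionVars false
set_option linter.style.haveILetI false

open CategoryTheory CategoryTheory.Limits groupCohomology Rep

namespace Fermat.Agent.CFT.LocForm

open Fermat.Agent.CFT.Coh Fermat.Agent.CFT.Sm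

section RepIso

variable {k G : Type} [CommRing k] [Group G]

/-- a bijective morphism of representations is an isomorphism. -/
lemma rep_isIso_of_bijective {X Y : Rep.{0} k G} (Φ : X ⟶ Y) (h : Function.Bijective Φ.hom) :
    IsIso Φ := by
  have : IsIso ((forget (Rep.{0, 0, 0} k G)).map Φ) := by
    rw [isIso_iff_bijective]
    exact h
  exact isIso_of_reflects_iso Φ (forget (Rep.{0, 0, 0} k G))

/-- the inverse of a bijective morphism of representations is bijective. -/
lemma rep_inv_bijective {X Y : Rep.{0} k G} (Φ : X ⟶ Y) [IsIso Φ] :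
    Function.Bijective (inv Φ).hom := by
  rw [Function.bijective_iff_has_inverse]
  refine ⟨Φ.hom, fun y => ?_, fun x => ?_⟩
  · exact congrArg (fun t => t.hom y) (IsIso.inv_hom_id Φ)
  · exact congrArg (fun t => t.hom x) (IsIso.hom_inv_id Φ)

end RepIso

section Invariants

variable {G : Type} [Group G] {A B : Rep.{0} ℤ G} (κ : A ⟶ B) (V : Subgroup G) [V.Normal]

/-- the map induced by `κ` on the `V`-invariants, as representations of `G ⧸ V`. -/
noncomputable def invMap : A.quotientToInvariants V ⟶ B.quotientToInvariants V :=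
  (Rep.quotientToInvariantsFunctor ℤ V).map κ

lemma invMap_apply_coe (a : (A.quotientToInvariants V).V) :
    (((invMap κ V).hom a : (B.quotientToInvariants V).V) : B.V) = κ.hom (a : A.V) := rfl

variable (hinj : Function.Injective κ.hom)
  (hsurj : ∀ b : B.V, (∀ g ∈ V, B.ρ g b = b) → ∃ a : A.V, κ.hom a = b)

include hinj hsurj in
lemma invMap_bijective : Function.Bijective (invMap κ V).hom := by
  constructor
  · intro a a' h
    apply Subtype.ext
    apply hinj
    exact congrArg (fun z : (B.quotientToInvariants V).V => (z : B.V)) h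
  · rintro ⟨b, hb⟩
    obtain ⟨a, ha⟩ := hsurj b (fun g hg => hb ⟨g, hg⟩)
    refine ⟨⟨a, fun g => ?_⟩, Subtype.ext ha⟩
    apply hinj
    have h1 : κ.hom (A.ρ (g : G) a) = B.ρ (g : G) (κ.hom a) := Rep.hom_comm_apply κ (g : G) a
    rw [ha] at h1
    exact h1.trans ((hb g).trans ha.symm)

include hinj hsurj in
lemma isIso_invMap : IsIso (invMap κ V) :=
  rep_isIso_of_bijective _ (invMap_bijective κ V hinj hsurj)

include hinj hsurj in
/-- transfer of `p`-primary fundamental classes from `B^V` to `A^V`. -/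
theorem exists_isPFundamental_of_invMap {p : ℕ}
    {γ : groupCohomology (B.quotientToInvariants V) 2}
    (h : IsPFundamental p (B.quotientToInvariants V) γ) :
    ∃ γ' : groupCohomology (A.quotientToInvariants V) 2,
      IsPFundamental p (A.quotientToInvariants V) γ' := by
  haveI := isIso_invMap κ V hinj hsurj
  exact ⟨_, h.of_injective (MonoidHom.id (G ⧸ V)) Function.injective_id
    (A.quotientToInvariants V) (inv (invMap κ V)) (rep_inv_bijective _)⟩

include hinj hsurj in
/-- transfer of the vanishing of the cohomology of all subgroups from `B^V` to `A^V`. -/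
theorem eq_zero_of_invMap (n : ℕ)
    (h : ∀ (S : Subgroup (G ⧸ V)) (x : groupCohomology (res S.subtype
      (B.quotientToInvariants V)) n), x = 0)
    (S : Subgroup (G ⧸ V)) (x : groupCohomology (res S.subtype (A.quotientToInvariants V)) n) :
    x = 0 := by
  haveI := isIso_invMap κ V hinj hsurj
  exact eq_zero_of_injective_sub n h (MonoidHom.id (G ⧸ V)) Function.injective_id
    (A.quotientToInvariants V) (inv (invMap κ V)) (rep_inv_bijective _) S x

end Invariants

section Coarsen

variable {G : Type} [Group G] {𝒰 𝒱 : OpenBasis G} {p : ℕ} (J : SmRep ℤ 𝒰) (B : SmRep ℤ 𝒱)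
  (κ : J.obj ⟶ B.obj) (hinj : Function.Injective κ.hom)
  (hrange : ∀ b : B.obj.V, (∃ U ∈ 𝒰.sets, ∀ g ∈ U, B.obj.ρ g b = b) → ∃ j : J.obj.V, κ.hom j = b)

include hrange in
lemma exists_of_fixed_of_isOpen {U : Subgroup G} (hU : 𝒰.IsOpen U) (b : B.obj.V)
    (hb : ∀ g ∈ U, B.obj.ρ g b = b) : ∃ j : J.obj.V, κ.hom j = b := by
  obtain ⟨U', hU', hle⟩ := hU
  exact hrange b ⟨U', hU', fun g hg => hb g (hle hg)⟩

include hinj in
lemma fixed_of_map_fixed {U : Subgroup G} (j : J.obj.V)
    (hj : ∀ g ∈ U, B.obj.ρ g (κ.hom j) = κ.hom j) (g : G) (hg : g ∈ U) : J.obj.ρ g j = j := by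
  apply hinj
  have h1 : κ.hom (J.obj.ρ g j) = B.obj.ρ g (κ.hom j) := Rep.hom_comm_apply κ g j
  exact h1.trans (hj g hg)

include hinj hrange in
/-- finiteness of `J^U / p` from the finiteness of `B^U / p`. -/
theorem fin_of_coarse {U : Subgroup G} (hU : 𝒰.IsOpen U)
    (h : ∃ T : Finset B.obj.V, ∀ c : B.obj.V, (∀ g ∈ U, B.obj.ρ g c = c) →
      ∃ t ∈ T, ∃ c' : B.obj.V, (∀ g ∈ U, B.obj.ρ g c' = c') ∧ c = t + p • c') :
    ∃ T : Finset J.obj.V, ∀ c : J.obj.V, (∀ g ∈ U, J.obj.ρ g c = c) →
      ∃ t ∈ T, ∃ c' : J.obj.V, (∀ g ∈ U, J.obj.ρ g c' = c') ∧ c = t + p • c' := by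
  classical
  obtain ⟨T, hT⟩ := h
  refine ⟨T.image (fun t => if h : ∃ j : J.obj.V, κ.hom j = t then h.choose else 0),
    fun c hc => ?_⟩
  have hκc : ∀ g ∈ U, B.obj.ρ g (κ.hom c) = κ.hom c := fun g hg => by
    have h1 : κ.hom (J.obj.ρ g c) = B.obj.ρ g (κ.hom c) := Rep.hom_comm_apply κ g c
    rw [← h1, hc g hg]
  obtain ⟨t, ht, b', hb', hcb⟩ := hT (κ.hom c) hκc
  obtain ⟨c', hc'⟩ := exists_of_fixed_of_isOpen J B κ hrange hU b' hb'
  have hc'fix : ∀ g ∈ U, J.obj.ρ g c' = c' :=
    fixed_of_map_fixed J B κ hinj c' (by rw [hc']; exact hb')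
  have htj : κ.hom (c - p • c') = t := by
    rw [map_sub, map_nsmul, hc', hcb]
    abel
  have hex : ∃ j : J.obj.V, κ.hom j = t := ⟨_, htj⟩
  refine ⟨hex.choose, Finset.mem_image.2 ⟨t, ht, by rw [dif_pos hex]⟩, c', hc'fix, ?_⟩
  have h2 : hex.choose = c - p • c' := hinj (hex.choose_spec.trans htj.symm)
  rw [h2]
  abel

variable [hp : Fact p.Prime]

/-- **Coarsening of a level formation.** -/
noncomputable def coarsenPLevelFormation (ℱ : PLevelFormation 𝒱 p B) (hsub : 𝒰.sets ⊆ ℱ.lev)
    (hpcof : ∀ V ∈ 𝒰.sets, ∃ W ∈ 𝒰.sets, W ≤ V ∧ p ∣ W.index / V.index) :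
    PLevelFormation 𝒰 p J where
  toLevelFamily := LevelFamily.all 𝒰
  fund V _ hV := by
    obtain ⟨γ, hγ⟩ := ℱ.fund V (hsub hV)
    exact exists_isPFundamental_of_invMap κ V hinj
      (fun b hb => exists_of_fixed_of_isOpen J B κ hrange (𝒰.isOpen_of_mem hV) b hb) hγ
  pcof := hpcof
  fin U hU := by
    obtain ⟨U', hU', hle⟩ := hU
    exact fin_of_coarse J B κ hinj hrange ⟨U', hU', hle⟩
      (ℱ.fin U ⟨U', ℱ.lev_sub (hsub hU'), hle⟩)

end Coarsen

section Vanishing

variable {k G : Type} [CommRing k] [Group G] {𝒰 : OpenBasis G}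

/-- If `Hⁿ` of all subgroups of all finite levels of `A` vanishes, then the smooth cohomology
`Hⁿ(W, A)` vanishes for all open subgroups `W`. -/
theorem smH_sub_eq_zero_of_levels (A : SmRep k 𝒰) (n : ℕ)
    (hlev : ∀ (V : Subgroup G) (hV : V ∈ 𝒰.sets), haveI := 𝒰.normal V hV
      ∀ (S : Subgroup (G ⧸ V)) (y : groupCohomology (res S.subtype (levelRep A V)) n), y = 0)
    (W : Subgroup G) (hW : 𝒰.IsOpen W) (x : smH (𝒰.sub W) (resSub A W) n) : x = 0 := by
  have hz : IsZero (smH (𝒰.sub W) (resSub A W) n) := by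
    refine isZero_smH_of_cofinal _ n ?_
    rintro _ ⟨U, hU, rfl⟩
    obtain ⟨V, hV, hVle⟩ := OpenBasis.IsOpen.inf _ (𝒰.isOpen_of_mem hU) hW
    refine ⟨V.subgroupOf W, ⟨V, hV, rfl⟩, Subgroup.comap_mono (hVle.trans inf_le_left), ?_⟩
    haveI := 𝒰.normal V hV
    have key : ∀ y : groupCohomology (levelRep (resSub A W) (V.subgroupOf W)) n,
        y = 0 := fun y =>
      eq_zero_of_injective n (hlev V hV) (levelResHom W V) (levelResHom_injective W V) _
        (levelResLift A W V) (levelResLift_bijective A W V (hVle.trans inf_le_right)) y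
    haveI : Subsingleton (groupCohomology (levelRep (resSub A W) (V.subgroupOf W)) n) :=
      ⟨fun a b => by rw [key a, key b]⟩
    exact ModuleCat.isZero_of_subsingleton _
  exact (ModuleCat.isZero_iff_subsingleton.1 hz).elim _ _

end Vanishing

section CoarseVanishing

variable {G : Type} [Group G] {𝒰 𝒱 : OpenBasis G} (J : SmRep ℤ 𝒰) (B : SmRep ℤ 𝒱)
  (κ : J.obj ⟶ B.obj) (hinj : Function.Injective κ.hom)
  (hrange : ∀ b : B.obj.V, (∃ U ∈ 𝒰.sets, ∀ g ∈ U, B.obj.ρ g b = b) → ∃ j : J.obj.V, κ.hom j = b)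

include hinj hrange in
/-- vanishing of `Hⁿ(W, J)` for the coarse-open subgroups `W` from the vanishing of the cohomology
of the levels of `B`. -/
theorem coarse_smH_sub_eq_zero (n : ℕ)
    (hlev : ∀ (V : Subgroup G) (hV : V ∈ 𝒰.sets), haveI := 𝒰.normal V hV
      ∀ (S : Subgroup (G ⧸ V)) (y : groupCohomology (res S.subtype
        (B.obj.quotientToInvariants V)) n), y = 0)
    (W : Subgroup G) (hW : 𝒰.IsOpen W) (x : smH (𝒰.sub W) (resSub J W) n) : x = 0 := by
  refine smH_sub_eq_zero_of_levels J n ?_ W hW x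
  intro V hV
  haveI := 𝒰.normal V hV
  intro S y
  exact eq_zero_of_invMap κ V hinj
    (fun b hb => exists_of_fixed_of_isOpen J B κ hrange (𝒰.isOpen_of_mem hV) b hb) n
    (hlev V hV) S y

end CoarseVanishing

end Fermat.Agent.CFT.LocForm
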