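/-
S56 / CFT (leaf COARSE) — helper4.
**The coarse local `p`-class formation** `(G_v, 𝒰_S|_{G_v}, J_v)`, `J_v = (ℚ_S ℚ_v)ˣ`, for `p ∈ S`:
the group `G_v` with the topology pulled back from `G_S` (basis: the localized `S`-levels) and the
module of coarse-smooth vectors of `B_v`.  Obtained from the fine formation `(G_v, B_v)` by
coarsening (LocForm/Coarsen) and the `p`-cofinality of the localized `S`-levels (LocForm/CoarsePCof:
the local degrees of `ℚ_S` are divisible by `p^∞`).  Also `H³(U, J_v) = 0` and `H¹(U, J_v) = 0` for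
all coarse-open subgroups `U`.
-/
import Fermat.Agent.CFT.LocForm.Coarsen_helper4
import Fermat.Agent.CFT.LocForm.CoarsePCof_helper4
import Fermat.Agent.CFT.LocForm.Main_helper4
import Fermat.Agent.CFT.LocForm.H3_helper4
import Fermat.Agent.CFT.Bridge.Datum_helper6

set_option autoImplicit false
set_option linter.unusedSectionVars false
set_option linter.style.haveILetI false

open CategoryTheory groupCohomology Rep ExtCitation

namespace Fermat.Agent.CFT.LocForm

open Fermat.Agent.CFT.Coh Fermat.Agent.CFT.Local Fermat.Agent.CFT.Sm Fermat.Agent.CFT.Bridge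
  Fermat.Agent.CFT.Arith

section Generic

variable (S : Finset Nat.Primes) (ℓ : ℕ) [Fact ℓ.Prime]

/-- vanishing of `H³` on all subgroups of the finite levels of `(G_ℓ, B_ℓ)`. -/
theorem padic_level_h3 (V : Subgroup (PadicAlgCl ℓ ≃ₐ[ℚ_[ℓ]] PadicAlgCl ℓ))
    (hV : V ∈ (padicBasis ℓ).sets) :
    haveI := (padicBasis ℓ).normal V hV
    ∀ (S' : Subgroup ((PadicAlgCl ℓ ≃ₐ[ℚ_[ℓ]] PadicAlgCl ℓ) ⧸ V))
      (y : groupCohomology (res S'.subtype ((levelUnitsRep ℓ).quotientToInvariants V)) 3),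
      y = 0 := by
  haveI := (padicBasis ℓ).normal V hV
  intro S' y
  obtain ⟨F, hF, hVF⟩ := mem_padicBasis_sets.1 hV
  haveI := hF.1
  haveI := isGalois_localLevel (q := ℓ) hF.2
  exact eq_zero_of_injective_sub 3
    (fun S'' z => h3_units_res_eq_zero ℤ_[ℓ] ℚ_[ℓ] (localLevel ℓ F) S'' z)
    (levelQuotEquiv hF.2 hVF).toMonoidHom (levelQuotEquiv hF.2 hVF).injective _
    (levelCoeffHom hF.2 hVF) (levelCoeffHom_bijective hF.2 hVF) S' y

/-- vanishing of `H¹` on all subgroups of the finite levels of `(G_ℓ, B_ℓ)`. -/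
theorem padic_level_h1 (V : Subgroup (PadicAlgCl ℓ ≃ₐ[ℚ_[ℓ]] PadicAlgCl ℓ))
    (hV : V ∈ (padicBasis ℓ).sets) :
    haveI := (padicBasis ℓ).normal V hV
    ∀ (S' : Subgroup ((PadicAlgCl ℓ ≃ₐ[ℚ_[ℓ]] PadicAlgCl ℓ) ⧸ V))
      (y : groupCohomology (res S'.subtype ((levelUnitsRep ℓ).quotientToInvariants V)) 1),
      y = 0 := by
  haveI := (padicBasis ℓ).normal V hV
  intro S' y
  obtain ⟨F, hF, hVF⟩ := mem_padicBasis_sets.1 hV
  haveI := hF.1
  exact h90_level hF.2 hVF S' y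

/-- **`H³(W, J_v) = 0`** for all coarse-open subgroups `W` of `G_ℓ`. -/
theorem coarse_padic_h3 (W : Subgroup (PadicAlgCl ℓ ≃ₐ[ℚ_[ℓ]] PadicAlgCl ℓ))
    (hW : (localBasis S ℓ).IsOpen W)
    (x : smH ((localBasis S ℓ).sub W) (resSub (JvSm S ℓ) W) 3) : x = 0 :=
  coarse_smH_sub_eq_zero (JvSm S ℓ) (padicBSm ℓ) (jvToBHom S ℓ) (jvToBHom_injective S ℓ)
    (exists_jvToBHom_eq S ℓ) 3
    (fun V hV => padic_level_h3 ℓ V (localBasis_sets_subset hV)) W hW x

/-- **(H90)** `H¹(W, J_v) = 0` for all coarse-open subgroups `W` of `G_ℓ`. -/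
theorem coarse_padic_h90 (W : Subgroup (PadicAlgCl ℓ ≃ₐ[ℚ_[ℓ]] PadicAlgCl ℓ))
    (hW : (localBasis S ℓ).IsOpen W)
    (x : smH ((localBasis S ℓ).sub W) (resSub (JvSm S ℓ) W) 1) : x = 0 :=
  coarse_smH_sub_eq_zero (JvSm S ℓ) (padicBSm ℓ) (jvToBHom S ℓ) (jvToBHom_injective S ℓ)
    (exists_jvToBHom_eq S ℓ) 1
    (fun V hV => padic_level_h1 ℓ V (localBasis_sets_subset hV)) W hW x

variable (p : ℕ) [hp : Fact p.Prime] (hpS : pPrime p ∈ S)

/-- The coarse level formation of `(G_ℓ, J_v)`: all localized `S`-levels. -/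
noncomputable def coarsePadicPLevelFormation : PLevelFormation (localBasis S ℓ) p (JvSm S ℓ) :=
  coarsenPLevelFormation (JvSm S ℓ) (padicBSm ℓ) (jvToBHom S ℓ) (jvToBHom_injective S ℓ)
    (exists_jvToBHom_eq S ℓ) (padicPLevelFormation ℓ p) localBasis_sets_subset
    (coarse_pcof S ℓ p hpS)

/-- **The coarse local `p`-class formation** (generic form). -/
noncomputable def coarsePadicPClassFormation : PClassFormation (localBasis S ℓ) p (JvSm S ℓ) :=
  (coarsePadicPLevelFormation S ℓ p hpS).toPClassFormation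

end Generic

section Wrapper

variable {S : Finset Nat.Primes} (p : ℕ) [hp : Fact p.Prime] (hpS : pPrime p ∈ S) (v : ↥S)

/-- **The coarse local `p`-class formation** `(G_v, (levelBasis S).comap (locHom S v), J_v)`,
`p ∈ S`. -/
noncomputable def coarsePClassFormation :
    PClassFormation ((levelBasis S).comap (locHom S v)) p (JvSm' S v) :=
  haveI : Fact ((v.1 : Nat.Primes) : ℕ).Prime := ⟨v.1.2⟩
  coarsePadicPClassFormation S ((v.1 : Nat.Primes) : ℕ) p hpS

/-- **`H³(W, J_v) = 0`** for all coarse-open subgroups `W` of `G_v`. -/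
theorem coarse_h3 (W : Subgroup (locGroup S v)) (hW : ((levelBasis S).comap (locHom S v)).IsOpen W)
    (x : smH (((levelBasis S).comap (locHom S v)).sub W) (resSub (JvSm' S v) W) 3) : x = 0 :=
  haveI : Fact ((v.1 : Nat.Primes) : ℕ).Prime := ⟨v.1.2⟩
  coarse_padic_h3 S ((v.1 : Nat.Primes) : ℕ) W hW x

/-- **(H90)** `H¹(W, J_v) = 0` for all coarse-open subgroups `W` of `G_v`. -/
theorem coarse_h90 (W : Subgroup (locGroup S v))
    (hW : ((levelBasis S).comap (locHom S v)).IsOpen W)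
    (x : smH (((levelBasis S).comap (locHom S v)).sub W) (resSub (JvSm' S v) W) 1) : x = 0 :=
  haveI : Fact ((v.1 : Nat.Primes) : ℕ).Prime := ⟨v.1.2⟩
  coarse_padic_h90 S ((v.1 : Nat.Primes) : ℕ) W hW x

end Wrapper

end Fermat.Agent.CFT.LocForm
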