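/-
S56 (leaf DEC_F) — helper4.
**`G_q → D(padicPlace q)` is surjective at every finite level.**  The fixed field of the image of
`G_q` in `Gal(N/ℚ)` (`N/ℚ` finite Galois) consists of the `x` with `ι x ∈ ℚ_q`; an element of the
decomposition group of `padicPlace q` is `q`-adically continuous, hence fixes these `x` (density of
`ℚ` in `ℚ_q`), and the finite Galois correspondence concludes.
-/
import Fermat.Agent.CFT.Local.PadicLevels
import Fermat.Agent.Tate.Inertia
import Fermat.Prelude.Def_ExtEndgame_ProductionDatum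

set_option autoImplicit false
set_option linter.unusedSectionVars false
set_option linter.style.haveILetI false

namespace Fermat.Agent.CFT.LocForm

open Fermat.Agent.CFT.Local

/-- `Ω = AlgebraicClosure ℚ`. -/
local notation "Ω" => AlgebraicClosure ℚ

variable (q : ℕ) [hq : Fact q.Prime]

/-- an element of the decomposition group of `padicPlace q` is a contraction for the `q`-adic norm
on elements whose image in `PadicAlgCl q` is close to a rational number. -/
lemma norm_padicEmbedding_map_sub_le {σ : Ω ≃ₐ[ℚ] Ω}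
    (hσ : σ ∈ (padicPlace q).decompositionSubgroup ℚ) (x : Ω) (r : ℚ) (n : ℕ)
    (h : ‖padicEmbedding q x - (r : PadicAlgCl q)‖ ≤ (q : ℝ) ^ (-(n : ℤ))) :
    ‖padicEmbedding q (σ x) - (r : PadicAlgCl q)‖ ≤ (q : ℝ) ^ (-(n : ℤ)) := by
  have hq0 : (q : ℝ) ≠ 0 := by exact_mod_cast hq.out.ne_zero
  have hqpos : (0 : ℝ) < q := by exact_mod_cast hq.out.pos
  have hqΩ : ((q : ℕ) : Ω) ≠ 0 := Nat.cast_ne_zero.2 hq.out.ne_zero
  have hnq : ‖((q : ℕ) : PadicAlgCl q) ^ n‖ = (q : ℝ) ^ (-(n : ℤ)) := by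
    have h1 : ((q : ℕ) : PadicAlgCl q) ^ n =
        algebraMap ℚ_[q] (PadicAlgCl q) (((q : ℕ) : ℚ_[q]) ^ n) := by
      rw [map_pow, map_natCast]
    rw [h1]
    exact (PadicAlgCl.norm_extends q _).trans (Padic.norm_p_pow n)
  have hpos : (0 : ℝ) < (q : ℝ) ^ (-(n : ℤ)) := zpow_pos hqpos _
  -- `w = (x - r) / q ^ n` lies in the valuation ring
  obtain ⟨w, hw⟩ : ∃ w : Ω, w = (x - algebraMap ℚ Ω r) / ((q : ℕ) : Ω) ^ n := ⟨_, rfl⟩
  have hιr : padicEmbedding q (algebraMap ℚ Ω r) = (r : PadicAlgCl q) := by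
    rw [AlgHom.commutes]
    exact (eq_ratCast (algebraMap ℚ (PadicAlgCl q)) r)
  have hnorm : ∀ y : Ω, ‖padicEmbedding q ((y - algebraMap ℚ Ω r) / ((q : ℕ) : Ω) ^ n)‖ =
      ‖padicEmbedding q y - (r : PadicAlgCl q)‖ / (q : ℝ) ^ (-(n : ℤ)) := by
    intro y
    rw [map_div₀, map_sub, map_pow, map_natCast, hιr, norm_div, hnq]
  have hwA : w ∈ padicPlace q := by
    rw [mem_padicPlace_iff, ← NNReal.coe_le_coe, coe_nnnorm, NNReal.coe_one, hw, hnorm x,
      div_le_one hpos]
    exact h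
  have hσw : σ w ∈ padicPlace q :=
    Fermat.Agent.Tate.decomposition_map_mem (K := ℚ) ⟨σ, hσ⟩ hwA
  have hσw' : σ w = (σ x - algebraMap ℚ Ω r) / ((q : ℕ) : Ω) ^ n := by
    rw [hw, map_div₀, map_sub, map_pow, map_natCast, AlgEquiv.commutes]
  rw [mem_padicPlace_iff, ← NNReal.coe_le_coe, coe_nnnorm, NNReal.coe_one, hσw', hnorm (σ x),
    div_le_one hpos] at hσw
  exact hσw

/-- **the decomposition group of `padicPlace q` fixes the elements of `ℚ̄ ∩ ℚ_q`.** -/
theorem map_eq_of_padicEmbedding_mem_bot {σ : Ω ≃ₐ[ℚ] Ω}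
    (hσ : σ ∈ (padicPlace q).decompositionSubgroup ℚ) (x : Ω)
    (hx : padicEmbedding q x ∈ (⊥ : IntermediateField ℚ_[q] (PadicAlgCl q))) : σ x = x := by
  rw [IntermediateField.mem_bot] at hx
  obtain ⟨y, hy⟩ := hx
  apply (padicEmbedding q).injective
  rw [← sub_eq_zero, ← norm_le_zero_iff]
  have hqpos : (0 : ℝ) < q := by exact_mod_cast hq.out.pos
  have hq1 : (1 : ℝ) < q := by exact_mod_cast hq.out.one_lt
  -- the difference is smaller than every `q ^ (-n)`
  have key : ∀ n : ℕ, ‖padicEmbedding q (σ x) - padicEmbedding q x‖ ≤ (q : ℝ) ^ (-(n : ℤ)) := by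
    intro n
    have hpos : (0 : ℝ) < (q : ℝ) ^ (-(n : ℤ)) := zpow_pos hqpos _
    obtain ⟨r, hr⟩ := Padic.rat_dense q y hpos
    have h1 : ‖padicEmbedding q x - (r : PadicAlgCl q)‖ ≤ (q : ℝ) ^ (-(n : ℤ)) := by
      have h2 : padicEmbedding q x - (r : PadicAlgCl q) =
          algebraMap ℚ_[q] (PadicAlgCl q) (y - (r : ℚ_[q])) := by
        rw [map_sub, hy, map_ratCast]
      rw [h2]
      exact ((PadicAlgCl.norm_extends q _).trans_le hr.le)
    have h3 := norm_padicEmbedding_map_sub_le q hσ x r n h1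
    have h4 : padicEmbedding q (σ x) - padicEmbedding q x =
        (padicEmbedding q (σ x) - (r : PadicAlgCl q)) -
          (padicEmbedding q x - (r : PadicAlgCl q)) := by ring
    rw [h4]
    rw [sub_eq_add_neg]
    refine (IsUltrametricDist.norm_add_le_max _ _).trans (max_le h3 ?_)
    rw [norm_neg]
    exact h1
  by_contra hne
  rw [not_le] at hne
  obtain ⟨n, hn⟩ := exists_pow_lt_of_lt_one hne (inv_lt_one_of_one_lt₀ hq1)
  have := key n
  rw [zpow_neg, zpow_natCast, ← inv_pow] at this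
  exact absurd this (not_le.2 hn)

/-- **(DEC_F)** `G_q → D(padicPlace q)` is surjective at every finite level. -/
theorem exists_local_lift (σ : Ω ≃ₐ[ℚ] Ω) (hσ : σ ∈ (padicPlace q).decompositionSubgroup ℚ)
    (F : IntermediateField ℚ Ω) [FiniteDimensional ℚ F] :
    ∃ τ : PadicAlgCl q ≃ₐ[ℚ_[q]] PadicAlgCl q, ∀ x ∈ F, localGaloisToGlobal q τ x = σ x := by
  obtain ⟨N, hN⟩ : ∃ N : IntermediateField ℚ Ω, N = IntermediateField.normalClosure ℚ F Ω :=
    ⟨_, rfl⟩
  haveI : Normal ℚ N := by rw [hN]; exact normalClosure.normal ℚ F Ω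
  haveI : FiniteDimensional ℚ N := by rw [hN]; exact normalClosure.is_finiteDimensional ℚ F Ω
  have hFN : F ≤ N := by rw [hN]; exact IntermediateField.le_normalClosure F
  obtain ⟨H, hH⟩ : ∃ H : Subgroup (N ≃ₐ[ℚ] N),
      H = (localGaloisToGlobal q).range.map (AlgEquiv.restrictNormalHom N) := ⟨_, rfl⟩
  have hmem : AlgEquiv.restrictNormalHom N σ ∈ H := by
    rw [← IntermediateField.fixingSubgroup_fixedField H, IntermediateField.mem_fixingSubgroup_iff]
    intro x hx
    rw [IntermediateField.mem_fixedField_iff] at hx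
    have hfix : padicEmbedding q (x : Ω) ∈ (⊥ : IntermediateField ℚ_[q] (PadicAlgCl q)) := by
      refine mem_of_fixed _ (fun τ _ => ?_)
      have h1 := hx (AlgEquiv.restrictNormalHom N (localGaloisToGlobal q τ))
        (by rw [hH]; exact ⟨_, ⟨τ, rfl⟩, rfl⟩)
      have h2 : localGaloisToGlobal q τ (x : Ω) = (x : Ω) := by
        have h3 := AlgEquiv.restrictNormal_commutes (localGaloisToGlobal q τ) N x
        exact h3.symm.trans (congrArg (fun z : N => (z : Ω)) h1)
      rw [← padicEmbedding_localGaloisToGlobal, h2]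
    have h4 := map_eq_of_padicEmbedding_mem_bot q hσ (x : Ω) hfix
    apply Subtype.ext
    have h5 := AlgEquiv.restrictNormal_commutes σ N x
    exact h5.trans h4
  rw [hH] at hmem
  obtain ⟨g, ⟨τ, rfl⟩, hg⟩ := hmem
  refine ⟨τ, fun x hx => ?_⟩
  have h6 := congrArg (fun f : N ≃ₐ[ℚ] N => ((f ⟨x, hFN hx⟩ : N) : Ω)) hg
  have h7 := AlgEquiv.restrictNormal_commutes (localGaloisToGlobal q τ) N ⟨x, hFN hx⟩
  have h8 := AlgEquiv.restrictNormal_commutes σ N ⟨x, hFN hx⟩
  exact h7.symm.trans (h6.trans h8)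


/-- **(DEC_F)**, `Nat.Primes` form: `primeLocalToGlobal q` is surjective onto the decomposition
group of `primeLocalPlace q` at every finite level. -/
theorem exists_primeLocal_lift (v : Nat.Primes) (σ : Ω ≃ₐ[ℚ] Ω)
    (hσ : σ ∈ (ExtCitation.primeLocalPlace v).decompositionSubgroup ℚ)
    (F : IntermediateField ℚ Ω) [FiniteDimensional ℚ F] :
    ∃ τ : ExtCitation.primeLocalGaloisGroup v,
      ∀ x ∈ F, ExtCitation.primeLocalToGlobal v τ x = σ x :=
  haveI : Fact (v : ℕ).Prime := ⟨v.2⟩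
  exists_local_lift (v : ℕ) σ hσ F

end Fermat.Agent.CFT.LocForm
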