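/-
S56 / CFT (leaf LD, consumer forms) — helper4.
**Local Tate duality in the form used by the Selmer count**: for a Poitou–Tate datum whose local
formation at `v` is global below an open subgroup (LocForm/Below: true for the arithmetic local
formations `(G_q, B_q)`), the local pairings
`Ext^r(Res_v X, B_v) × Ext^s(𝟙, Res_v X) → ℚ/ℤ`, `s + r = 2`, `(s, r) = (0, 2), (1, 1)`, are
perfect on the left (`locPairN` is bijective) for `X` finite killed by `p`.
-/
import Fermat.Agent.CFT.LocForm.Below_helper4
import Fermat.Agent.CFT.Sm.SelmerCount_helper9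
import Fermat.Agent.CFT.Sm.LocalDuality_helper2
import Fermat.Agent.CFT.Bridge.Datum_helper6

set_option autoImplicit false
set_option linter.unusedSectionVars false
set_option linter.style.haveILetI false

open CategoryTheory ExtCitation

namespace Fermat.Agent.CFT.LocForm

open Fermat.Agent.CFT.Coh Fermat.Agent.CFT.Local Fermat.Agent.CFT.Sm Fermat.Agent.CFT.Bridge
  Fermat.Agent.CFT.Arith

section Abstract

variable {Γ : Type} [Group Γ] {𝒰 : OpenBasis Γ} {p : ℕ} [hp : Fact p.Prime] {ι : Type} [Fintype ι]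
  {G : ι → Type} [∀ v, Group (G v)] {ψ : ∀ v, G v →* Γ} {𝒱 : ∀ v, OpenBasis (G v)}

/-- local duality for a `PTDatum` whose local formation at `v` is global below an open subgroup:
`locPairN` is bijective in bidegrees `(0, 2)` and `(1, 1)`. -/
theorem locPairN_bijective_of_isGlobalBelow (D : PTDatum 𝒰 p ψ 𝒱) (v : ι) {U₀ : Subgroup (G v)}
    (hG : (D.locForm v).IsGlobalBelow U₀) (hU₀ : (𝒱 v).IsOpen U₀)
    (X : SmRep ℤ 𝒰) [hfin : Finite X.obj.V] (hX : ∀ x : X.obj.V, p • x = 0) :
    Function.Bijective (D.locPairN v X (show 0 + 2 = 2 from rfl)) ∧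
      Function.Bijective (D.locPairN v X (show 1 + 1 = 2 from rfl)) := by
  haveI : Finite ((D.Rv v).obj X).obj.V := hfin
  exact hG.tateDuality_bijective hU₀ ((D.Rv v).obj X) hX

end Abstract

section Arith

variable {p : ℕ} [hp : Fact p.Prime] {S : Finset Nat.Primes}
variable (hpS : pPrime p ∈ S)
    (form : PClassFormation (levelBasis S) p (DSm S))
    (U₀ : Subgroup (AlgebraicClosure ℚ ≃ₐ[ℚ] AlgebraicClosure ℚ))
    (hU₀ : (levelBasis S).IsOpen U₀) (glob : form.IsGlobalBelow U₀)
    (lg : ∀ (v : ↥S) (z : smH (levelBasis S) (JSlSm S ((v.1 : Nat.Primes) : ℕ)) 2), p • z = 0 →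
      Sm.smHCoeff (inclJSlSm S v ≫ piSm S) 2 z = 0 → z = 0)

/-- **The arithmetic Poitou–Tate datum with the local formations `(G_q, locBasis q, B_q)`.** -/
noncomputable def arithDatumLoc : PTDatum (levelBasis S) p (locHom S) (locFine S) :=
  arithDatum p S hpS form U₀ hU₀ glob (fun v => locPClassFormation v.1 p)
    (fun v W hW x => loc_h90 v.1 W hW x) lg

/-- **Local Tate duality at all `v ∈ S`** (both `v = p` and `v ≠ p`) for the arithmetic datum:
the local pairings are bijective in bidegrees `(0, 2)` and `(1, 1)`. -/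
theorem arithDatumLoc_locPairN_bijective (v : ↥S) (X : SmRep ℤ (levelBasis S))
    [Finite X.obj.V] (hX : ∀ x : X.obj.V, p • x = 0) :
    Function.Bijective ((arithDatumLoc hpS form U₀ hU₀ glob lg).locPairN v X
        (show 0 + 2 = 2 from rfl)) ∧
      Function.Bijective ((arithDatumLoc hpS form U₀ hU₀ glob lg).locPairN v X
        (show 1 + 1 = 2 from rfl)) :=
  locPairN_bijective_of_isGlobalBelow (arithDatumLoc hpS form U₀ hU₀ glob lg) v
    (U₀ := locMuFix v.1 p) (locPClassFormation_isGlobalBelow v.1 p) (isOpen_locMuFix v.1 p) X hX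

end Arith

end Fermat.Agent.CFT.LocForm
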