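/-
S56 / CFT (leaf F1-core, abstract part) — helper4.
**Kummer theory with a twisted `p`-torsion module, abstractly.**  For a smooth module `C` with
`H¹(Γ, C)[p] = 0` and a short exact sequence `0 → Z → C →(p) C → 0`, the connecting map
`C^Γ / p → H¹(Γ, Z)` is surjective; so `#H¹(Γ, Z)` is bounded by the size of a covering set of
`C^Γ / p`.  Moreover smooth cohomology is additive: if `Y` is a "sum of copies of `Z`", then
`#Hⁿ(Γ, Y) ≤ #Hⁿ(Γ, Z)^f`.
-/
import Fermat.Agent.CFT.LocForm.Kummer_helper4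

set_option autoImplicit false
set_option linter.unusedSectionVars false
set_option linter.style.haveILetI false

open CategoryTheory CategoryTheory.Limits

namespace Fermat.Agent.CFT.LocForm

open Fermat.Agent.CFT.Sm

variable {Γ : Type} [Group Γ] {𝒰 : OpenBasis Γ}

section Eval

variable {k : Type} [CommRing k]

/-- evaluation of morphisms of smooth representations at a vector, as an additive map. -/
noncomputable def smRepEvalHom {X Y : SmRep k 𝒰} (x : X.obj.V) : (X ⟶ Y) →+ Y.obj.V where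
  toFun f := f.hom.hom x
  map_zero' := rfl
  map_add' _ _ := rfl

lemma smRep_sum_hom_apply {ι : Type*} (s : Finset ι) {X Y : SmRep k 𝒰} (f : ι → (X ⟶ Y))
    (x : X.obj.V) : (∑ i ∈ s, f i).hom.hom x = ∑ i ∈ s, (f i).hom.hom x :=
  map_sum (smRepEvalHom (Y := Y) x) f s

lemma smRep_nsmul_hom_apply {X Y : SmRep k 𝒰} (n : ℕ) (f : X ⟶ Y) (x : X.obj.V) :
    (n • f).hom.hom x = n • f.hom.hom x :=
  map_nsmul (smRepEvalHom (Y := Y) x) n f

end Eval

section Mul

variable (p : ℕ) (C : SmRep ℤ 𝒰)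

lemma kummerMul_eq_nsmul : kummerMul p C = p • 𝟙 C := by
  apply smRep_hom_ext_apply
  intro c
  rw [smRep_nsmul_hom_apply]
  rfl

/-- multiplication by `p` on `C` induces multiplication by `p` on smooth cohomology. -/
lemma smH_map_kummerMul (n : ℕ) (x : smH 𝒰 C n) :
    ((smHFunctor ℤ 𝒰 n).map (kummerMul p C)).hom x = p • x := by
  rw [kummerMul_eq_nsmul, Functor.map_nsmul, CategoryTheory.Functor.map_id]
  rfl

end Mul

section Kummer

variable (p : ℕ) [hp : Fact p.Prime] (C : SmRep ℤ 𝒰)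

/-- **Abstract Kummer bound**: for a short exact sequence `0 → Z → C →(p) C → 0` with
`H¹(Γ, C)[p] = 0` and `C^Γ / p` covered by a finite set `T`: `#H¹(Γ, Z) ≤ #T`. -/
theorem card_smH1_le_of_kummer (Z : SmRep ℤ 𝒰) (j : Z ⟶ C) (hj : j ≫ kummerMul p C = 0)
    (hS : (ShortComplex.mk j (kummerMul p C) hj).ShortExact)
    (h1 : Function.Injective (fun x : smH 𝒰 C 1 => p • x))
    (T : Finset C.obj.V) (hT : ∀ c : C.obj.V, (∀ g, C.obj.ρ g c = c) →
      ∃ t ∈ T, ∃ c' : C.obj.V, (∀ g, C.obj.ρ g c' = c') ∧ c = t + p • c') :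
    Finite (smH 𝒰 Z 1) ∧ Nat.card (smH 𝒰 Z 1) ≤ T.card := by
  classical
  -- every class is a connecting image
  have hsurj : ∀ x : smH 𝒰 Z 1, ∃ (c : C.obj.V) (hc : ∀ g, C.obj.ρ g c = c),
      invDelta hS c hc = x := by
    intro x
    have hx0 : ((smHFunctor ℤ 𝒰 1).map j).hom x = 0 := by
      apply h1
      change p • ((smHFunctor ℤ 𝒰 1).map j).hom x = p • (0 : smH 𝒰 C 1)
      rw [smul_zero]
      have h2 : (smHFunctor ℤ 𝒰 1).map j ≫ (smHFunctor ℤ 𝒰 1).map (kummerMul p C) = 0 := by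
        rw [← Functor.map_comp, hj, Functor.map_zero]
      have h3 := congrArg (fun f => f.hom x) h2
      exact (smH_map_kummerMul p C 1 _).symm.trans h3
    have hex := smH_exact₁ hS 0 1 rfl
    rw [ShortComplex.moduleCat_exact_iff] at hex
    obtain ⟨y, hy⟩ := hex x hx0
    refine ⟨(smHZeroEquiv C y).1, (smHZeroEquiv C y).2, ?_⟩
    unfold invDelta
    have h3 : (smHZeroEquiv C).symm ⟨(smHZeroEquiv C y).1, (smHZeroEquiv C y).2⟩ = y :=
      (smHZeroEquiv C).symm_apply_apply y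
    rw [h3]
    exact hy
  -- the connecting map only depends on the class mod `p`
  have hκ : ∀ (c t c' : C.obj.V) (hc : ∀ g, C.obj.ρ g c = c) (ht : ∀ g, C.obj.ρ g t = t)
      (_ : ∀ g, C.obj.ρ g c' = c'), c = t + p • c' → invDelta hS c hc = invDelta hS t ht := by
    intro c t c' hc ht hc' h
    have hpc : ∀ g, C.obj.ρ g (p • c') = p • c' := fun g => by rw [map_nsmul, hc' g]
    have hsum : ∀ g, C.obj.ρ g (t + p • c') = t + p • c' := fun g => by
      rw [← h]
      exact hc g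
    have h1' := invDelta_add hS t (p • c') ht hpc hsum
    have h2 : invDelta hS (p • c') hpc = 0 := invDelta_map_g hS c' hc' hpc
    rw [h2, add_zero] at h1'
    exact (invDelta_congr hS h hc hsum).trans h1'
  let T' := {t : C.obj.V // t ∈ T ∧ ∀ g, C.obj.ρ g t = t}
  have hinj : Function.Injective (fun t : T' => (⟨t.1, t.2.1⟩ : T)) :=
    fun a b h => Subtype.ext (congrArg (fun z : T => (z : C.obj.V)) h)
  haveI : Finite T' := Finite.of_injective _ hinj
  have hsurj' : Function.Surjective (fun t : T' => invDelta hS t.1 t.2.2) := by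
    intro x
    obtain ⟨c, hc, rfl⟩ := hsurj x
    obtain ⟨t, ht, c', hc', hct⟩ := hT c hc
    have htinv : ∀ g, C.obj.ρ g t = t := by
      intro g
      have h1' : t = c - p • c' := by rw [hct, add_sub_cancel_right]
      rw [h1', map_sub, map_nsmul, hc g, hc' g]
    exact ⟨⟨t, ht, htinv⟩, (hκ c t c' hc htinv hc' hct).symm⟩
  haveI : Finite (smH 𝒰 Z 1) := Finite.of_surjective _ hsurj'
  refine ⟨inferInstance, ?_⟩
  calc Nat.card (smH 𝒰 Z 1) ≤ Nat.card T' := Nat.card_le_card_of_surjective _ hsurj'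
    _ ≤ Nat.card T := Nat.card_le_card_of_injective _ hinj
    _ = T.card := by rw [Nat.card_eq_fintype_card, Fintype.card_coe]

end Kummer

section Sum

variable {k : Type} [CommRing k]

lemma moduleCat_sum_hom_apply {ι : Type*} (s : Finset ι) {M N : ModuleCat.{0} k}
    (f : ι → (M ⟶ N)) (z : M) : (∑ i ∈ s, f i).hom z = ∑ i ∈ s, (f i).hom z := by
  rw [ModuleCat.hom_sum, LinearMap.sum_apply]

/-- **Additivity bound**: if `𝟙 Y = ∑ i, l i ≫ e i` with `l i : Y ⟶ Z`, `e i : Z ⟶ Y`, then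
`#Hⁿ(Γ, Y) ≤ #Hⁿ(Γ, Z)^f`. -/
theorem card_smH_le_pow_of_sum {ι : Type} [Fintype ι] (Y Z : SmRep k 𝒰) (l : ι → (Y ⟶ Z))
    (e : ι → (Z ⟶ Y)) (hle : ∑ i, l i ≫ e i = 𝟙 Y) (n : ℕ) [Finite (smH 𝒰 Z n)] :
    Finite (smH 𝒰 Y n) ∧ Nat.card (smH 𝒰 Y n) ≤ Nat.card (smH 𝒰 Z n) ^ Fintype.card ι := by
  let Φ : smH 𝒰 Y n → (ι → smH 𝒰 Z n) := fun x i => ((smHFunctor k 𝒰 n).map (l i)).hom x
  have hΦ : Function.Injective Φ := by
    intro x x' h
    have key : ∀ z : smH 𝒰 Y n,
        z = ∑ i, ((smHFunctor k 𝒰 n).map (e i)).hom (((smHFunctor k 𝒰 n).map (l i)).hom z) := by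
      intro z
      have h1 : (smHFunctor k 𝒰 n).map (∑ i, l i ≫ e i) = 𝟙 _ := by
        rw [hle, CategoryTheory.Functor.map_id]
      rw [Functor.map_sum] at h1
      have h2 := congrArg (fun f => f.hom z) h1
      simp only [Functor.map_comp] at h2
      have h3 : (∑ i, (smHFunctor k 𝒰 n).map (l i) ≫ (smHFunctor k 𝒰 n).map (e i)).hom z =
          ∑ i, ((smHFunctor k 𝒰 n).map (e i)).hom (((smHFunctor k 𝒰 n).map (l i)).hom z) :=
        moduleCat_sum_hom_apply Finset.univ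
          (fun i => (smHFunctor k 𝒰 n).map (l i) ≫ (smHFunctor k 𝒰 n).map (e i)) z
      exact (h3.symm.trans h2).symm
    rw [key x, key x']
    refine Finset.sum_congr rfl fun i _ => ?_
    exact congrArg (fun y => ((smHFunctor k 𝒰 n).map (e i)).hom y) (congrFun h i)
  haveI : Finite (smH 𝒰 Y n) := Finite.of_injective Φ hΦ
  refine ⟨inferInstance, ?_⟩
  calc Nat.card (smH 𝒰 Y n) ≤ Nat.card (ι → smH 𝒰 Z n) := Nat.card_le_card_of_injective Φ hΦ
    _ = Nat.card (smH 𝒰 Z n) ^ Fintype.card ι := by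
        rw [Nat.card_fun, Nat.card_eq_fintype_card (α := ι)]

end Sum

end Fermat.Agent.CFT.LocForm
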