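/-
S56 / CFT (leaf LQ, abstract part) — helper4.
**A bound for `H¹` of a module on which a normal subgroup of index prime to `p` acts trivially.**
`(Γ, 𝒰)` a group with an open basis, `Y` a finite smooth module killed by `p`, `U ⊴ Γ` open of
index prime to `p` acting trivially on `Y`.  If every level-constant homomorphism `U → ℤ/p` extends
to `Γ` (so that conjugation acts trivially on `Hom(U, ℤ/p)`) and there are at most `p²` of them,
then `#H¹(Γ, Y) ≤ (#Y^Γ)²`.
-/
import Fermat.Agent.CFT.Bridge.LowDeg_helper6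
import Fermat.Agent.CFT.Sm.RecKer_helper1

set_option autoImplicit false
set_option linter.unusedSectionVars false
set_option linter.style.haveILetI false

open CategoryTheory groupCohomology

namespace Fermat.Agent.CFT.LocForm

open Fermat.Agent.CFT.Sm Fermat.Agent.CFT.Bridge

section Cocycle

variable {Γ : Type} [Group Γ] {A : Rep.{0} ℤ Γ} (U : Subgroup Γ)
  (hUA : ∀ u ∈ U, ∀ a : A.V, A.ρ u a = a)

include hUA

/-- a cocycle is additive on a subgroup acting trivially. -/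
lemma cocycle_mul_of_mem (c : cocycles₁ A) {u : Γ} (hu : u ∈ U) (v : Γ) :
    c (u * v) = c u + c v := by
  rw [(mem_cocycles₁_iff c).1 c.2 u v, hUA u hu, add_comm]

/-- right translation by an element of `U` on which the cocycle vanishes. -/
lemma cocycle_mul_right_of_eq_zero (c : cocycles₁ A) (g : Γ) {u : Γ} (hcu : c u = 0) :
    c (g * u) = c g := by
  rw [(mem_cocycles₁_iff c).1 c.2 g u, hcu, map_zero, zero_add]

variable [U.Normal]

/-- the restriction of a cocycle to `U` is equivariant for conjugation. -/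
lemma cocycle_conj (c : cocycles₁ A) (g : Γ) {u : Γ} (hu : u ∈ U) :
    c (g * u * g⁻¹) = A.ρ g (c u) := by
  have h1 : c (u * g⁻¹) = c u + c g⁻¹ := cocycle_mul_of_mem U hUA c hu g⁻¹
  rw [mul_assoc, (mem_cocycles₁_iff c).1 c.2 g (u * g⁻¹), h1, map_add, cocycles₁_map_inv]
  abel

end Cocycle

section Average

variable {Γ : Type} [Group Γ] {A : Rep.{0} ℤ Γ} (U : Subgroup Γ) [U.Normal] [U.FiniteIndex]

/-- a cocycle vanishing on a normal subgroup `U` of finite index satisfies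
`[Γ : U] • c g = s - g s` for a suitable `s`. -/
lemma exists_index_nsmul_eq (c : cocycles₁ A) (hc : ∀ u ∈ U, c u = 0) :
    ∃ s : A.V, ∀ g : Γ, U.index • c g = s - A.ρ g s := by
  classical
  haveI : Fintype (Γ ⧸ U) := Subgroup.fintypeQuotientOfFiniteIndex
  have hconst : ∀ g g' : Γ, g⁻¹ * g' ∈ U → c g' = c g := by
    intro g g' h
    have h1 : g' = g * (g⁻¹ * g') := by group
    rw [h1, (mem_cocycles₁_iff c).1 c.2 g (g⁻¹ * g'), hc _ h, map_zero, zero_add]
  refine ⟨∑ δ : Γ ⧸ U, c (Quotient.out δ), fun g => ?_⟩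
  have h1 : A.ρ g (∑ δ : Γ ⧸ U, c (Quotient.out δ)) =
      ∑ δ : Γ ⧸ U, (c (g * Quotient.out δ) - c g) := by
    rw [map_sum]
    refine Finset.sum_congr rfl fun δ _ => ?_
    rw [(mem_cocycles₁_iff c).1 c.2 g (Quotient.out δ)]
    abel
  have h2 : ∀ δ : Γ ⧸ U, c (g * Quotient.out δ) = c (Quotient.out (g • δ)) := by
    intro δ
    apply hconst
    rw [← QuotientGroup.eq]
    have h3 : ((g * Quotient.out δ : Γ) : Γ ⧸ U) = g • δ := by
      conv_rhs => rw [← QuotientGroup.out_eq' δ]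
      rfl
    rw [h3, QuotientGroup.out_eq']
  have h4 : ∑ δ : Γ ⧸ U, c (Quotient.out (g • δ)) = ∑ δ : Γ ⧸ U, c (Quotient.out δ) :=
    Equiv.sum_comp (MulAction.toPerm g : Equiv.Perm (Γ ⧸ U)) (fun δ => c (Quotient.out δ))
  rw [h1, Finset.sum_sub_distrib, Finset.sum_const, Finset.card_univ]
  simp only [h2]
  rw [h4, Subgroup.index_eq_card, Nat.card_eq_fintype_card]
  abel

/-- **A cocycle with values in a `p`-torsion module, vanishing on a normal subgroup of index prime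
to `p`, is a coboundary.** -/
theorem mem_coboundaries₁_of_vanish {p : ℕ} [hp : Fact p.Prime] (hpA : ∀ a : A.V, p • a = 0)
    (hidx : ¬ p ∣ U.index) (c : cocycles₁ A) (hc : ∀ u ∈ U, c u = 0) :
    (c : Γ → A.V) ∈ coboundaries₁ A := by
  obtain ⟨s, hs⟩ := exists_index_nsmul_eq U c hc
  have hcop : Nat.Coprime U.index p := ((Nat.Prime.coprime_iff_not_dvd hp.out).2 hidx).symm
  obtain ⟨e, -, he⟩ := Nat.exists_mul_mod_eq_one_of_coprime hcop hp.out.one_lt
  have hone : ∀ a : A.V, (U.index * e) • a = a := by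
    intro a
    have h1 : U.index * e = p * (U.index * e / p) + 1 := by
      have := Nat.div_add_mod (U.index * e) p
      omega
    rw [h1, add_smul, mul_smul, one_smul]
    have h2 : p • ((U.index * e / p) • a) = 0 := hpA _
    rw [h2, zero_add]
  refine ⟨-(e • s), ?_⟩
  funext g
  rw [d₀₁_hom_apply]
  have h3 : c g = e • (s - A.ρ g s) := by
    rw [← hs g, ← mul_smul, mul_comm, hone]
  rw [h3, map_neg, map_nsmul, smul_sub]
  abel

end Average

section Main

variable {Γ : Type} [Group Γ] {𝒰 : OpenBasis Γ}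

/-- the level-constant homomorphisms `U → ℤ/p`. -/
def LcHom (𝒰 : OpenBasis Γ) (U : Subgroup Γ) (p : ℕ) : Type :=
  {ψ : ↥U →* Multiplicative (ZMod p) // ∃ V ∈ (𝒰.sub U).sets, V ≤ ψ.ker}

variable (p : ℕ) [hp : Fact p.Prime] (Y : SmRep ℤ 𝒰) (U : Subgroup Γ)
  (hUY : ∀ u ∈ U, ∀ y : Y.obj.V, Y.obj.ρ u y = y)

/-- the level-constant homomorphism `U → ℤ/p` attached to a level-constant cocycle and an additive
functional. -/
noncomputable def cocycleLcHom (c : cocycles₁ Y.obj) (hc : IsLC₁ 𝒰 (c : Γ → Y.obj.V))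
    (φ : Y.obj.V →+ ZMod p) : LcHom 𝒰 U p :=
  ⟨{ toFun := fun u => Multiplicative.ofAdd (φ (c (u : Γ)))
     map_one' := by
       change Multiplicative.ofAdd (φ (c (1 : Γ))) = 1
       rw [cocycles₁_map_one, map_zero]
       rfl
     map_mul' := fun u v => by
       change Multiplicative.ofAdd (φ (c ((u : Γ) * (v : Γ)))) = _
       rw [cocycle_mul_of_mem U hUY c u.2 (v : Γ), map_add]
       rfl }, by
    obtain ⟨H, ⟨W, hW, hWH⟩, hH⟩ := hc
    refine ⟨W.comap U.subtype, ⟨W, hW, rfl⟩, fun v hv => ?_⟩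
    rw [MonoidHom.mem_ker]
    have h1 : c ((v : ↥U) : Γ) = 0 := by
      have h2 := hH 1 (v : Γ) (hWH hv)
      rw [one_mul, cocycles₁_map_one] at h2
      exact h2
    change Multiplicative.ofAdd (φ (c ((v : ↥U) : Γ))) = 1
    rw [h1, map_zero]
    rfl⟩

lemma cocycleLcHom_apply (c : cocycles₁ Y.obj) (hc : IsLC₁ 𝒰 (c : Γ → Y.obj.V))
    (φ : Y.obj.V →+ ZMod p) (u : ↥U) :
    (cocycleLcHom p Y U hUY c hc φ).1 u = Multiplicative.ofAdd (φ (c (u : Γ))) := rfl

variable [U.Normal]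

include hUY in
/-- if every level-constant homomorphism `U → ℤ/p` extends to `Γ`, the restriction of a
level-constant cocycle to `U` takes values in the invariants. -/
lemma cocycle_mem_invariants (hpY : ∀ y : Y.obj.V, p • y = 0)
    (hext : ∀ ψ : LcHom 𝒰 U p, ∃ ψ' : Γ →* Multiplicative (ZMod p),
      ∀ u : ↥U, ψ' (u : Γ) = ψ.1 u)
    (c : cocycles₁ Y.obj) (hc : IsLC₁ 𝒰 (c : Γ → Y.obj.V)) {u : Γ} (hu : u ∈ U) (g : Γ) :
    Y.obj.ρ g (c u) = c u := by
  letI : Module (ZMod p) Y.obj.V := AddCommGroup.zmodModule (n := p) hpY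
  rw [← sub_eq_zero]
  refine (Module.forall_dual_apply_eq_zero_iff (ZMod p) (Y.obj.ρ g (c u) - c u)).1 fun φ => ?_
  obtain ⟨ψ', hψ'⟩ := hext (cocycleLcHom p Y U hUY c hc φ.toAddMonoidHom)
  have hgu : g * u * g⁻¹ ∈ U := Subgroup.Normal.conj_mem inferInstance u hu g
  have h1 := hψ' ⟨g * u * g⁻¹, hgu⟩
  have h2 := hψ' ⟨u, hu⟩
  rw [cocycleLcHom_apply] at h1 h2
  have h3 : ψ' (g * u * g⁻¹) = ψ' u := by
    rw [map_mul, map_mul, map_inv, mul_comm (ψ' g), mul_assoc, mul_inv_cancel, mul_one]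
  have h4 : φ (c (g * u * g⁻¹)) = φ (c u) :=
    Multiplicative.ofAdd.injective (h1.symm.trans (h3.trans h2))
  rw [cocycle_conj U hUY c g hu] at h4
  rw [map_sub, sub_eq_zero]
  exact h4

variable [U.FiniteIndex]

include hUY in
/-- **The bound.** -/
theorem card_smH_one_le_sq [Finite Y.obj.V] (hpY : ∀ y : Y.obj.V, p • y = 0)
    (hidx : ¬ p ∣ U.index) [Finite (LcHom 𝒰 U p)] (hN : Nat.card (LcHom 𝒰 U p) ≤ p ^ 2)
    (hext : ∀ ψ : LcHom 𝒰 U p, ∃ ψ' : Γ →* Multiplicative (ZMod p),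
      ∀ u : ↥U, ψ' (u : Γ) = ψ.1 u) :
    Nat.card (smH 𝒰 Y 1) ≤ Nat.card (smInvariants Y) ^ 2 := by
  classical
  letI : Module (ZMod p) Y.obj.V := AddCommGroup.zmodModule (n := p) hpY
  obtain ⟨A, hA⟩ : ∃ A : Submodule (ZMod p) Y.obj.V,
      A = AddSubgroup.toZModSubmodule p (smInvariants Y) := ⟨_, rfl⟩
  have hmemA : ∀ y : Y.obj.V, y ∈ A ↔ ∀ g, Y.obj.ρ g y = y := fun y => by
    rw [hA, AddSubgroup.mem_toZModSubmodule]
    exact Iff.rfl
  haveI : Module.Finite (ZMod p) ↥A := Module.Finite.of_finite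
  obtain ⟨r, hr⟩ : ∃ r : ℕ, r = Module.finrank (ZMod p) ↥A := ⟨_, rfl⟩
  have b : Module.Basis (Fin r) (ZMod p) ↥A := hr ▸ Module.finBasis (ZMod p) ↥A
  obtain ⟨π, hπ⟩ := LinearMap.exists_leftInverse_of_injective A.subtype
    (LinearMap.ker_eq_bot.2 A.injective_subtype)
  have hπA : ∀ y (hy : y ∈ A), π y = ⟨y, hy⟩ := fun y hy =>
    congrArg (fun f : ↥A →ₗ[ZMod p] ↥A => f ⟨y, hy⟩) hπ
  -- representatives
  have hrep : ∀ x : smH 𝒰 Y 1, ∃ c : cocycles₁ Y.obj, IsLC₁ 𝒰 (c : Γ → Y.obj.V) ∧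
      (H1π Y.obj).hom c = smHToH Y 1 x := fun x =>
    (mem_range_smHToH_one_iff Y _).1 ⟨x, rfl⟩
  choose c hcLC hcx using hrep
  let Φ : smH 𝒰 Y 1 → (Fin r → LcHom 𝒰 U p) := fun x i =>
    cocycleLcHom p Y U hUY (c x) (hcLC x) ((b.coord i).comp π).toAddMonoidHom
  have hΦ : Function.Injective Φ := by
    intro x x' hxx'
    apply smHToH_one_injective Y
    rw [← hcx x, ← hcx x']
    change H1π Y.obj (c x) = H1π Y.obj (c x')
    rw [H1π_eq_iff]
    have hvan : ∀ u ∈ U, (c x - c x' : cocycles₁ Y.obj) u = 0 := by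
      intro u hu
      have hxA : (c x) u ∈ A :=
        (hmemA _).2 (cocycle_mem_invariants p Y U hUY hpY hext (c x) (hcLC x) hu)
      have hx'A : (c x') u ∈ A :=
        (hmemA _).2 (cocycle_mem_invariants p Y U hUY hpY hext (c x') (hcLC x') hu)
      have hcoord : ∀ i, b.coord i (π ((c x) u)) = b.coord i (π ((c x') u)) := by
        intro i
        have h1 := congrArg (fun f : Fin r → LcHom 𝒰 U p => (f i).1 ⟨u, hu⟩) hxx'
        exact Multiplicative.ofAdd.injective h1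
      have h2 : π ((c x) u) = π ((c x') u) := by
        apply b.repr.injective
        ext i
        exact hcoord i
      rw [hπA _ hxA, hπA _ hx'A] at h2
      have h3 : (c x) u = (c x') u := congrArg Subtype.val h2
      change (c x) u - (c x') u = 0
      rw [h3, sub_self]
    exact mem_coboundaries₁_of_vanish U hpY hidx (c x - c x') hvan
  calc Nat.card (smH 𝒰 Y 1) ≤ Nat.card (Fin r → LcHom 𝒰 U p) :=
        Nat.card_le_card_of_injective Φ hΦ
    _ = Nat.card (LcHom 𝒰 U p) ^ r := by rw [Nat.card_fun, Nat.card_fin]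
    _ ≤ (p ^ 2) ^ r := Nat.pow_le_pow_left hN r
    _ = (p ^ r) ^ 2 := by rw [← pow_mul, ← pow_mul, mul_comm]
    _ = Nat.card (smInvariants Y) ^ 2 := by
        congr 1
        have h1 : Nat.card ↥A = p ^ r := by
          rw [Module.natCard_eq_pow_finrank (K := ZMod p) (V := ↥A), Nat.card_zmod, hr]
        rw [← h1, hA]
        rfl

end Main

end Fermat.Agent.CFT.LocForm
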