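/-
S56 / CFT (leaf LQ, counting part) — helper4.
**`#Hom(U, ℤ/p) ≤ p²` for the open subgroups `U` of `G_q`, `q ≠ p`.**  The surjectivity of
reciprocity mod `p` bounds `#H¹(U, ℤ/p)` by `#(K^× / K^×ᵖ) ≤ p²` (`K` the fixed field of `U`).
-/
import Fermat.Agent.CFT.LocForm.LQCocycle_helper4
import Fermat.Agent.CFT.LocForm.Main_helper4
import Fermat.Agent.CFT.Sm.TrivH1_helper1

set_option autoImplicit false
set_option linter.unusedSectionVars false
set_option linter.style.haveILetI false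

open CategoryTheory groupCohomology

namespace Fermat.Agent.CFT.LocForm

open Fermat.Agent.CFT.Coh Fermat.Agent.CFT.Local Fermat.Agent.CFT.Sm Fermat.Agent.CFT.Bridge

section Abstract

variable {Γ : Type} [Group Γ] (𝒰 : OpenBasis Γ) (p : ℕ) [hp : Fact p.Prime] (C : SmRep ℤ 𝒰)
  (inv : smH 𝒰 C 2 →+ AddCircle (1 : ℚ))

/-- **Quantitative finiteness of `H¹(Γ, ℤ/p)`**: if reciprocity mod `p` is surjective and
`C^Γ / p C^Γ` is covered by a finite set `T`, then `#H¹(Γ, ℤ/p) ≤ #T`. -/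
theorem card_smH1_le_of_rec_surj
    (hsurj : ∀ φ : CharacterModule (smH 𝒰 (trivSm ℤ 𝒰 (ZMod p)) 1),
      ∃ (c : C.obj.V) (hc : ∀ g, C.obj.ρ g c = c), recMap 𝒰 p C inv c hc = φ)
    (T : Finset C.obj.V) (hT : ∀ c : C.obj.V, (∀ g, C.obj.ρ g c = c) →
      ∃ t ∈ T, ∃ c' : C.obj.V, (∀ g, C.obj.ρ g c' = c') ∧ c = t + p • c') :
    Finite (smH 𝒰 (trivSm ℤ 𝒰 (ZMod p)) 1) ∧
      Nat.card (smH 𝒰 (trivSm ℤ 𝒰 (ZMod p)) 1) ≤ T.card := by
  classical
  haveI hfin : Finite (smH 𝒰 (trivSm ℤ 𝒰 (ZMod p)) 1) :=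
    finite_smH1_of_rec_surj 𝒰 p C inv hsurj ⟨T, hT⟩
  refine ⟨hfin, ?_⟩
  rw [← card_characterModule_of_nsmul_eq_zero (nsmul_smH_trivSm_zmod p 1)]
  let T' := {t : C.obj.V // t ∈ T ∧ ∀ g, C.obj.ρ g t = t}
  have hinj : Function.Injective (fun t : T' => (⟨t.1, t.2.1⟩ : T)) :=
    fun a b h => Subtype.ext (congrArg (fun z : T => (z : C.obj.V)) h)
  haveI : Finite T' := Finite.of_injective _ hinj
  have hsurj' : Function.Surjective (fun t : T' => recMap 𝒰 p C inv t.1 t.2.2) := by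
    intro φ
    obtain ⟨c, hc, rfl⟩ := hsurj φ
    obtain ⟨t, ht, c', hc', hct⟩ := hT c hc
    have htinv : ∀ g, C.obj.ρ g t = t := by
      intro g
      have h1 : t = c - p • c' := by rw [hct, add_sub_cancel_right]
      rw [h1, map_sub, map_nsmul, hc g, hc' g]
    have hpc' : ∀ g, C.obj.ρ g (p • c') = p • c' := fun g => by rw [map_nsmul, hc' g]
    have hsum : ∀ g, C.obj.ρ g (t + p • c') = t + p • c' := fun g => by
      rw [map_add, htinv g, hpc' g]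
    refine ⟨⟨t, ht, htinv⟩, ?_⟩
    change recMap 𝒰 p C inv t htinv = recMap 𝒰 p C inv c hc
    rw [recMap_congr' 𝒰 p C inv c (t + p • c') hct hc hsum,
      recMap_add 𝒰 p C inv t (p • c') htinv hpc', recMap_nsmul_self 𝒰 p C inv c' hc' hpc',
      add_zero]
  calc Nat.card (CharacterModule (smH 𝒰 (trivSm ℤ 𝒰 (ZMod p)) 1))
      ≤ Nat.card T' := Nat.card_le_card_of_surjective _ hsurj'
    _ ≤ Nat.card T := Nat.card_le_card_of_injective _ hinj
    _ = T.card := by rw [Nat.card_eq_fintype_card, Fintype.card_coe]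

variable {𝒰}

/-- the level-constant homomorphisms `Γ → ℤ/p` are classified by `H¹(Γ, ℤ/p)`. -/
noncomputable def lcHomTopEquiv :
    {f : Γ →* Multiplicative (ZMod p) // ∃ V ∈ 𝒰.sets, V ≤ f.ker} ≃
      smH 𝒰 (trivSm ℤ 𝒰 (ZMod p)) 1 :=
  Equiv.ofBijective (fun f => homClass 𝒰 (ZMod p) f.1 f.2)
    ⟨fun f f' h => Subtype.ext ((homClass_eq_iff f.1 f'.1 f.2 f'.2).1 h),
      fun x => by
        obtain ⟨f, hf, hx⟩ := exists_homClass_eq x
        exact ⟨⟨f, hf⟩, hx⟩⟩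

/-- the level-constant homomorphisms `U → ℤ/p` are classified by `H¹(U, ℤ/p)`. -/
noncomputable def lcHomEquiv (U : Subgroup Γ) :
    LcHom 𝒰 U p ≃ smH (𝒰.sub U) (trivSm ℤ (𝒰.sub U) (ZMod p)) 1 :=
  lcHomTopEquiv (𝒰 := 𝒰.sub U) p

end Abstract

section Padic

variable (q : ℕ) [Fact q.Prime] (p : ℕ) [hp : Fact p.Prime]

/-- **(fin), quantitative form** for `(G_q, B_q)`, `q ≠ p`: `B_q^U / p` has at most `p²` elements. -/
theorem padic_fin_card (hqp : q ≠ p)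
    (U : Subgroup (PadicAlgCl q ≃ₐ[ℚ_[q]] PadicAlgCl q)) (hU : (padicBasis q).IsOpen U) :
    ∃ T : Finset (padicBSm q).obj.V, T.card ≤ p ^ 2 ∧ ∀ c : (padicBSm q).obj.V,
      (∀ g ∈ U, (padicBSm q).obj.ρ g c = c) →
      ∃ t ∈ T, ∃ c' : (padicBSm q).obj.V, (∀ g ∈ U, (padicBSm q).obj.ρ g c' = c') ∧
        c = t + p • c' := by
  classical
  obtain ⟨V, hV, hVU⟩ := hU
  obtain ⟨F, hF, rfl⟩ := mem_padicBasis_sets.1 hV
  haveI := hF.1
  obtain ⟨K, hK⟩ : ∃ K : IntermediateField ℚ_[q] (PadicAlgCl q),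
      K = IntermediateField.fixedField U := ⟨_, rfl⟩
  have hKmem : ∀ x : PadicAlgCl q, x ∈ K ↔ ∀ τ ∈ U, τ x = x := by
    intro x
    rw [hK, IntermediateField.mem_fixedField_iff]
  have hKL : K ≤ localLevel q F := fun x hx =>
    mem_of_fixed _ (fun τ hτ => (hKmem x).1 hx τ (hVU hτ))
  haveI : FiniteDimensional ℚ_[q] K :=
    Module.Finite.of_injective (IntermediateField.inclusion hKL).toLinearMap
      (IntermediateField.inclusion_injective hKL)
  obtain ⟨hfin, hcard⟩ := card_units_quotient_pow_le_padic q K hp.out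
  rw [if_neg hqp, mul_one] at hcard
  letI := Fintype.ofFinite (Kˣ ⧸ (powMonoidHom p : Kˣ →* Kˣ).range)
  refine ⟨Finset.univ.image (fun c : Kˣ ⧸ (powMonoidHom p : Kˣ →* Kˣ).range =>
    ofB (subfieldUnitsHom q K F hKL c.out)), ?_, ?_⟩
  · refine Finset.card_image_le.trans ?_
    rw [Finset.card_univ, ← Nat.card_eq_fintype_card]
    exact hcard
  intro c hc
  have hcK : (((toB c : levelUnits q) : (PadicAlgCl q)ˣ) : PadicAlgCl q) ∈ K := by
    rw [hKmem]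
    intro τ hτ
    exact congrArg (fun z : (levelUnitsRep q).V =>
      (((toB z : levelUnits q) : (PadicAlgCl q)ˣ) : PadicAlgCl q)) (hc τ hτ)
  have hne : (⟨_, hcK⟩ : K) ≠ 0 := by
    intro h0
    have := congrArg (fun z : K => (z : PadicAlgCl q)) h0
    exact ((toB c : levelUnits q) : (PadicAlgCl q)ˣ).ne_zero this
  obtain ⟨x, hx⟩ : ∃ x : Kˣ, x = Units.mk0 ⟨_, hcK⟩ hne := ⟨_, rfl⟩
  obtain ⟨h, hh⟩ := QuotientGroup.mk_out_eq_mul (powMonoidHom p : Kˣ →* Kˣ).range x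
  obtain ⟨y, hy⟩ := h.2
  have hxy : x = (QuotientGroup.mk x : Kˣ ⧸ (powMonoidHom p : Kˣ →* Kˣ).range).out * y⁻¹ ^ p := by
    rw [hh, ← hy, powMonoidHom_apply, mul_assoc, ← mul_pow, mul_inv_cancel, one_pow, mul_one]
  refine ⟨ofB (subfieldUnitsHom q K F hKL
      (QuotientGroup.mk x : Kˣ ⧸ (powMonoidHom p : Kˣ →* Kˣ).range).out),
    Finset.mem_image.2 ⟨_, Finset.mem_univ _, rfl⟩, ofB (subfieldUnitsHom q K F hKL y⁻¹), ?_, ?_⟩
  · intro g hg
    apply toB_injective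
    apply Subtype.ext
    apply Units.ext
    exact (hKmem _).1 ((y⁻¹ : Kˣ) : K).2 g hg
  · apply toB_injective
    have h1 : toB c = subfieldUnitsHom q K F hKL x := by
      apply Subtype.ext
      apply Units.ext
      rw [coe_subfieldUnitsHom, hx]
      rfl
    rw [h1]
    conv_lhs => rw [hxy]
    rw [map_mul, map_pow]
    rfl

/-- **`#H¹(U, ℤ/p) ≤ p²`** for the open subgroups of `G_q`, `q ≠ p`. -/
theorem padic_card_smH1_sub_le (hqp : q ≠ p)
    (U : Subgroup (PadicAlgCl q ≃ₐ[ℚ_[q]] PadicAlgCl q)) (hU : (padicBasis q).IsOpen U) :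
    Finite (smH ((padicBasis q).sub U) (trivSm ℤ ((padicBasis q).sub U) (ZMod p)) 1) ∧
      Nat.card (smH ((padicBasis q).sub U) (trivSm ℤ ((padicBasis q).sub U) (ZMod p)) 1) ≤
        p ^ 2 := by
  obtain ⟨T, hTcard, hT⟩ := padic_fin_card q p hqp U hU
  obtain ⟨hfin, hle⟩ := card_smH1_le_of_rec_surj ((padicBasis q).sub U) p
    (resSub (padicBSm q) U) ((padicPClassFormation q p).invU U hU)
    ((padicPClassFormation q p).baseU U hU).rec_surj T (fun c hc => by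
      obtain ⟨t, ht, c', hc', e⟩ := hT c (fun g hg => hc ⟨g, hg⟩)
      exact ⟨t, ht, c', fun g => hc' g.1 g.2, e⟩)
  exact ⟨hfin, hle.trans hTcard⟩

/-- **`#Hom(U, ℤ/p) ≤ p²`** for the open subgroups of `G_q`, `q ≠ p`. -/
theorem padic_card_lcHom_le (hqp : q ≠ p)
    (U : Subgroup (PadicAlgCl q ≃ₐ[ℚ_[q]] PadicAlgCl q)) (hU : (padicBasis q).IsOpen U) :
    Finite (LcHom (padicBasis q) U p) ∧ Nat.card (LcHom (padicBasis q) U p) ≤ p ^ 2 := by
  obtain ⟨hfin, hle⟩ := padic_card_smH1_sub_le q p hqp U hU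
  exact ⟨Finite.of_equiv _ (lcHomEquiv p U).symm, (Nat.card_congr (lcHomEquiv p U)).le.trans hle⟩

end Padic

end Fermat.Agent.CFT.LocForm
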