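/-
S56 / CFT (leaf F1-core, arithmetic part) — helper4.
**`#(ℚ_p^× / ℚ_p^×ᵖ) ≤ p²` for odd `p`**, in the form: the invariants `B_p^{G_p}` modulo `p` are
covered by at most `p²` elements.  (`ℚ_p` contains no nontrivial `p`-th root of unity for odd `p`,
so the index of the `p`-th powers in `ℤ_p^×` is at most `#(ℤ_p / p) = p`.)
-/
import Fermat.Agent.CFT.LocForm.CoarsePCof_helper4
import Fermat.Agent.CFT.LocForm.LQCount_helper4

set_option autoImplicit false
set_option linter.unusedSectionVars false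
set_option linter.style.haveILetI false

open CategoryTheory groupCohomology Polynomial IsLocalRing

namespace Fermat.Agent.CFT.LocForm

open Fermat.Agent.CFT.Coh Fermat.Agent.CFT.Local Fermat.Agent.CFT.Sm Fermat.Agent.CFT.Bridge

section Roots

variable (p : ℕ) [hp : Fact p.Prime]

/-- **`ℚ_p` contains no nontrivial `p`-th root of unity** (`p` odd). -/
theorem padic_eq_one_of_pow_eq_one (hp2 : p ≠ 2) (x : ℚ_[p]) (hx : x ^ p = 1) : x = 1 := by
  by_contra hne
  have hord : orderOf x = p := orderOf_eq_prime hx hne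
  have hprim : IsPrimitiveRoot x p := by
    have h := IsPrimitiveRoot.orderOf x
    rwa [hord] at h
  have hroot : (cyclotomic p ℚ_[p]).IsRoot x := hprim.isRoot_cyclotomic hp.out.pos
  have hirr : Irreducible (cyclotomic p ℚ_[p]) := by
    have := irreducible_cyclotomic_prime_pow_padic p 0
    rwa [zero_add, pow_one] at this
  have hdeg := degree_eq_one_of_irreducible_of_root hirr hroot
  rw [degree_cyclotomic, Nat.totient_prime hp.out] at hdeg
  have h1 : p - 1 = 1 := by exact_mod_cast hdeg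
  have := hp.out.two_le
  omega

end Roots

section Index

variable (A : Type*) [CommRing A] [IsDomain A] [IsDiscreteValuationRing A]
  [Finite (ResidueField A)] [IsAdicComplete (maximalIdeal A) A]

open LocalKummer in
/-- the index of the `p`-th powers in the units of a complete discrete valuation ring without
nontrivial `p`-th roots of unity is at most `#(A / p)`. -/
theorem index_pow_units_le_of_ker_eq_bot (p : ℕ) (hp0 : p ≠ 0) (hp : (p : A) ≠ 0)
    (hker : (powMonoidHom p : Aˣ →* Aˣ).ker = ⊥) :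
    (powMonoidHom p : Aˣ →* Aˣ).range.index ≤ Nat.card (A ⧸ Ideal.span {(p : A)}) := by
  obtain ⟨π, hπ⟩ := IsDiscreteValuationRing.exists_irreducible A
  haveI : Finite (A ⧸ Ideal.span {(p : A)}) := finite_quotient_span_singleton A hp
  have hpπ : (p : A) * π ≠ 0 := mul_ne_zero hp hπ.ne_zero
  haveI : Finite (A ⧸ Ideal.span {(p : A) * π}) := finite_quotient_span_singleton A hpπ
  haveI := finiteIndex_unitsOneMod (A := A) (J := Ideal.span {(p : A) * π})
  have hmap : (unitsOneMod A (Ideal.span {(p : A) * π})).map (powMonoidHom p) ≤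
      unitsOneMod A (Ideal.span {(p : A) * π}) := by
    rw [map_pow_unitsOneMod (A := A) p hp0 hπ]
    apply unitsOneMod_mono
    rw [Ideal.span_singleton_le_span_singleton]
    exact ⟨(p : A), by ring⟩
  have h1 := index_range_eq (powMonoidHom p : Aˣ →* Aˣ)
    (unitsOneMod A (Ideal.span {(p : A) * π})) (unitsOneMod_inf_ker_pow (A := A) p hp hπ) hmap
  rw [map_pow_unitsOneMod (A := A) p hp0 hπ, hker, Subgroup.card_bot, mul_one] at h1
  rw [h1]
  exact relIndex_unitsOneMod_le (A := A) p hp hπ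

end Index

section Top

variable (p : ℕ) [hp : Fact p.Prime]

/-- **`#(ℚ_p^× / p) ≤ p²`** for odd `p` (stated for a subfield `K ≤ ⊥` of `PadicAlgCl p`). -/
theorem card_units_quotient_pow_le_bot (hp2 : p ≠ 2)
    (K : IntermediateField ℚ_[p] (PadicAlgCl p)) [FiniteDimensional ℚ_[p] K] (hK : K ≤ ⊥) :
    Finite (Kˣ ⧸ (powMonoidHom p : Kˣ →* Kˣ).range) ∧
      Nat.card (Kˣ ⧸ (powMonoidHom p : Kˣ →* Kˣ).range) ≤ p ^ 2 := by
  have : CharZero (padicInts p K) :=
    charZero_of_injective_algebraMap (algebraMap_injective' ℤ_[p] ℚ_[p] K (padicInts p K))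
  have hpA : ((p : ℕ) : padicInts p K) ≠ 0 := Nat.cast_ne_zero.mpr hp.out.ne_zero
  obtain ⟨hfin, hcard⟩ :=
    LocalKummer.card_units_quotient_pow_le (padicInts p K) K p hp.out.ne_zero hpA
  refine ⟨hfin, hcard.trans ?_⟩
  have hker : (powMonoidHom p : (padicInts p K)ˣ →* (padicInts p K)ˣ).ker = ⊥ := by
    rw [eq_bot_iff]
    intro u hu
    rw [MonoidHom.mem_ker, powMonoidHom_apply] at hu
    have h1 : (((u : padicInts p K) : K) : PadicAlgCl p) ∈
        (⊥ : IntermediateField ℚ_[p] (PadicAlgCl p)) := hK ((u : padicInts p K) : K).2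
    obtain ⟨x, hx⟩ := IntermediateField.mem_bot.1 h1
    have hup : (((u : padicInts p K) : K) : PadicAlgCl p) ^ p = 1 := by
      have h2 := congrArg (fun v : (padicInts p K)ˣ => (((v : padicInts p K) : K) : PadicAlgCl p)) hu
      exact h2
    have hxp : x ^ p = 1 := by
      apply (algebraMap ℚ_[p] (PadicAlgCl p)).injective
      rw [map_pow, hx, map_one]
      exact hup
    have hx1 := padic_eq_one_of_pow_eq_one p hp2 x hxp
    rw [Subgroup.mem_bot]
    apply Units.ext
    apply Subtype.ext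
    apply Subtype.ext
    rw [← hx, hx1, map_one]
    rfl
  have hidx := index_pow_units_le_of_ker_eq_bot (padicInts p K) p hp.out.ne_zero hpA hker
  have hc := card_padicInts_quotient_span_self p K
  have hKbot : K = ⊥ := le_bot_iff.1 hK
  have hfr : Module.finrank ℚ_[p] K = 1 := by
    rw [hKbot]
    exact IntermediateField.finrank_bot
  rw [hc, hfr, pow_one] at hidx
  calc (powMonoidHom p : (padicInts p K)ˣ →* (padicInts p K)ˣ).range.index * p
      ≤ p * p := Nat.mul_le_mul_right p hidx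
    _ = p ^ 2 := (sq p).symm

/-- **(fin), quantitative form at the top level** for `(G_p, B_p)`, `p` odd: `B_p^{G_p} / p` has at
most `p²` elements. -/
theorem padic_fin_card_top (hp2 : p ≠ 2) :
    ∃ T : Finset (padicBSm p).obj.V, T.card ≤ p ^ 2 ∧ ∀ c : (padicBSm p).obj.V,
      (∀ g, (padicBSm p).obj.ρ g c = c) →
      ∃ t ∈ T, ∃ c' : (padicBSm p).obj.V, (∀ g, (padicBSm p).obj.ρ g c' = c') ∧
        c = t + p • c' := by
  classical
  obtain ⟨K, hK⟩ : ∃ K : IntermediateField ℚ_[p] (PadicAlgCl p),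
      K = (⊥ : IntermediateField ℚ_[p] (PadicAlgCl p)) := ⟨_, rfl⟩
  have hKmem : ∀ x : PadicAlgCl p, x ∈ K ↔ ∀ τ : PadicAlgCl p ≃ₐ[ℚ_[p]] PadicAlgCl p, τ x = x := by
    intro x
    rw [hK]
    constructor
    · intro hx τ
      obtain ⟨y, rfl⟩ := IntermediateField.mem_bot.1 hx
      exact τ.commutes y
    · intro hx
      exact mem_of_fixed _ (fun τ _ => hx τ)
  have hKL : K ≤ localLevel p (⊥ : IntermediateField ℚ (AlgebraicClosure ℚ)) := by
    rw [hK]
    exact bot_le
  haveI : FiniteDimensional ℚ_[p] K := by rw [hK]; infer_instance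
  obtain ⟨hfin, hcard⟩ := card_units_quotient_pow_le_bot p hp2 K hK.le
  letI := Fintype.ofFinite (Kˣ ⧸ (powMonoidHom p : Kˣ →* Kˣ).range)
  refine ⟨Finset.univ.image (fun c : Kˣ ⧸ (powMonoidHom p : Kˣ →* Kˣ).range =>
    ofB (subfieldUnitsHom p K ⊥ hKL c.out)), ?_, ?_⟩
  · refine Finset.card_image_le.trans ?_
    rw [Finset.card_univ, ← Nat.card_eq_fintype_card]
    exact hcard
  intro c hc
  have hcK : (((toB c : levelUnits p) : (PadicAlgCl p)ˣ) : PadicAlgCl p) ∈ K := by
    rw [hKmem]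
    intro τ
    exact congrArg (fun z : (levelUnitsRep p).V =>
      (((toB z : levelUnits p) : (PadicAlgCl p)ˣ) : PadicAlgCl p)) (hc τ)
  have hne : (⟨_, hcK⟩ : K) ≠ 0 := by
    intro h0
    have := congrArg (fun z : K => (z : PadicAlgCl p)) h0
    exact ((toB c : levelUnits p) : (PadicAlgCl p)ˣ).ne_zero this
  obtain ⟨x, hx⟩ : ∃ x : Kˣ, x = Units.mk0 ⟨_, hcK⟩ hne := ⟨_, rfl⟩
  obtain ⟨h, hh⟩ := QuotientGroup.mk_out_eq_mul (powMonoidHom p : Kˣ →* Kˣ).range x
  obtain ⟨y, hy⟩ := h.2
  have hxy : x = (QuotientGroup.mk x : Kˣ ⧸ (powMonoidHom p : Kˣ →* Kˣ).range).out * y⁻¹ ^ p := by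
    rw [hh, ← hy, powMonoidHom_apply, mul_assoc, ← mul_pow, mul_inv_cancel, one_pow, mul_one]
  refine ⟨ofB (subfieldUnitsHom p K ⊥ hKL
      (QuotientGroup.mk x : Kˣ ⧸ (powMonoidHom p : Kˣ →* Kˣ).range).out),
    Finset.mem_image.2 ⟨_, Finset.mem_univ _, rfl⟩, ofB (subfieldUnitsHom p K ⊥ hKL y⁻¹), ?_, ?_⟩
  · intro g
    apply toB_injective
    apply Subtype.ext
    apply Units.ext
    exact (hKmem _).1 ((y⁻¹ : Kˣ) : K).2 g
  · apply toB_injective
    have h1 : toB c = subfieldUnitsHom p K ⊥ hKL x := by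
      apply Subtype.ext
      apply Units.ext
      rw [coe_subfieldUnitsHom, hx]
      rfl
    rw [h1]
    conv_lhs => rw [hxy]
    rw [map_mul, map_pow]
    rfl

end Top

end Fermat.Agent.CFT.LocForm
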