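/-
S56 / CFT (leaf F1-core, concrete part) — helper4.
**`#H¹(G_p, μ_p) ≤ p²` for odd `p`.**  The mod-`p` cyclotomic character of `G_q`, the module
`ℤ/p(1)`, the Kummer sequence `0 → ℤ/p(1) → B_q →(p) B_q → 0`, and the count.
-/
import Fermat.Agent.CFT.LocForm.F1Abs_helper4
import Fermat.Agent.CFT.LocForm.F1Units_helper4
import Fermat.Agent.CFT.LocForm.Below_helper4

set_option autoImplicit false
set_option linter.unusedSectionVars false
set_option linter.style.haveILetI false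

open CategoryTheory groupCohomology

namespace Fermat.Agent.CFT.LocForm

open Fermat.Agent.CFT.Coh Fermat.Agent.CFT.Local Fermat.Agent.CFT.Sm Fermat.Agent.CFT.Bridge

section Character

variable (q : ℕ) [hq : Fact q.Prime] (p : ℕ) [hp : Fact p.Prime]

/-- a fixed primitive `p`-th root of unity of `ℚbar`. -/
noncomputable def globalZeta : AlgebraicClosure ℚ :=
  (exists_primitiveRoot_padicEmbedding q p).choose

/-- its image in `PadicAlgCl q`. -/
noncomputable def padicZeta : PadicAlgCl q := padicEmbedding q (globalZeta q p)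

lemma globalZeta_spec : IsPrimitiveRoot (globalZeta q p) p :=
  (exists_primitiveRoot_padicEmbedding q p).choose_spec.1

lemma padicZeta_spec : IsPrimitiveRoot (padicZeta q p) p :=
  (exists_primitiveRoot_padicEmbedding q p).choose_spec.2

/-- **The mod-`p` cyclotomic character of `G_q`.** -/
noncomputable def padicCyc : (PadicAlgCl q ≃ₐ[ℚ_[q]] PadicAlgCl q) →* (ZMod p)ˣ :=
  (padicZeta_spec q p).autToPow ℚ_[q]

/-- the cyclotomic character as a natural number exponent. -/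
noncomputable def padicCycNat (τ : PadicAlgCl q ≃ₐ[ℚ_[q]] PadicAlgCl q) : ℕ :=
  ((padicCyc q p τ : (ZMod p)ˣ) : ZMod p).val

lemma padicCycNat_cast (τ : PadicAlgCl q ≃ₐ[ℚ_[q]] PadicAlgCl q) :
    ((padicCycNat q p τ : ℕ) : ZMod p) = ((padicCyc q p τ : (ZMod p)ˣ) : ZMod p) :=
  ZMod.natCast_zmod_val _

lemma padicCyc_spec_zeta (τ : PadicAlgCl q ≃ₐ[ℚ_[q]] PadicAlgCl q) :
    τ (padicZeta q p) = padicZeta q p ^ padicCycNat q p τ :=
  ((padicZeta_spec q p).autToPow_spec ℚ_[q] τ).symm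

/-- `τ x = x ^ χ(τ)` for all `p`-th roots of unity `x`. -/
lemma padicCyc_spec (τ : PadicAlgCl q ≃ₐ[ℚ_[q]] PadicAlgCl q) (x : PadicAlgCl q)
    (hx : x ^ p = 1) : τ x = x ^ padicCycNat q p τ := by
  obtain ⟨i, -, rfl⟩ := (padicZeta_spec q p).eq_pow_of_pow_eq_one hx
  rw [map_pow, padicCyc_spec_zeta, ← pow_mul, ← pow_mul, mul_comm]

/-- the global form: `τ` acts on the `p`-th roots of unity of `ℚbar` through `χ(τ)`. -/
lemma localGaloisToGlobal_pow (τ : PadicAlgCl q ≃ₐ[ℚ_[q]] PadicAlgCl q)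
    (μ : AlgebraicClosure ℚ) (hμ : μ ^ p = 1) :
    localGaloisToGlobal q τ μ = μ ^ padicCycNat q p τ := by
  have hinj : Function.Injective (padicEmbedding q) := (padicEmbedding q).injective
  apply hinj
  rw [padicEmbedding_localGaloisToGlobal, map_pow]
  apply padicCyc_spec
  rw [← map_pow, hμ, map_one]

/-- the exponent is determined mod `p`. -/
lemma padicCycNat_eq_of_pow (τ : PadicAlgCl q ≃ₐ[ℚ_[q]] PadicAlgCl q) (a : ℕ)
    (h : τ (padicZeta q p) = padicZeta q p ^ a) :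
    ((a : ℕ) : ZMod p) = ((padicCyc q p τ : (ZMod p)ˣ) : ZMod p) := by
  rw [padicCyc_spec_zeta] at h
  rw [← padicCycNat_cast, ZMod.natCast_eq_natCast_iff']
  have hmod : ∀ b : ℕ, padicZeta q p ^ (b % p) = padicZeta q p ^ b := by
    intro b
    conv_rhs => rw [← Nat.mod_add_div b p, pow_add, pow_mul, (padicZeta_spec q p).pow_eq_one,
      one_pow, mul_one]
  refine (padicZeta_spec q p).pow_inj (Nat.mod_lt _ hp.out.pos) (Nat.mod_lt _ hp.out.pos) ?_
  rw [hmod, hmod, h]

/-- the cyclotomic character is trivial on the subgroup fixing `μ_p`. -/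
lemma padicCyc_eq_one_of_mem (τ : PadicAlgCl q ≃ₐ[ℚ_[q]] PadicAlgCl q)
    (hτ : τ ∈ padicMuFix q p) : padicCyc q p τ = 1 := by
  have h1 : τ (padicZeta q p) = padicZeta q p ^ 1 := by
    rw [pow_one]
    exact hτ _ (padicZeta_spec q p).pow_eq_one
  have h2 := padicCycNat_eq_of_pow q p τ 1 h1
  rw [Nat.cast_one] at h2
  exact Units.ext h2.symm

end Character

section Module

variable (q : ℕ) [hq : Fact q.Prime] (p : ℕ) [hp : Fact p.Prime]

/-- the representation `ℤ/p(1)`: `ℤ/p` with `G_q` acting through the cyclotomic character. -/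
noncomputable def cycRho : Representation ℤ (PadicAlgCl q ≃ₐ[ℚ_[q]] PadicAlgCl q) (ZMod p) where
  toFun τ := LinearMap.mulLeft ℤ ((padicCyc q p τ : (ZMod p)ˣ) : ZMod p)
  map_one' := by
    apply LinearMap.ext
    intro a
    rw [map_one, Units.val_one, LinearMap.mulLeft_apply, one_mul]
    rfl
  map_mul' τ τ' := by
    apply LinearMap.ext
    intro a
    rw [map_mul, Units.val_mul, LinearMap.mulLeft_apply, Module.End.mul_apply,
      LinearMap.mulLeft_apply, LinearMap.mulLeft_apply, mul_assoc]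

lemma cycRho_apply (τ : PadicAlgCl q ≃ₐ[ℚ_[q]] PadicAlgCl q) (a : ZMod p) :
    cycRho q p τ a = ((padicCyc q p τ : (ZMod p)ˣ) : ZMod p) * a := rfl

/-- `ℤ/p(1)` as a `Rep`. -/
noncomputable def cycRep : Rep.{0} ℤ (PadicAlgCl q ≃ₐ[ℚ_[q]] PadicAlgCl q) :=
  Rep.of (cycRho q p)

theorem isSmooth_cycRep : IsSmooth (padicBasis q) (cycRep q p) := by
  intro a
  obtain ⟨U, hU, hle⟩ := isOpen_padicMuFix q p
  refine ⟨U, hU, fun g hg => ?_⟩
  have h : cycRho q p g (show ZMod p from a) = (show ZMod p from a) := by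
    rw [cycRho_apply, padicCyc_eq_one_of_mem q p g (hle hg), Units.val_one, one_mul]
  exact h

/-- **`ℤ/p(1)` as a smooth representation of `(G_q, padicBasis q)`.** -/
noncomputable def cycSm : SmRep ℤ (padicBasis q) :=
  mkSm (padicBasis q) (cycRep q p) (isSmooth_cycRep q p)

lemma cycSm_ρ_apply (τ : PadicAlgCl q ≃ₐ[ℚ_[q]] PadicAlgCl q) (a : (cycSm q p).obj.V) :
    (cycSm q p).obj.ρ τ a = (show (cycSm q p).obj.V from
      ((padicCyc q p τ : (ZMod p)ˣ) : ZMod p) * (show ZMod p from a)) := rfl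

end Module

section Seq

variable (q : ℕ) [hq : Fact q.Prime] (p : ℕ) [hp : Fact p.Prime]

/-- the element of `B_q` given by the fixed primitive `p`-th root of unity. -/
noncomputable def zetaB : levelUnits q :=
  ⟨embUnits q (Units.mk0 (globalZeta q p) ((globalZeta_spec q p).ne_zero hp.out.ne_zero)),
    embUnits_mem_levelUnits q _⟩

lemma coe_zetaB : ((zetaB q p : (PadicAlgCl q)ˣ) : PadicAlgCl q) = padicZeta q p := rfl

/-- the same element, in the carrier of `padicBSm q`. -/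
noncomputable def zetaC : (padicBSm q).obj.V := ofB (zetaB q p)

lemma zetaC_nsmul : p • zetaC q p = 0 :=
  muB_nsmul (padicZeta_spec q p) (coe_zetaB q p)

lemma zetaC_ne_zero : zetaC q p ≠ 0 :=
  muB_ne_zero (padicZeta_spec q p) (coe_zetaB q p)

lemma zetaC_ker (b : (padicBSm q).obj.V) (hb : p • b = 0) : ∃ i : ℕ, b = i • zetaC q p :=
  muB_ker (padicZeta_spec q p) (coe_zetaB q p) b hb

lemma ρ_zetaB (τ : PadicAlgCl q ≃ₐ[ℚ_[q]] PadicAlgCl q) :
    (levelUnitsRep q).ρ τ (ofB (zetaB q p)) = padicCycNat q p τ • ofB (zetaB q p) := by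
  apply eq_of_coe_toB_eq
  rw [coe_toB_ρ, coe_toB_nsmul, toB_ofB, coe_zetaB, padicCyc_spec_zeta]

/-- `τ ζ = χ(τ) • ζ` in `B_q`. -/
lemma ρ_zetaC (τ : PadicAlgCl q ≃ₐ[ℚ_[q]] PadicAlgCl q) :
    (padicBSm q).obj.ρ τ (zetaC q p) = padicCycNat q p τ • zetaC q p :=
  ρ_zetaB q p τ

/-- the additive map `ℤ/p → B_q`, `a ↦ a • ζ`. -/
noncomputable def cycAddHom : ZMod p →+ (padicBSm q).obj.V :=
  zmodToAddHom p (padicBSm q) (zetaC q p) (zetaC_nsmul q p)

lemma cycAddHom_natCast (n : ℕ) : cycAddHom q p ((n : ℕ) : ZMod p) = n • zetaC q p := by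
  have h2 : ((n : ℕ) : ZMod p) = (((n : ℕ) : ℤ) : ZMod p) := by push_cast; rfl
  unfold cycAddHom
  rw [h2, zmodToAddHom_intCast, natCast_zsmul]

lemma cycAddHom_equivariant (g : PadicAlgCl q ≃ₐ[ℚ_[q]] PadicAlgCl q) (a : ZMod p) :
    cycAddHom q p (((padicCyc q p g : (ZMod p)ˣ) : ZMod p) * a) =
      (padicBSm q).obj.ρ g (cycAddHom q p a) := by
  obtain ⟨n, rfl⟩ := ZMod.natCast_zmod_surjective a
  have h1 : ((padicCyc q p g : (ZMod p)ˣ) : ZMod p) * ((n : ℕ) : ZMod p) =
      ((padicCycNat q p g * n : ℕ) : ZMod p) := by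
    rw [← padicCycNat_cast, Nat.cast_mul]
  rw [h1, cycAddHom_natCast, cycAddHom_natCast, map_nsmul, ρ_zetaC, ← mul_smul, mul_comm]

lemma cycAddHom_injective : Function.Injective (cycAddHom q p) := by
  unfold cycAddHom zmodToAddHom
  rw [ZMod.lift_injective]
  intro m hm
  have hm' : m • zetaC q p = 0 := hm
  by_contra hne
  have hcop : IsCoprime m (p : ℤ) := by
    rw [isCoprime_comm, Prime.coprime_iff_not_dvd (Nat.prime_iff_prime_int.1 hp.out)]
    intro hdvd
    exact hne ((ZMod.intCast_zmod_eq_zero_iff_dvd m p).2 hdvd)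
  obtain ⟨u, v, huv⟩ := hcop
  apply zetaC_ne_zero q p
  have h1 : zetaC q p = (u * m + v * (p : ℤ)) • zetaC q p := by
    rw [huv, one_smul]
  rw [h1, add_smul, mul_smul, mul_smul, hm', natCast_zsmul, zetaC_nsmul, smul_zero, smul_zero,
    add_zero]

/-- the inclusion `ℤ/p(1) → B_q`, `a ↦ a • ζ`. -/
noncomputable def cycIncl : cycSm q p ⟶ padicBSm q :=
  smRepHomOfAddHom (A := cycSm q p) (B := padicBSm q) (cycAddHom q p)
    (fun g a => cycAddHom_equivariant q p g a)

lemma cycIncl_apply (a : ZMod p) :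
    (cycIncl q p).hom.hom (show (cycSm q p).obj.V from a) = cycAddHom q p a := rfl

lemma cycIncl_comp_kummerMul : cycIncl q p ≫ kummerMul p (padicBSm q) = 0 := by
  apply smRep_hom_ext_apply
  intro a
  obtain ⟨n, rfl⟩ := ZMod.natCast_zmod_surjective (show ZMod p from a)
  change p • cycAddHom q p ((n : ℕ) : ZMod p) = 0
  rw [cycAddHom_natCast, smul_comm, zetaC_nsmul, smul_zero]

/-- **The twisted Kummer sequence `0 → ℤ/p(1) → B_q →(p) B_q → 0` is short exact.** -/
theorem cycSeq_shortExact :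
    (ShortComplex.mk (cycIncl q p) (kummerMul p (padicBSm q))
      (cycIncl_comp_kummerMul q p)).ShortExact := by
  rw [shortExact_iff]
  refine ⟨cycAddHom_injective q p, ?_, ?_⟩
  · intro b hb
    obtain ⟨n, hn⟩ := zetaC_ker q p b hb
    exact ⟨show (cycSm q p).obj.V from ((n : ℕ) : ZMod p),
      (cycAddHom_natCast q p n).trans hn.symm⟩
  · intro b
    obtain ⟨b', hb'⟩ := padic_div q p b
    exact ⟨b', hb'⟩

end Seq

section Count

variable (p : ℕ) [hp : Fact p.Prime]

/-- **`#H¹(G_p, ℤ/p(1)) ≤ p²`** for odd `p`. -/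
theorem padic_card_smH1_cyc_le (hp2 : p ≠ 2) :
    Finite (smH (padicBasis p) (cycSm p p) 1) ∧
      Nat.card (smH (padicBasis p) (cycSm p p) 1) ≤ p ^ 2 := by
  obtain ⟨T, hTcard, hT⟩ := padic_fin_card_top p hp2
  obtain ⟨hfin, hle⟩ := card_smH1_le_of_kummer p (padicBSm p) (cycSm p p) (cycIncl p p)
    (cycIncl_comp_kummerMul p p) (cycSeq_shortExact p p)
    (padicPClassFormation p p).base.h1_bij.1 T hT
  exact ⟨hfin, hle.trans hTcard⟩

end Count

end Fermat.Agent.CFT.LocForm
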