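/-
S56 / CFT (leaf LQ, Kummer part) — helper4.
**`#H¹(G_q, ℤ/p) ≥ p²` for `p ∣ q - 1`.**  Then `μ_p ⊂ ℚ_q`, the Kummer sequence gives an injection
`ℚ_q^× / p ↪ H¹(G_q, ℤ/p)`, and `q` and a generator of `(ℤ/q)^×` are independent in `ℚ_q^× / p`.
-/
import Fermat.Agent.CFT.LocForm.Below_helper4
import Fermat.Agent.CFT.LocForm.LQCount_helper4

set_option autoImplicit false
set_option linter.unusedSectionVars false
set_option linter.style.haveILetI false

open CategoryTheory groupCohomology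

namespace Fermat.Agent.CFT.LocForm

open Fermat.Agent.CFT.Coh Fermat.Agent.CFT.Local Fermat.Agent.CFT.Sm Fermat.Agent.CFT.Bridge

section Indep

variable {q : ℕ} [hq : Fact q.Prime]

/-- a natural number generating `(ℤ/q)^×`. -/
lemma exists_nat_generator_zmod :
    ∃ (b : ℕ) (u : (ZMod q)ˣ), ((u : (ZMod q)ˣ) : ZMod q) = (b : ZMod q) ∧ orderOf u = q - 1 := by
  obtain ⟨u, hu⟩ := IsCyclic.exists_generator (α := (ZMod q)ˣ)
  refine ⟨(u : ZMod q).val, u, (ZMod.natCast_zmod_val _).symm, ?_⟩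
  rw [orderOf_eq_card_of_forall_mem_zpowers hu, Nat.card_eq_fintype_card, ZMod.card_units]

/-- **Independence of `q` and a generator mod `q` in `ℚ_q^× / p`** (`p ∣ q - 1`). -/
lemma padic_indep {p : ℕ} (hp : p.Prime) (hpq : p ∣ q - 1) {b : ℕ} {u : (ZMod q)ˣ}
    (hub : ((u : (ZMod q)ˣ) : ZMod q) = (b : ZMod q)) (hu : orderOf u = q - 1)
    {i j i' j' : ℕ} (hi : i < p) (hj : j < p) (hi' : i' < p) (hj' : j' < p) (y : ℚ_[q])
    (h : (q : ℚ_[q]) ^ i * (b : ℚ_[q]) ^ j = (q : ℚ_[q]) ^ i' * (b : ℚ_[q]) ^ j' * y ^ p) :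
    i = i' ∧ j = j' := by
  have hq1 : 1 < q := hq.out.one_lt
  have hq0 : (q : ℚ_[q]) ≠ 0 := Nat.cast_ne_zero.2 hq.out.ne_zero
  have hbq : q.Coprime b := by
    rw [Nat.Prime.coprime_iff_not_dvd hq.out]
    intro hdvd
    have h0 : (b : ZMod q) = 0 := (ZMod.natCast_eq_zero_iff b q).2 hdvd
    rw [← hub] at h0
    exact u.ne_zero h0
  have hb0 : (b : ℚ_[q]) ≠ 0 := by
    intro h0
    have h1 : b = 0 := Nat.cast_eq_zero.1 h0
    rw [h1, Nat.coprime_zero_right] at hbq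
    omega
  have hbn : ‖(b : ℚ_[q])‖ = 1 := Padic.norm_natCast_eq_one_iff.2 hbq
  have hy0 : y ≠ 0 := by
    intro h0
    rw [h0, zero_pow hp.ne_zero, mul_zero] at h
    exact mul_ne_zero (pow_ne_zero _ hq0) (pow_ne_zero _ hb0) h
  -- norms
  have hn := congrArg (fun z : ℚ_[q] => ‖z‖) h
  simp only [norm_mul, norm_pow, hbn, one_pow, mul_one, Padic.norm_p,
    Padic.norm_eq_zpow_neg_valuation hy0] at hn
  have hqR : (0 : ℝ) < q := by exact_mod_cast hq.out.pos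
  have hqR1 : (q : ℝ) ≠ 1 := by exact_mod_cast hq1.ne'
  have hn' : (q : ℝ) ^ (-(i : ℤ)) = (q : ℝ) ^ (-(i' : ℤ) + (-y.valuation) * p) := by
    rw [zpow_add₀ hqR.ne', zpow_mul, zpow_neg, zpow_neg, zpow_natCast, zpow_natCast, zpow_natCast,
      ← inv_pow, ← inv_pow]
    exact hn
  have hii := zpow_right_injective₀ hqR hqR1 hn'
  have hi_eq : i = i' := by
    have hdvd : (p : ℤ) ∣ (i : ℤ) - i' := ⟨y.valuation, by linarith⟩
    have habs : |(i : ℤ) - i'| < p := by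
      rw [abs_lt]
      constructor <;> omega
    have := Int.eq_zero_of_abs_lt_dvd hdvd habs
    omega
  refine ⟨hi_eq, ?_⟩
  subst hi_eq
  -- cancel the power of `q`
  have h2 : (b : ℚ_[q]) ^ j = (b : ℚ_[q]) ^ j' * y ^ p := by
    rw [mul_assoc] at h
    exact mul_left_cancel₀ (pow_ne_zero i hq0) h
  have hyn : ‖y‖ = 1 := by
    have h3 := congrArg (fun z : ℚ_[q] => ‖z‖) h2
    simp only [norm_mul, norm_pow, hbn, one_pow, one_mul] at h3
    exact (pow_eq_one_iff_of_nonneg (norm_nonneg y) hp.ne_zero).1 h3.symm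
  obtain ⟨y₁, hy₁⟩ : ∃ y₁ : ℤ_[q], (y₁ : ℚ_[q]) = y := ⟨⟨y, hyn.le⟩, rfl⟩
  have h4 : (b : ℤ_[q]) ^ j = (b : ℤ_[q]) ^ j' * y₁ ^ p := by
    apply Subtype.ext
    push_cast
    rw [hy₁]
    exact h2
  have h5 := congrArg (PadicInt.toZMod (p := q)) h4
  rw [map_pow, map_mul, map_pow, map_pow, map_natCast, ← hub] at h5
  obtain ⟨yb, hyb⟩ : ∃ yb : ZMod q, yb = PadicInt.toZMod y₁ := ⟨_, rfl⟩
  rw [← hyb] at h5
  have hyb0 : yb ≠ 0 := by
    intro h0
    rw [h0, zero_pow hp.ne_zero, mul_zero] at h5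
    exact (pow_ne_zero j u.ne_zero) h5
  obtain ⟨m, hm⟩ := hpq
  have hm0 : m ≠ 0 := by
    intro h0
    rw [h0, mul_zero] at hm
    omega
  have h6 : u ^ (j * m) = u ^ (j' * m) := by
    apply Units.ext
    push_cast
    rw [pow_mul, h5, mul_pow, ← pow_mul, ← pow_mul, ← hm, ZMod.pow_card_sub_one_eq_one hyb0,
      mul_one]
  rw [pow_eq_pow_iff_modEq, hu, hm] at h6
  exact (Nat.ModEq.mul_right_cancel' hm0 h6).eq_of_lt_of_lt hj hj'

end Indep

section MuFix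

variable (q : ℕ) [hq : Fact q.Prime] (p : ℕ) [hp : Fact p.Prime]

lemma ne_of_dvd_sub_one (hpq : p ∣ q - 1) : q ≠ p := by
  intro h
  subst h
  have h1 := Nat.le_of_dvd (by have := hq.out.two_le; omega) hpq
  have := hq.out.two_le
  omega

/-- **`μ_p ⊂ ℚ_q` for `p ∣ q - 1`**: every element of `G_q` fixes the `p`-th roots of unity. -/
theorem padicMuFix_eq_top (hpq : p ∣ q - 1) : padicMuFix q p = ⊤ := by
  have hqp : q ≠ p := ne_of_dvd_sub_one q p hpq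
  obtain ⟨ζ', -, hζ⟩ := exists_primitiveRoot_padicEmbedding q p
  haveI : IsCyclotomicExtension {p} ℚ_[q] (cycSub ℚ_[q] (PadicAlgCl q) p) :=
    isCyclotomicExtension_cycSub _ _ p ⟨_, hζ⟩
  have hunit : IsUnit ((p : ℕ) : ℤ_[q]) := by
    rw [PadicInt.isUnit_iff, PadicInt.norm_natCast_eq_one_iff]
    exact (Nat.coprime_primes hq.out hp.out).2 hqp
  have hM : Module.finrank ℚ_[q] (cycSub ℚ_[q] (PadicAlgCl q) p) = 1 := by
    rw [finrank_cyclotomic ℤ_[q] ℚ_[q] (cycSub ℚ_[q] (PadicAlgCl q) p) p hunit, resCard_padicInt,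
      orderOf_eq_one_iff]
    have h1 : ((q - 1 : ℕ) : ZMod p) = 0 := (ZMod.natCast_eq_zero_iff _ _).2 hpq
    rw [Nat.cast_sub hq.out.one_lt.le, Nat.cast_one, sub_eq_zero] at h1
    exact h1
  have hbot : cycSub ℚ_[q] (PadicAlgCl q) p = ⊥ := IntermediateField.finrank_eq_one_iff.1 hM
  rw [eq_top_iff]
  intro g _ x hx
  have hxmem : x ∈ cycSub ℚ_[q] (PadicAlgCl q) p := mem_cycSub_of_pow_eq_one hp.out.ne_zero hx
  rw [hbot, IntermediateField.mem_bot] at hxmem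
  obtain ⟨y, rfl⟩ := hxmem
  exact g.commutes y

end MuFix

section Lower

variable (q : ℕ) [hq : Fact q.Prime] (p : ℕ) [hp : Fact p.Prime]

/-- nonzero natural numbers as elements of `B_q`. -/
noncomputable def natB (n : ℕ) (hn : n ≠ 0) : levelUnits q :=
  ⟨embUnits q (Units.mk0 (n : AlgebraicClosure ℚ) (Nat.cast_ne_zero.2 hn)),
    embUnits_mem_levelUnits q _⟩

lemma coe_natB (n : ℕ) (hn : n ≠ 0) :
    (((natB q n hn : levelUnits q) : (PadicAlgCl q)ˣ) : PadicAlgCl q) = (n : PadicAlgCl q) := by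
  change padicEmbedding q ((n : ℕ) : AlgebraicClosure ℚ) = _
  exact map_natCast _ n

lemma natB_fixed (n : ℕ) (hn : n ≠ 0) (g : PadicAlgCl q ≃ₐ[ℚ_[q]] PadicAlgCl q) :
    (levelUnitsRep q).ρ g (ofB (natB q n hn)) = ofB (natB q n hn) := by
  apply eq_of_coe_toB_eq
  rw [coe_toB_ρ, toB_ofB, coe_natB, map_natCast]

lemma natB_comb_fixed (n m : ℕ) (hn : n ≠ 0) (hm : m ≠ 0) (i j : ℕ)
    (g : PadicAlgCl q ≃ₐ[ℚ_[q]] PadicAlgCl q) :
    (levelUnitsRep q).ρ g (i • ofB (natB q n hn) + j • ofB (natB q m hm)) =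
      i • ofB (natB q n hn) + j • ofB (natB q m hm) := by
  rw [map_add, map_nsmul, map_nsmul, natB_fixed, natB_fixed]

lemma coe_toB_add (a b : (levelUnitsRep q).V) :
    (((toB (a + b) : levelUnits q) : (PadicAlgCl q)ˣ) : PadicAlgCl q) =
      (((toB a : levelUnits q) : (PadicAlgCl q)ˣ) : PadicAlgCl q) *
        (((toB b : levelUnits q) : (PadicAlgCl q)ˣ) : PadicAlgCl q) := rfl

lemma coe_toB_comb (n m : ℕ) (hn : n ≠ 0) (hm : m ≠ 0) (i j i' j' k : ℕ)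
    (d : (levelUnitsRep q).V)
    (h : i • ofB (natB q n hn) + j • ofB (natB q m hm) =
      i' • ofB (natB q n hn) + j' • ofB (natB q m hm) + k • d) :
    (n : PadicAlgCl q) ^ i * (m : PadicAlgCl q) ^ j =
      (n : PadicAlgCl q) ^ i' * (m : PadicAlgCl q) ^ j' *
        (((toB d : levelUnits q) : (PadicAlgCl q)ˣ) : PadicAlgCl q) ^ k := by
  have h1 := congrArg (fun z : (levelUnitsRep q).V =>
    (((toB z : levelUnits q) : (PadicAlgCl q)ˣ) : PadicAlgCl q)) h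
  rw [coe_toB_add, coe_toB_add, coe_toB_add, coe_toB_nsmul, coe_toB_nsmul, coe_toB_nsmul,
    coe_toB_nsmul, coe_toB_nsmul, toB_ofB, toB_ofB, coe_natB, coe_natB] at h1
  exact h1

/-- **`#H¹(G_q, ℤ/p) ≥ p²` for `p ∣ q - 1`.** -/
theorem padic_card_smH1_ge (hpq : p ∣ q - 1) :
    Finite (smH (padicBasis q) (trivSm ℤ (padicBasis q) (ZMod p)) 1) ∧
      p ^ 2 ≤ Nat.card (smH (padicBasis q) (trivSm ℤ (padicBasis q) (ZMod p)) 1) := by
  classical
  haveI hfin : Finite (smH (padicBasis q) (trivSm ℤ (padicBasis q) (ZMod p)) 1) :=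
    finite_smH1_of_isBaseCF (padicBasis q) p (padicBSm q) _ (padicPClassFormation q p).base
      (padicPLevelFormation q p).fin_top
  refine ⟨hfin, ?_⟩
  have htop := padicMuFix_eq_top q p hpq
  obtain ⟨ζ', hζ', hζ⟩ := exists_primitiveRoot_padicEmbedding q p
  have hζ'0 : ζ' ≠ 0 := hζ'.ne_zero hp.out.ne_zero
  obtain ⟨zB, hzB⟩ : ∃ zB : levelUnits q,
      ((zB : (PadicAlgCl q)ˣ) : PadicAlgCl q) = padicEmbedding q ζ' :=
    ⟨⟨embUnits q (Units.mk0 ζ' hζ'0), embUnits_mem_levelUnits q _⟩, rfl⟩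
  have hzp : p • (ofB zB : (padicBSm q).obj.V) = 0 := muB_nsmul hζ hzB
  have hz : ∀ g, (padicBSm q).obj.ρ g (ofB zB) = ofB zB := fun g =>
    muB_fixed hζ hzB g (by rw [htop]; trivial)
  have hS := kummerSeq_shortExact p (padicBSm q) (ofB zB) hzp hz (muB_ne_zero hζ hzB)
    (muB_ker hζ hzB) (padic_div q p)
  obtain ⟨b, u, hub, hu⟩ := exists_nat_generator_zmod (q := q)
  have hq0 : q ≠ 0 := hq.out.ne_zero
  have hb0 : b ≠ 0 := by
    rintro rfl
    rw [Nat.cast_zero] at hub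
    exact u.ne_zero hub
  let e : Fin p × Fin p → {c : (padicBSm q).obj.V // ∀ g, (padicBSm q).obj.ρ g c = c} :=
    fun ij => ⟨(ij.1 : ℕ) • ofB (natB q q hq0) + (ij.2 : ℕ) • ofB (natB q b hb0), fun g =>
      natB_comb_fixed q q b hq0 hb0 _ _ g⟩
  have hinj : Function.Injective
      (fun ij => kummerDelta p (padicBSm q) (ofB zB) hzp hz hS (e ij)) := by
    intro ij ij' hk
    obtain ⟨d, hd, hsub⟩ := kummerDelta_eq p (padicBSm q) (ofB zB) hzp hz hS _ _ hk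
    have hsum : (e ij).1 = (e ij').1 + p • d := by rw [← hsub]; abel
    have hD : (((toB d : levelUnits q) : (PadicAlgCl q)ˣ) : PadicAlgCl q) ∈
        (⊥ : IntermediateField ℚ_[q] (PadicAlgCl q)) := by
      refine mem_of_fixed _ (fun τ _ => ?_)
      exact congrArg (fun z : (levelUnitsRep q).V =>
        (((toB z : levelUnits q) : (PadicAlgCl q)ˣ) : PadicAlgCl q)) (hd τ)
    rw [IntermediateField.mem_bot] at hD
    obtain ⟨y, hy⟩ := hD
    have h1 := coe_toB_comb q q b hq0 hb0 _ _ _ _ p d hsum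
    rw [← hy] at h1
    have h2 : (q : ℚ_[q]) ^ (ij.1 : ℕ) * (b : ℚ_[q]) ^ (ij.2 : ℕ) =
        (q : ℚ_[q]) ^ (ij'.1 : ℕ) * (b : ℚ_[q]) ^ (ij'.2 : ℕ) * y ^ p := by
      apply (algebraMap ℚ_[q] (PadicAlgCl q)).injective
      rw [map_mul, map_mul, map_mul, map_pow, map_pow, map_pow, map_pow, map_pow, map_natCast,
        map_natCast]
      exact h1
    obtain ⟨h3, h4⟩ := padic_indep hp.out hpq hub hu ij.1.2 ij.2.2 ij'.1.2 ij'.2.2 y h2
    exact Prod.ext (Fin.ext h3) (Fin.ext h4)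
  calc p ^ 2 = Nat.card (Fin p × Fin p) := by
        rw [Nat.card_prod, Nat.card_fin, sq]
    _ ≤ _ := Nat.card_le_card_of_injective _ hinj

end Lower

end Fermat.Agent.CFT.LocForm
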