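/-
S56 / CFT (leaf LQ, assembly) — helper4.
**`#H¹(G_q, Y) ≤ (#H⁰(G_q, Y))²`** for `p ∣ q - 1` and a finite smooth `G_q`-module `Y` killed by
`p` on which an open normal subgroup of index prime to `p` acts trivially (e.g. `ad⁰ ρ̄` for `ρ̄`
unramified at `q` with `ρ̄(Frob_q)` of order prime to `p`).
-/
import Fermat.Agent.CFT.LocForm.LQKummer_helper4
import Fermat.Agent.CFT.Sm.Compare_helper9
import Fermat.Agent.CFT.Bridge.Sha_helper6

set_option autoImplicit false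
set_option linter.unusedSectionVars false
set_option linter.style.haveILetI false

open CategoryTheory CategoryTheory.Abelian groupCohomology ExtCitation

namespace Fermat.Agent.CFT.LocForm

open Fermat.Agent.CFT.Coh Fermat.Agent.CFT.Local Fermat.Agent.CFT.Sm Fermat.Agent.CFT.Bridge
  Fermat.Agent.CFT.Arith

section Extend

variable {Γ : Type} [Group Γ] {𝒰 : OpenBasis Γ} (p : ℕ) [hp : Fact p.Prime]

lemma eq_of_pow_eq_multiplicative_zmod {m : ℕ} (hm : ¬ p ∣ m) (a a' : Multiplicative (ZMod p))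
    (h : a ^ m = a' ^ m) : a = a' := by
  have h1 : m • Multiplicative.toAdd a = m • Multiplicative.toAdd a' := by
    rw [← toAdd_pow, ← toAdd_pow, h]
  rw [nsmul_eq_mul, nsmul_eq_mul] at h1
  have hm0 : ((m : ℕ) : ZMod p) ≠ 0 := fun h0 => hm ((ZMod.natCast_eq_zero_iff m p).1 h0)
  exact Multiplicative.toAdd.injective (mul_left_cancel₀ hm0 h1)

variable (U : Subgroup Γ)

/-- restriction of level-constant homomorphisms to a subgroup. -/
def lcHomRes (f : {f : Γ →* Multiplicative (ZMod p) // ∃ V ∈ 𝒰.sets, V ≤ f.ker}) :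
    LcHom 𝒰 U p :=
  ⟨f.1.comp U.subtype, by
    obtain ⟨V, hV, hVf⟩ := f.2
    exact ⟨V.comap U.subtype, ⟨V, hV, rfl⟩, fun u hu => hVf hu⟩⟩

lemma lcHomRes_apply (f : {f : Γ →* Multiplicative (ZMod p) // ∃ V ∈ 𝒰.sets, V ≤ f.ker})
    (u : ↥U) : (lcHomRes (𝒰 := 𝒰) p U f).1 u = f.1 (u : Γ) := rfl

variable [U.Normal] [U.FiniteIndex]

/-- restriction to a normal subgroup of index prime to `p` is injective on `Hom(-, ℤ/p)`. -/
lemma lcHomRes_injective (hidx : ¬ p ∣ U.index) :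
    Function.Injective (lcHomRes (𝒰 := 𝒰) p U) := by
  intro f f' h
  apply Subtype.ext
  ext g
  have hg : g ^ U.index ∈ U := Subgroup.pow_index_mem U g
  have h1 : f.1 (g ^ U.index) = f'.1 (g ^ U.index) :=
    congrArg (fun ψ : LcHom 𝒰 U p => ψ.1 ⟨g ^ U.index, hg⟩) h
  rw [map_pow, map_pow] at h1
  exact congrArg Multiplicative.toAdd (eq_of_pow_eq_multiplicative_zmod p hidx _ _ h1)

/-- **Extension by counting**: if `Hom(U, ℤ/p)` has at most as many elements as `H¹(Γ, ℤ/p)`,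
every level-constant homomorphism `U → ℤ/p` extends to `Γ`. -/
theorem exists_extension_of_card (hidx : ¬ p ∣ U.index) [Finite (LcHom 𝒰 U p)]
    (hcard : Nat.card (LcHom 𝒰 U p) ≤ Nat.card (smH 𝒰 (trivSm ℤ 𝒰 (ZMod p)) 1))
    (ψ : LcHom 𝒰 U p) :
    ∃ ψ' : Γ →* Multiplicative (ZMod p), ∀ u : ↥U, ψ' (u : Γ) = ψ.1 u := by
  have hcard' : Nat.card (LcHom 𝒰 U p) ≤
      Nat.card {f : Γ →* Multiplicative (ZMod p) // ∃ V ∈ 𝒰.sets, V ≤ f.ker} := by
    rw [Nat.card_congr (lcHomTopEquiv (𝒰 := 𝒰) p)]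
    exact hcard
  obtain ⟨f, hf⟩ := ((lcHomRes_injective (𝒰 := 𝒰) p U hidx).bijective_of_nat_card_le hcard').2 ψ
  refine ⟨f.1, fun u => ?_⟩
  rw [← hf]
  rfl

end Extend

section Padic

variable (q : ℕ) [hq : Fact q.Prime] (p : ℕ) [hp : Fact p.Prime]

/-- **`#H¹(G_q, Y) ≤ (#Y^{G_q})²`** (smooth cohomology over the fine basis of `G_q`). -/
theorem padic_card_smH_one_le_sq (hpq : p ∣ q - 1) (Y : SmRep ℤ (padicBasis q))
    [Finite Y.obj.V] (hpY : ∀ y : Y.obj.V, p • y = 0)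
    (U : Subgroup (PadicAlgCl q ≃ₐ[ℚ_[q]] PadicAlgCl q)) [U.Normal]
    (hU : (padicBasis q).IsOpen U) (hidx : ¬ p ∣ U.index)
    (hUY : ∀ u ∈ U, ∀ y : Y.obj.V, Y.obj.ρ u y = y) :
    Nat.card (smH (padicBasis q) Y 1) ≤ Nat.card (smInvariants Y) ^ 2 := by
  haveI : U.FiniteIndex := hU.finiteIndex
  have hqp : q ≠ p := ne_of_dvd_sub_one q p hpq
  obtain ⟨hfinU, hleU⟩ := padic_card_lcHom_le q p hqp U hU
  obtain ⟨-, hge⟩ := padic_card_smH1_ge q p hpq
  exact card_smH_one_le_sq p Y U hUY hpY hidx hleU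
    (exists_extension_of_card p U hidx (hleU.trans hge))

end Padic

section Ext

variable {Γ : Type} [Group Γ] {𝒰 : OpenBasis Γ}

lemma card_ext_zero_eq (Y : SmRep ℤ 𝒰) :
    Nat.card (Ext (smUnit ℤ 𝒰) Y 0) = Nat.card (smInvariants Y) := by
  rw [Nat.card_congr (smUnitZeroEquiv Y).toEquiv, Nat.card_congr (smHZeroEquiv Y).toEquiv]
  exact Nat.card_congr (Equiv.subtypeEquivRight fun y => Iff.rfl)

lemma card_ext_one_eq (Y : SmRep ℤ 𝒰) :
    Nat.card (Ext (smUnit ℤ 𝒰) Y 1) = Nat.card (smH 𝒰 Y 1) :=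
  Nat.card_congr (smUnitCompare Y 1).toEquiv

end Ext

section Wrapper

variable (q : Nat.Primes) (p : ℕ) [hp : Fact p.Prime]

/-- **(LQ), general form.** For `p ∣ q - 1` and a finite smooth `G_q`-module `Y` killed by `p` on
which an open normal subgroup of index prime to `p` acts trivially:
`#H¹(G_q, Y) ≤ (#H⁰(G_q, Y))²`. -/
theorem loc_card_ext_one_le_sq (hpq : p ∣ (q : ℕ) - 1) (Y : SmRep ℤ (locBasis q))
    [Finite Y.obj.V] (hpY : ∀ y : Y.obj.V, p • y = 0)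
    (U : Subgroup (primeLocalGaloisGroup q)) [hUn : U.Normal]
    (hU : (locBasis q).IsOpen U) (hidx : ¬ p ∣ U.index)
    (hUY : ∀ u ∈ U, ∀ y : Y.obj.V, Y.obj.ρ u y = y) :
    Nat.card (Ext (smUnit ℤ (locBasis q)) Y 1) ≤
      Nat.card (Ext (smUnit ℤ (locBasis q)) Y 0) ^ 2 := by
  haveI : Fact (q : ℕ).Prime := ⟨q.2⟩
  rw [card_ext_zero_eq, card_ext_one_eq]
  exact @padic_card_smH_one_le_sq (q : ℕ) _ p _ hpq Y _ hpY U hUn hU hidx hUY

end Wrapper

end Fermat.Agent.CFT.LocForm
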