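/-
S56 / CFT (leaf F1-core, assembly) — helper4.
**`#H¹(G_p, Y) ≤ (#Y)²`** for odd `p` and a finite smooth `G_p`-module `Y` killed by `p` on which
`G_p` acts through the mod-`p` cyclotomic character (`Y ≅ μ_p^f`); in particular
`#Ext¹_{G_p}(1, k(ε̄)) ≤ |k|²`.
-/
import Fermat.Agent.CFT.LocForm.F1Cyc_helper4
import Fermat.Agent.CFT.LocForm.LQMain_helper4

set_option autoImplicit false
set_option linter.unusedSectionVars false
set_option linter.style.haveILetI false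

open CategoryTheory CategoryTheory.Abelian groupCohomology ExtCitation

namespace Fermat.Agent.CFT.LocForm

open Fermat.Agent.CFT.Coh Fermat.Agent.CFT.Local Fermat.Agent.CFT.Sm Fermat.Agent.CFT.Bridge
  Fermat.Agent.CFT.Arith

section General

variable (p : ℕ) [hp : Fact p.Prime]

/-- **`#H¹(G_p, Y) ≤ (#Y)²`** for a finite `p`-torsion module with cyclotomic action (smooth
cohomology over the fine basis of `G_p`), `p` odd. -/
theorem padic_card_smH1_le_of_cyc (hp2 : p ≠ 2) (Y : SmRep ℤ (padicBasis p)) [Finite Y.obj.V]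
    (hpY : ∀ y : Y.obj.V, p • y = 0)
    (hact : ∀ (τ : PadicAlgCl p ≃ₐ[ℚ_[p]] PadicAlgCl p) (y : Y.obj.V),
      Y.obj.ρ τ y = padicCycNat p p τ • y) :
    Finite (smH (padicBasis p) Y 1) ∧
      Nat.card (smH (padicBasis p) Y 1) ≤ Nat.card Y.obj.V ^ 2 := by
  classical
  letI : Module (ZMod p) Y.obj.V := AddCommGroup.zmodModule (n := p) hpY
  haveI : Module.Finite (ZMod p) Y.obj.V := Module.Finite.of_finite
  obtain ⟨r, hr⟩ : ∃ r : ℕ, r = Module.finrank (ZMod p) Y.obj.V := ⟨_, rfl⟩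
  have b : Module.Basis (Fin r) (ZMod p) Y.obj.V := hr ▸ Module.finBasis (ZMod p) Y.obj.V
  obtain ⟨hfinZ, hcardZ⟩ := padic_card_smH1_cyc_le p hp2
  -- the coordinate morphisms
  let l : Fin r → (Y ⟶ cycSm p p) := fun i =>
    smRepHomOfAddHom (A := Y) (B := cycSm p p) (b.coord i).toAddMonoidHom (fun g y => by
      change b.coord i (Y.obj.ρ g y) =
        ((padicCyc p p g : (ZMod p)ˣ) : ZMod p) * b.coord i y
      rw [hact g y, map_nsmul, nsmul_eq_mul, padicCycNat_cast])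
  let e : Fin r → (cycSm p p ⟶ Y) := fun i =>
    smRepHomOfAddHom (A := cycSm p p) (B := Y)
      (LinearMap.toSpanSingleton (ZMod p) Y.obj.V (b i)).toAddMonoidHom (fun g a => by
      change (((padicCyc p p g : (ZMod p)ˣ) : ZMod p) * (show ZMod p from a)) • b i =
        Y.obj.ρ g ((show ZMod p from a) • b i)
      rw [hact g, ← Nat.cast_smul_eq_nsmul (ZMod p), padicCycNat_cast, mul_smul])
  have hsum : ∑ i, l i ≫ e i = 𝟙 Y := by
    apply smRep_hom_ext_apply
    intro y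
    rw [smRep_sum_hom_apply]
    exact b.sum_repr y
  obtain ⟨hfinY, hcardY⟩ := card_smH_le_pow_of_sum Y (cycSm p p) l e hsum 1
  refine ⟨hfinY, hcardY.trans ?_⟩
  have hV : Nat.card Y.obj.V = p ^ r := by
    rw [Module.natCard_eq_pow_finrank (K := ZMod p) (V := Y.obj.V), Nat.card_zmod, hr]
  rw [Fintype.card_fin, hV]
  calc Nat.card (smH (padicBasis p) (cycSm p p) 1) ^ r ≤ (p ^ 2) ^ r :=
        Nat.pow_le_pow_left hcardZ r
    _ = (p ^ r) ^ 2 := by rw [← pow_mul, ← pow_mul, mul_comm]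

end General

section Wrapper

variable (p : ℕ) [hp : Fact p.Prime]

/-- **(F1-core), general form.** For odd `p` and a finite smooth `G_p`-module `Y` killed by `p` on
which `G_p` acts through the mod-`p` cyclotomic character: `#Ext¹(1, Y) ≤ (#Y)²`. -/
theorem loc_card_ext_one_le_of_cyc (hp2 : p ≠ 2) (Y : SmRep ℤ (locBasis (pPrime p)))
    [Finite Y.obj.V] (hpY : ∀ y : Y.obj.V, p • y = 0)
    (hact : ∀ (τ : primeLocalGaloisGroup (pPrime p)) (a : ℕ),
      (∀ μ : AlgebraicClosure ℚ, μ ^ p = 1 → primeLocalToGlobal (pPrime p) τ μ = μ ^ a) →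
      ∀ y : Y.obj.V, Y.obj.ρ τ y = a • y) :
    Finite (Ext (smUnit ℤ (locBasis (pPrime p))) Y 1) ∧
      Nat.card (Ext (smUnit ℤ (locBasis (pPrime p))) Y 1) ≤ Nat.card Y.obj.V ^ 2 := by
  obtain ⟨hfin, hcard⟩ := @padic_card_smH1_le_of_cyc p _ hp2 Y _ hpY
    (fun τ y => hact τ _ (fun μ hμ => localGaloisToGlobal_pow p p τ μ hμ) y)
  have hfin' : Finite (smH (locBasis (pPrime p)) Y 1) := hfin
  refine ⟨Finite.of_equiv _ (smUnitCompare Y 1).toEquiv.symm, ?_⟩
  rw [card_ext_one_eq]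
  exact hcard

/-- **(F1-core), character form**: `#Ext¹_{G_p}(1, k(χ)) ≤ |k|²` for a character `χ : G_p → kˣ`
which is the mod-`p` cyclotomic character. -/
theorem loc_card_ext_one_le_of_char (hp2 : p ≠ 2) {k : Type} [Field k] [Finite k] [CharP k p]
    (χ : primeLocalGaloisGroup (pPrime p) →* kˣ)
    (hχ : ∀ (τ : primeLocalGaloisGroup (pPrime p)) (a : ℕ),
      (∀ μ : AlgebraicClosure ℚ, μ ^ p = 1 → primeLocalToGlobal (pPrime p) τ μ = μ ^ a) →
      ((χ τ : kˣ) : k) = a)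
    (Y₁ : SmRep ℤ (locBasis (pPrime p))) (e : Y₁.obj.V ≃+ k)
    (hρ : ∀ (τ : primeLocalGaloisGroup (pPrime p)) (y : Y₁.obj.V),
      e (Y₁.obj.ρ τ y) = ((χ τ : kˣ) : k) * e y) :
    Finite (Ext (smUnit ℤ (locBasis (pPrime p))) Y₁ 1) ∧
      Nat.card (Ext (smUnit ℤ (locBasis (pPrime p))) Y₁ 1) ≤ Nat.card k ^ 2 := by
  haveI : Finite Y₁.obj.V := Finite.of_equiv _ e.toEquiv.symm
  have hpY : ∀ y : Y₁.obj.V, p • y = 0 := by
    intro y
    apply e.injective
    rw [map_nsmul, map_zero, nsmul_eq_mul, CharP.cast_eq_zero, zero_mul]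
  have hact : ∀ (τ : primeLocalGaloisGroup (pPrime p)) (a : ℕ),
      (∀ μ : AlgebraicClosure ℚ, μ ^ p = 1 → primeLocalToGlobal (pPrime p) τ μ = μ ^ a) →
      ∀ y : Y₁.obj.V, Y₁.obj.ρ τ y = a • y := by
    intro τ a ha y
    apply e.injective
    rw [hρ, hχ τ a ha, map_nsmul, nsmul_eq_mul]
  have h := loc_card_ext_one_le_of_cyc p hp2 Y₁ hpY hact
  rw [Nat.card_congr e.toEquiv] at h
  exact h

end Wrapper

end Fermat.Agent.CFT.LocForm
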