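/-
S56 / CFT (leaf FIN-1) — helper4.
**Finiteness of `H¹(Γ, X)` for finite `p`-torsion smooth modules `X`.**  If an open normal subgroup
`U` acts trivially on `X` and there are only finitely many level-constant homomorphisms `U → ℤ/p`,
then `H¹(Γ, X)` is finite: a cocycle is determined by its restriction to `U` (a level-constant
homomorphism `U → X`) and its values on coset representatives.  The finiteness of `Hom(U, ℤ/p)`
follows from a `p`-class formation with `C^U / p` finite; in particular for the local Galois groups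
`G_v` (all `v`, including `v = p`).
-/
import Fermat.Agent.CFT.LocForm.LQMain_helper4

set_option autoImplicit false
set_option linter.unusedSectionVars false
set_option linter.style.haveILetI false

open CategoryTheory CategoryTheory.Abelian groupCohomology ExtCitation

namespace Fermat.Agent.CFT.LocForm

open Fermat.Agent.CFT.Coh Fermat.Agent.CFT.Local Fermat.Agent.CFT.Sm Fermat.Agent.CFT.Bridge
  Fermat.Agent.CFT.Arith

section Abstract

variable {Γ : Type} [Group Γ] {𝒰 : OpenBasis Γ} (p : ℕ) [hp : Fact p.Prime]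

/-- **Finiteness of `H¹(Γ, X)`** from the finiteness of `Hom(U, ℤ/p)` for an open normal subgroup
`U` acting trivially on the finite `p`-torsion module `X`. -/
theorem finite_smH_one_of_finite_lcHom (X : SmRep ℤ 𝒰) [Finite X.obj.V]
    (hpX : ∀ x : X.obj.V, p • x = 0) (U : Subgroup Γ) [U.Normal] [U.FiniteIndex]
    (hUX : ∀ u ∈ U, ∀ x : X.obj.V, X.obj.ρ u x = x) [Finite (LcHom 𝒰 U p)] :
    Finite (smH 𝒰 X 1) := by
  classical
  letI : Module (ZMod p) X.obj.V := AddCommGroup.zmodModule (n := p) hpX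
  haveI : Finite (Module.Dual (ZMod p) X.obj.V) :=
    Finite.of_injective (fun φ : Module.Dual (ZMod p) X.obj.V => (φ : X.obj.V → ZMod p))
      DFunLike.coe_injective
  haveI : Finite (Γ ⧸ U) := Subgroup.finite_quotient_of_finiteIndex
  -- representatives
  have hrep : ∀ x : smH 𝒰 X 1, ∃ c : cocycles₁ X.obj, IsLC₁ 𝒰 (c : Γ → X.obj.V) ∧
      (H1π X.obj).hom c = smHToH X 1 x := fun x =>
    (mem_range_smHToH_one_iff X _).1 ⟨x, rfl⟩
  choose c hcLC hcx using hrep
  let Φ : smH 𝒰 X 1 → (Module.Dual (ZMod p) X.obj.V → LcHom 𝒰 U p) × (Γ ⧸ U → X.obj.V) :=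
    fun x => (fun φ => cocycleLcHom p X U hUX (c x) (hcLC x) φ.toAddMonoidHom,
      fun δ => c x (Quotient.out δ))
  have hΦ : Function.Injective Φ := by
    intro x x' hxx'
    apply smHToH_one_injective X
    rw [← hcx x, ← hcx x']
    have hU : ∀ u ∈ U, (c x) u = (c x') u := by
      intro u hu
      rw [← sub_eq_zero]
      refine (Module.forall_dual_apply_eq_zero_iff (ZMod p) ((c x) u - (c x') u)).1 fun φ => ?_
      have h1 := congrArg (fun f => ((f.1 φ : LcHom 𝒰 U p)).1 ⟨u, hu⟩) hxx'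
      have h2 : φ ((c x) u) = φ ((c x') u) := Multiplicative.ofAdd.injective h1
      rw [map_sub, h2, sub_self]
    have hall : ∀ g : Γ, (c x) g = (c x') g := by
      intro g
      obtain ⟨δ, hδ⟩ : ∃ δ : Γ ⧸ U, δ = (QuotientGroup.mk g : Γ ⧸ U) := ⟨_, rfl⟩
      have hmem : (Quotient.out δ)⁻¹ * g ∈ U := by
        rw [← QuotientGroup.eq, ← hδ]
        exact QuotientGroup.out_eq' δ
      have hg : g = Quotient.out δ * ((Quotient.out δ)⁻¹ * g) := by group
      have hout : (c x) (Quotient.out δ) = (c x') (Quotient.out δ) :=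
        congrArg (fun f => f.2 δ) hxx'
      rw [hg, (mem_cocycles₁_iff (c x)).1 (c x).2, (mem_cocycles₁_iff (c x')).1 (c x').2,
        hU _ hmem, hout]
    have hcc : c x = c x' := by
      apply Subtype.ext
      funext g
      exact hall g
    rw [hcc]
  exact Finite.of_injective Φ hΦ

variable (C : SmRep ℤ 𝒰)

/-- `Hom(U, ℤ/p)` is finite for the open subgroups of a `p`-class formation with `C^U / p`
finite. -/
theorem finite_lcHom_of_formation (F : PClassFormation 𝒰 p C)
    (hfin : ∀ U : Subgroup Γ, 𝒰.IsOpen U → ∃ T : Finset C.obj.V,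
      ∀ c : C.obj.V, (∀ g ∈ U, C.obj.ρ g c = c) →
        ∃ t ∈ T, ∃ c' : C.obj.V, (∀ g ∈ U, C.obj.ρ g c' = c') ∧ c = t + p • c')
    (U : Subgroup Γ) (hU : 𝒰.IsOpen U) : Finite (LcHom 𝒰 U p) := by
  haveI : Finite (smH (𝒰.sub U) (trivSm ℤ (𝒰.sub U) (ZMod p)) 1) := by
    refine finite_smH1_of_isBaseCF (𝒰.sub U) p (resSub C U) _ (F.baseU U hU) ?_
    obtain ⟨T, hT⟩ := hfin U hU
    refine ⟨T, fun c hc => ?_⟩
    obtain ⟨t, ht, c', hc', e⟩ := hT c (fun g hg => hc ⟨g, hg⟩)
    exact ⟨t, ht, c', fun g => hc' g.1 g.2, e⟩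
  exact Finite.of_equiv _ (lcHomEquiv p U).symm

/-- **(FIN-1), abstract form**: for a `p`-class formation with `C^U / p` finite for all open `U`,
`H¹(Γ, X)` is finite for every finite smooth `p`-torsion module `X`. -/
theorem finite_smH_one_of_formation (F : PClassFormation 𝒰 p C)
    (hfin : ∀ U : Subgroup Γ, 𝒰.IsOpen U → ∃ T : Finset C.obj.V,
      ∀ c : C.obj.V, (∀ g ∈ U, C.obj.ρ g c = c) →
        ∃ t ∈ T, ∃ c' : C.obj.V, (∀ g ∈ U, C.obj.ρ g c' = c') ∧ c = t + p • c')
    (X : SmRep ℤ 𝒰) [Finite X.obj.V] (hpX : ∀ x : X.obj.V, p • x = 0) :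
    Finite (smH 𝒰 X 1) := by
  obtain ⟨U, hU, hfix⟩ := X.property.exists_mem_forall_fixed (fun x : X.obj.V => x)
  haveI := 𝒰.normal U hU
  haveI := 𝒰.finiteIndex U hU
  haveI := finite_lcHom_of_formation p C F hfin U (𝒰.isOpen_of_mem hU)
  exact finite_smH_one_of_finite_lcHom p X hpX U (fun u hu x => hfix x u hu)

/-- the `Ext` form. -/
theorem finite_ext_one_of_formation (F : PClassFormation 𝒰 p C)
    (hfin : ∀ U : Subgroup Γ, 𝒰.IsOpen U → ∃ T : Finset C.obj.V,
      ∀ c : C.obj.V, (∀ g ∈ U, C.obj.ρ g c = c) →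
        ∃ t ∈ T, ∃ c' : C.obj.V, (∀ g ∈ U, C.obj.ρ g c' = c') ∧ c = t + p • c')
    (X : SmRep ℤ 𝒰) [Finite X.obj.V] (hpX : ∀ x : X.obj.V, p • x = 0) :
    Finite (Ext (smUnit ℤ 𝒰) X 1) := by
  haveI := finite_smH_one_of_formation p C F hfin X hpX
  exact Finite.of_equiv _ (smUnitCompare X 1).toEquiv.symm

end Abstract

section Padic

variable (q : ℕ) [hq : Fact q.Prime] (p : ℕ) [hp : Fact p.Prime]

/-- **`H¹(G_q, Y)` is finite** for finite `p`-torsion smooth `Y` (all primes `q`, `p`). -/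
theorem padic_finite_smH_one (Y : SmRep ℤ (padicBasis q)) [Finite Y.obj.V]
    (hpY : ∀ y : Y.obj.V, p • y = 0) : Finite (smH (padicBasis q) Y 1) :=
  finite_smH_one_of_formation p (padicBSm q) (padicPClassFormation q p)
    (padicPLevelFormation q p).fin Y hpY

end Padic

section Wrapper

variable (v : Nat.Primes) (p : ℕ) [hp : Fact p.Prime]

/-- **(FIN-1), local form**: `Ext¹_{G_v}(1, Y)` is finite for every prime `v` (including `v = p`)
and every finite smooth `p`-torsion `G_v`-module `Y`. -/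
theorem loc_finite_ext_one (Y : SmRep ℤ (locBasis v)) [Finite Y.obj.V]
    (hpY : ∀ y : Y.obj.V, p • y = 0) : Finite (Ext (smUnit ℤ (locBasis v)) Y 1) := by
  haveI : Fact (v : ℕ).Prime := ⟨v.2⟩
  haveI : Finite (smH (locBasis v) Y 1) := @padic_finite_smH_one (v : ℕ) _ p _ Y _ hpY
  exact Finite.of_equiv _ (smUnitCompare Y 1).toEquiv.symm

/-- the smooth-cohomology form. -/
theorem loc_finite_smH_one (Y : SmRep ℤ (locBasis v)) [Finite Y.obj.V]
    (hpY : ∀ y : Y.obj.V, p • y = 0) : Finite (smH (locBasis v) Y 1) :=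
  haveI : Fact (v : ℕ).Prime := ⟨v.2⟩
  @padic_finite_smH_one (v : ℕ) _ p _ Y _ hpY

end Wrapper

end Fermat.Agent.CFT.LocForm
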