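/-
S56 — helper4.
**Existence of a Frobenius element at a GIVEN valuation subring of `ℚ̄` over a prime `l`**
(the proof of `S54.exists_frobenius_general`, which is generic in the valuation subring).
-/
import Fermat.Agent.S54_Frobenius

set_option autoImplicit false
set_option linter.unusedVariables false
set_option linter.style.haveILetI false

namespace Fermat.Agent.CFT.LocForm

open Polynomial IsLocalRing Pointwise Fermat.Agent.S54

attribute [local instance] Fermat.Agent.S54.galActionInt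

section General

variable {L : Type*} [Field L] [Algebra ℚ L] [IsAlgClosed L] [Algebra.IsAlgebraic ℚ L]

/-- a Frobenius element exists at every valuation subring over `l`. -/
theorem exists_isFrobeniusAt_general (A : ValuationSubring L) {l : ℕ} (hl : l.Prime)
    (hlA' : A.LiesOverPrime l) : ∃ σ : L ≃ₐ[ℚ] L, A.IsFrobeniusAt σ l := by
  have hlA : (l : L) ∈ A.nonunits := hlA'
  haveI : CharZero L := algebraRat.charZero L
  haveI : IsAlgClosure ℚ L := ⟨inferInstance, inferInstance⟩
  haveI : IsGalois ℚ L := IsAlgClosure.isGalois ℚ L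
  let P : Ideal ℤ := (primeOf A).under ℤ
  haveI : (primeOf A).LiesOver P := ⟨rfl⟩
  letI : TopologicalSpace (integralClosure ℤ L) := ⊥
  haveI : DiscreteTopology (integralClosure ℤ L) := ⟨rfl⟩
  haveI : ContinuousSMul (L ≃ₐ[ℚ] L) (integralClosure ℤ L) := continuousSMul_galActionInt
  haveI : Algebra.IsInvariant ℤ (integralClosure ℤ L) (L ≃ₐ[ℚ] L) := isInvariant_galActionInt
  let frobAlg : (integralClosure ℤ L ⧸ primeOf A) ≃ₐ[ℤ ⧸ P] (integralClosure ℤ L ⧸ primeOf A) :=
    AlgEquiv.ofRingEquiv (f := frobEquiv A hl hlA) (by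
      intro x
      obtain ⟨n, rfl⟩ := Ideal.Quotient.mk_surjective x
      have h1 : (Ideal.Quotient.mk P n) = ((n : ℤ) : ℤ ⧸ P) := by simp
      rw [h1, map_intCast, map_intCast])
  obtain ⟨⟨σ, hσ⟩, hσ'⟩ :=
    Ideal.Quotient.stabilizerHom_surjective_of_profinite (G := L ≃ₐ[ℚ] L) P (primeOf A) frobAlg
  have hσQ : σ • primeOf A = primeOf A := hσ
  have hσinvQ : σ⁻¹ • primeOf A = primeOf A := by
    conv_lhs => rw [← hσQ]
    rw [inv_smul_smul]
  -- the congruence on `B`
  have hcong : ∀ b : integralClosure ℤ L, A.valuation (σ (b : L) - (b : L) ^ l) < 1 := by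
    intro b
    have h1 : Ideal.Quotient.stabilizerHom (primeOf A) P (L ≃ₐ[ℚ] L) ⟨σ, hσ⟩
        (Ideal.Quotient.mk _ b) = frobAlg (Ideal.Quotient.mk _ b) := by rw [hσ']
    rw [Ideal.Quotient.stabilizerHom_apply] at h1
    have h2 : frobAlg (Ideal.Quotient.mk _ b) = Ideal.Quotient.mk _ (b ^ l) := by
      show frobEquiv A hl hlA (Ideal.Quotient.mk _ b) = _
      rw [frobEquiv_apply, map_pow]
    rw [h2, Ideal.Quotient.eq, mem_primeOf] at h1
    exact h1
  refine ⟨σ, ?_⟩
  have hσA : σ ∈ A.decompositionSubgroup ℚ := by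
    rw [MulAction.mem_stabilizer_iff]
    ext x
    rw [ValuationSubring.mem_pointwise_smul_iff_inv_smul_mem]
    constructor
    · intro h
      have := map_mem_of_smul_primeOf_eq A hl hlA σ hσQ h
      simpa [AlgEquiv.smul_def] using this
    · intro h
      exact map_mem_of_smul_primeOf_eq A hl hlA σ⁻¹ hσinvQ h
  refine ⟨hσA, ?_⟩
  intro xbar
  obtain ⟨a, rfl⟩ := IsLocalRing.residue_surjective xbar
  rw [← IsLocalRing.ResidueField.residue_smul, ← map_pow]
  rw [← sub_eq_zero, ← map_sub, IsLocalRing.residue_eq_zero_iff, A.valuation_lt_one_iff]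
  show A.valuation (σ (a : L) - (a : L) ^ l) < 1
  have hxalg : IsAlgebraic ℤ (a : L) :=
    (IsFractionRing.isAlgebraic_iff ℤ ℚ L).mpr (Algebra.IsAlgebraic.isAlgebraic (a : L))
  obtain ⟨s, hs, hsv, hsx⟩ := exists_fraction A hl hlA hxalg a.2
  have h1 := hcong ⟨s, hs⟩
  have h2 := hcong ⟨s * a, hsx⟩
  simp only at h1 h2
  have hσa : A.valuation (σ (a : L)) ≤ 1 :=
    (A.valuation_le_one_iff _).mpr (map_mem_of_smul_primeOf_eq A hl hlA σ hσQ a.2)
  have key : s ^ l * (σ (a : L) - (a : L) ^ l) =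
      -(σ s - s ^ l) * σ (a : L) + (σ (s * (a : L)) - (s * (a : L)) ^ l) := by
    rw [map_mul]; ring
  have h3 : A.valuation (s ^ l * (σ (a : L) - (a : L) ^ l)) < 1 := by
    rw [key]
    refine lt_of_le_of_lt (A.valuation.map_add _ _) (max_lt ?_ h2)
    rw [map_mul, Valuation.map_neg]
    exact mul_lt_one_of_lt_of_le h1 hσa
  rwa [map_mul, map_pow, hsv, one_pow, one_mul] at h3

end General

/-- **Existence of a Frobenius element at a given valuation subring of `ℚ̄` over `l`.** -/
theorem exists_isFrobeniusAt (A : ValuationSubring (AlgebraicClosure ℚ)) {l : ℕ} (hl : l.Prime)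
    (hlA : A.LiesOverPrime l) :
    ∃ σ : AlgebraicClosure ℚ ≃ₐ[ℚ] AlgebraicClosure ℚ, A.IsFrobeniusAt σ l := by
  have e : (AlgebraicClosure.instAlgebra ℚ : Algebra ℚ (AlgebraicClosure ℚ)) =
      DivisionRing.toRatAlgebra := Subsingleton.elim _ _
  have h : @Algebra.IsAlgebraic ℚ (AlgebraicClosure ℚ) _ _ (AlgebraicClosure.instAlgebra ℚ) :=
    AlgebraicClosure.isAlgebraic ℚ
  haveI : Algebra.IsAlgebraic ℚ (AlgebraicClosure ℚ) := e ▸ h
  exact exists_isFrobeniusAt_general A hl hlA

end Fermat.Agent.CFT.LocForm
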